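import Fermat.Agent.Herbrand.ClassSum

/-!
# S14: primes outside the kernel of a class character cannot all split

If every degree-one prime outside the kernel of a character of order `p` of the class group split
completely in an extension of degree `p`, these primes would carry at most `1/p` of the prime
mass, as do the primes inside the kernel: impossible for `p ≥ 3`.
-/

set_option autoImplicit false

noncomputable section

open Filter Topology NumberField Ideal
open scoped nonZeroDivisors Classical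

namespace FLTA.Herbrand

variable {K : Type*} [Field K] [NumberField K]

/-- An ideal of prime norm as a prime index. -/
def primeIdxOfNorm {q : ℕ} (hq : q.Prime) (Q : Ideal (𝓞 K)) (h : absNorm Q = q) : PrimeIdx K :=
  ⟨⟨Q, mem_nonZeroDivisors_of_ne_zero fun h0 => hq.ne_zero (by rw [← h, h0]; exact map_zero _)⟩,
    (Ideal.prime_iff_isPrime fun h0 => hq.ne_zero (by rw [← h, show Q = ⊥ from h0, absNorm_bot])).mpr
      (Ideal.isPrime_of_irreducible_absNorm (h ▸ hq))⟩

theorem mul_card_le_of_fibers {α β : Type*} [Finite β] (s : Finset α) (f : β → α) (p : ℕ)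
    (h : ∀ a ∈ s, p ≤ Nat.card {b : β // f b = a}) : p * s.card ≤ Nat.card β := by
  have := Fintype.ofFinite β
  rw [Nat.card_eq_fintype_card]
  calc p * s.card = ∑ _a ∈ s, p := by rw [Finset.sum_const, smul_eq_mul, mul_comm]
    _ ≤ ∑ a ∈ s, (Finset.univ.filter fun b => f b = a).card := by
      refine Finset.sum_le_sum fun a ha => (h a ha).trans_eq ?_
      rw [Nat.card_eq_fintype_card, Fintype.card_subtype]
    _ ≤ (Finset.univ : Finset β).card := by
      rw [← Finset.card_biUnion]
      · exact Finset.card_le_univ _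
      · exact fun a _ b _ hab => Finset.disjoint_filter.mpr fun x _ hx hx' => hab (hx.symm.trans hx')

/-- If `φ` is a nontrivial character of order `p ≥ 3` of the class group of `K` and `F/K` has
degree `p`, then some degree-one prime outside the kernel of `φ` has fewer than `p` degree-one
primes above it in `F`. -/
theorem exists_degreeOne_not_split (K F : Type*) [Field K] [NumberField K] [Field F]
    [NumberField F] [Algebra K F] (p : ℕ) [Fact p.Prime] (hp : 3 ≤ p)
    (hdeg : Module.finrank K F = p) (φ : ClassGroup (𝓞 K) →* Multiplicative (ZMod p))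
    (hφ : φ ≠ 1) (S : Finset ℕ) :
    ∃ q : ℕ, q.Prime ∧ q ∉ S ∧ ∃ Q : (Ideal (𝓞 K))⁰, Ideal.absNorm (Q : Ideal (𝓞 K)) = q ∧
      φ (ClassGroup.mk0 Q) ≠ 1 ∧
      Nat.card {P : Ideal (𝓞 F) //
        Ideal.absNorm P = q ∧ P.comap (algebraMap (𝓞 K) (𝓞 F)) = (Q : Ideal (𝓞 K))} < p := by
  by_contra hneg
  push Not at hneg
  obtain ⟨C₁, hC₁⟩ := FLTA.Density.exists_bound_degreeOne_sum K
  obtain ⟨C₂, hC₂⟩ := FLTA.Density.exists_bound_degreeOne_sum F
  obtain ⟨A, hA⟩ := exists_kernelPrime_bound K p φ hφ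
  set B : ℝ := ∑ q ∈ S, (p : ℝ) * FLTA.Density.normCount K q
  have hlog : Tendsto (fun s : ℝ => Real.log (1 / (s - 1))) (𝓝[>] 1) atTop := by
    refine Real.tendsto_log_atTop.comp ?_
    simp only [one_div]
    refine tendsto_inv_nhdsGT_zero.comp ?_
    refine tendsto_nhdsWithin_iff.mpr ⟨?_, ?_⟩
    · exact tendsto_nhdsWithin_of_tendsto_nhds
        (Continuous.tendsto' (by fun_prop) 1 0 (sub_self 1))
    · filter_upwards [self_mem_nhdsWithin] with s (hs : 1 < s)
      exact sub_pos.mpr hs
  have hgt : ∀ᶠ s in 𝓝[>] (1 : ℝ), 1 < s := eventually_mem_nhdsWithin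
  obtain ⟨s, hsK, hsF, hsA, hs, hbig⟩ := (hC₁.and (hC₂.and (hA.and (hgt.and
    (hlog.eventually (eventually_gt_atTop (max (B + C₂ + A + p * C₁) 0))))))).exists
  have hq0 : ∀ q : Nat.Primes, 0 ≤ ((q : ℕ) : ℝ) ^ (-s) := fun q => by positivity
  -- per prime estimate
  have key : ∀ u : Finset Nat.Primes,
      (p : ℝ) * ∑ q ∈ u, (FLTA.Density.normCount K q : ℝ) * ((q : ℕ) : ℝ) ^ (-s) ≤
        2 * Real.log (1 / (s - 1)) + (B + C₂ + A) := by
    intro u
    have := fun q => FLTA.Density.finite_normSubtype K q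
    let X : Nat.Primes → Type _ := fun q => {Q : Ideal (𝓞 K) // absNorm Q = (q : ℕ)}
    let _ : ∀ q, Fintype (X q) := fun q => Fintype.ofFinite _
    let idx : (Σ q, X q) → PrimeIdx K := fun z => primeIdxOfNorm z.1.2 z.2.1 z.2.2
    have hidx : Function.Injective idx := by
      rintro ⟨q, Q, hQ⟩ ⟨q', Q', hQ'⟩ h
      have hQQ : Q = Q' := congrArg (fun P : PrimeIdx K => (P.1 : Ideal (𝓞 K))) h
      subst hQQ
      obtain rfl : q = q' := Subtype.ext (hQ.symm.trans hQ')
      rfl
    let G : ∀ q, Finset (X q) := fun q =>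
      Finset.univ.filter fun Q => φ (ClassGroup.mk0 (idx ⟨q, Q⟩).1) ≠ 1
    let H : ∀ q, Finset (X q) := fun q =>
      Finset.univ.filter fun Q => φ (ClassGroup.mk0 (idx ⟨q, Q⟩).1) = 1
    have hGH : ∀ q : Nat.Primes,
        (FLTA.Density.normCount K q : ℝ) = (G q).card + (H q).card := by
      intro q
      have h := (Finset.univ : Finset (X q)).card_filter_add_card_filter_not
        (fun Q => φ (ClassGroup.mk0 (idx ⟨q, Q⟩).1) = 1)
      rw [FLTA.Density.normCount, show Nat.card {I : Ideal (𝓞 K) // absNorm I = (q : ℕ)} =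
        Fintype.card (X q) from Nat.card_eq_fintype_card, ← Finset.card_univ, ← h]
      push_cast
      exact add_comm _ _
    -- outside the kernel
    have hG : ∀ q : Nat.Primes, (p : ℝ) * (G q).card * ((q : ℕ) : ℝ) ^ (-s) ≤
        (if (q : ℕ) ∈ S then (p : ℝ) * FLTA.Density.normCount K q else 0) +
          (FLTA.Density.normCount F q : ℝ) * ((q : ℕ) : ℝ) ^ (-s) := by
      intro q
      split_ifs with hqS
      · have h1 : ((q : ℕ) : ℝ) ^ (-s) ≤ 1 :=
          Real.rpow_le_one_of_one_le_of_nonpos (Nat.one_le_cast.mpr q.2.one_lt.le) (by linarith)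
        have h2 : (0 : ℝ) ≤ (p : ℝ) * (G q).card := by positivity
        have h3 : (p : ℝ) * (G q).card ≤ (p : ℝ) * FLTA.Density.normCount K q := by
          refine mul_le_mul_of_nonneg_left ?_ (Nat.cast_nonneg p)
          linarith [hGH q, (Nat.cast_nonneg (H q).card : (0 : ℝ) ≤ _)]
        nlinarith [mul_nonneg (Nat.cast_nonneg (FLTA.Density.normCount F q)) (hq0 q)]
      · rw [zero_add]
        refine mul_le_mul_of_nonneg_right ?_ (hq0 q)
        have := FLTA.Density.finite_normSubtype F q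
        have h1 : p * ((G q).image fun Q => Q.1).card ≤ FLTA.Density.normCount F q := by
          refine mul_card_le_of_fibers _
            (fun P : {P : Ideal (𝓞 F) // absNorm P = (q : ℕ)} =>
              P.1.comap (algebraMap (𝓞 K) (𝓞 F))) p fun Q hQ => ?_
          obtain ⟨Q', hQ', rfl⟩ := Finset.mem_image.mp hQ
          refine (hneg q q.2 hqS (idx ⟨q, Q'⟩).1 Q'.2 (Finset.mem_filter.mp hQ').2).trans_eq ?_
          exact Nat.card_congr (Equiv.subtypeSubtypeEquivSubtypeInter
            (fun P : Ideal (𝓞 F) => absNorm P = (q : ℕ)) fun P =>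
              P.comap (algebraMap (𝓞 K) (𝓞 F)) = Q'.1).symm
        rw [Finset.card_image_of_injective _ Subtype.val_injective] at h1
        exact_mod_cast h1
    -- inside the kernel
    have hH : (p : ℝ) * ∑ q ∈ u, ((H q).card : ℝ) * ((q : ℕ) : ℝ) ^ (-s) ≤
        Real.log (1 / (s - 1)) + A := by
      refine le_trans (le_of_eq ?_) (hsA ((u.sigma H).image idx))
      congr 1
      rw [Finset.filter_true_of_mem fun P hP => ?_]
      · rw [Finset.sum_image hidx.injOn, Finset.sum_sigma]
        refine Finset.sum_congr rfl fun q _ => ?_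
        rw [Finset.sum_eq_card_nsmul, nsmul_eq_mul]
        intro Q _
        show ((absNorm Q.1 : ℕ) : ℝ) ^ (-s) = _
        rw [Q.2]
      · obtain ⟨z, hz, rfl⟩ := Finset.mem_image.mp hP
        exact (Finset.mem_filter.mp (Finset.mem_sigma.mp hz).2).2
    have hB : (∑ q ∈ u, if (q : ℕ) ∈ S then (p : ℝ) * FLTA.Density.normCount K q else 0) ≤ B := by
      rw [← Finset.sum_filter, ← Finset.sum_image (g := fun q : Nat.Primes => (q : ℕ))
        (f := fun n => (p : ℝ) * FLTA.Density.normCount K n) Subtype.val_injective.injOn]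
      exact Finset.sum_le_sum_of_subset_of_nonneg
        (Finset.image_subset_iff.mpr fun q hq => (Finset.mem_filter.mp hq).2)
        fun n _ _ => by positivity
    have hF : ∑ q ∈ u, (FLTA.Density.normCount F q : ℝ) * ((q : ℕ) : ℝ) ^ (-s) ≤
        Real.log (1 / (s - 1)) + C₂ := by
      refine (hsF.1.sum_le_tsum u fun q _ => mul_nonneg (Nat.cast_nonneg _) (hq0 q)).trans ?_
      linarith [(abs_le.mp hsF.2).2]
    have hsum := Finset.sum_le_sum (s := u) fun q _ => hG q
    rw [Finset.sum_add_distrib] at hsum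
    have hexp : (p : ℝ) * ∑ q ∈ u, (FLTA.Density.normCount K q : ℝ) * ((q : ℕ) : ℝ) ^ (-s) =
        (∑ q ∈ u, (p : ℝ) * (G q).card * ((q : ℕ) : ℝ) ^ (-s)) +
          (p : ℝ) * ∑ q ∈ u, ((H q).card : ℝ) * ((q : ℕ) : ℝ) ^ (-s) := by
      simp only [hGH, add_mul, Finset.sum_add_distrib, mul_add, Finset.mul_sum, mul_assoc]
    linarith
  have hp3 : (3 : ℝ) ≤ p := by exact_mod_cast hp
  have hD : (p : ℝ) * ∑' q : Nat.Primes, (FLTA.Density.normCount K q : ℝ) * ((q : ℕ) : ℝ) ^ (-s) ≤
      2 * Real.log (1 / (s - 1)) + (B + C₂ + A) := by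
    rw [← tsum_mul_left]
    refine (hsK.1.mul_left _).tsum_le_of_sum_le fun u => ?_
    rw [← Finset.mul_sum]
    exact key u
  have hlow : (p : ℝ) * (Real.log (1 / (s - 1)) - C₁) ≤ (p : ℝ) *
      ∑' q : Nat.Primes, (FLTA.Density.normCount K q : ℝ) * ((q : ℕ) : ℝ) ^ (-s) :=
    mul_le_mul_of_nonneg_left (by linarith [(abs_le.mp hsK.2).1]) (Nat.cast_nonneg _)
  obtain ⟨hbig, hpos⟩ := max_lt_iff.mp hbig
  linarith [mul_le_mul_of_nonneg_right hp3 hpos.le]

end FLTA.Herbrand
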