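import Mathlib.NumberTheory.NumberField.Cyclotomic.Galois
import Mathlib.NumberTheory.NumberField.Cyclotomic.Ideal
import Mathlib.NumberTheory.NumberField.Units.DirichletTheorem

/-!
# Basic objects attached to `ℚ(ζ_p)`

The mod `p` cyclotomic character `galChar`, the cyclotomic unit `1 + ζ` and its projection `eta`
to the eigenspace of the square of the cyclotomic character.
-/

set_option autoImplicit false

open NumberField IsCyclotomicExtension

noncomputable section

namespace FLTA.Herbrand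

variable (p : ℕ) [hp : Fact p.Prime] (K : Type*) [Field K] [NumberField K]
  [hK : IsCyclotomicExtension {p} ℚ K]

/-- The distinguished primitive `p`-th root of unity in `𝓞 K`. -/
def zetaO : 𝓞 K := (zeta_spec p ℚ K).toInteger

theorem zetaO_isPrimitiveRoot : IsPrimitiveRoot (zetaO p K) p :=
  (zeta_spec p ℚ K).toInteger_isPrimitiveRoot

/-- The uniformiser `ζ - 1` at `p`. -/
def piO : 𝓞 K := zetaO p K - 1

/-- The mod `p` cyclotomic character of `Gal(K/ℚ)`. -/
def galChar : Gal(K/ℚ) →* (ZMod p)ˣ := (IsCyclotomicExtension.Rat.galEquivZMod p K).toMonoidHom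

theorem galChar_bijective : Function.Bijective (galChar p K) :=
  (IsCyclotomicExtension.Rat.galEquivZMod p K).bijective

theorem smul_zetaO (σ : Gal(K/ℚ)) :
    σ • zetaO p K = zetaO p K ^ (galChar p K σ : ZMod p).val :=
  IsCyclotomicExtension.Rat.galEquivZMod_smul_of_pow_eq p K σ
    (zetaO_isPrimitiveRoot p K).pow_eq_one

variable {K} in
/-- The action of `Gal(K/ℚ)` on units. -/
def galUnit (σ : Gal(K/ℚ)) : (𝓞 K)ˣ →* (𝓞 K)ˣ :=
  Units.map (MulSemiringAction.toRingHom Gal(K/ℚ) (𝓞 K) σ).toMonoidHom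

variable {K} in
@[simp]
theorem coe_galUnit (σ : Gal(K/ℚ)) (u : (𝓞 K)ˣ) :
    ((galUnit σ u : (𝓞 K)ˣ) : 𝓞 K) = σ • (u : 𝓞 K) := rfl

/-- The square of the cyclotomic character, as an element of `ZMod p`. -/
def chiSq (σ : Gal(K/ℚ)) : ZMod p := ((galChar p K σ : (ZMod p)ˣ) : ZMod p) ^ 2

theorem chiSq_mul (σ τ : Gal(K/ℚ)) : chiSq p K (σ * τ) = chiSq p K σ * chiSq p K τ := by
  simp [chiSq, mul_pow]

theorem chiSq_one : chiSq p K 1 = 1 := by
  simp [chiSq]

theorem chiSq_inv_mul (σ : Gal(K/ℚ)) : chiSq p K σ⁻¹ * chiSq p K σ = 1 := by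
  rw [← chiSq_mul, inv_mul_cancel, chiSq_one]

variable {p} in
theorem isUnit_one_add_zetaO (h3 : 3 ≤ p) : IsUnit (1 + zetaO p K) := by
  obtain ⟨m, hm⟩ : Odd p := hp.out.odd_of_ne_two (by omega)
  have hζ := zetaO_isPrimitiveRoot p K
  have h0 : zetaO p K - 1 ≠ 0 := sub_ne_zero.mpr (hζ.ne_one hp.out.one_lt)
  refine IsUnit.of_mul_eq_one (∑ j ∈ Finset.range (m + 1), (zetaO p K ^ 2) ^ j) ?_
  refine mul_left_cancel₀ h0 ?_
  rw [← mul_assoc, show (zetaO p K - 1) * (1 + zetaO p K) = zetaO p K ^ 2 - 1 by ring,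
    mul_geom_sum, ← pow_mul, show 2 * (m + 1) = p + 1 by omega, pow_succ, hζ.pow_eq_one]
  ring

open scoped Classical in
/-- The unit `1 + ζ` (junk value `1` for `p = 2`). -/
def cycloUnit : (𝓞 K)ˣ :=
  if h : IsUnit (1 + zetaO p K) then h.unit else 1

variable {p} in
theorem coe_cycloUnit (h3 : 3 ≤ p) : (cycloUnit p K : 𝓞 K) = 1 + zetaO p K := by
  rw [cycloUnit, dif_pos (isUnit_one_add_zetaO K h3), IsUnit.unit_spec]

/-- The projection of `1 + ζ` to the `χ²`-eigenspace of units modulo `p`-th powers. -/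
def eta : (𝓞 K)ˣ := ∏ σ : Gal(K/ℚ), galUnit σ (cycloUnit p K) ^ (chiSq p K σ⁻¹).val

end FLTA.Herbrand
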