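import Mathlib
import Fermat.Agent.Herbrand.CycloBasic

/-!
# S14: shared definitions for the descent and the assembly
-/

set_option autoImplicit false

noncomputable section

open NumberField IsCyclotomicExtension
open scoped Pointwise

namespace FLTA.Herbrand

variable (p : ℕ) [Fact p.Prime] (K : Type*) [Field K] [NumberField K]
  [IsCyclotomicExtension {p} ℚ K]

/-- `α` lies in the `χ²` component of `Kˣ` modulo `p`-th powers. -/
def IsEigen (α : 𝓞 K) : Prop :=
  ∀ σ : Gal(K/ℚ), ∃ g h : 𝓞 K, h ≠ 0 ∧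
    σ • α * h ^ p = α ^ (chiSq p K σ).val * g ^ p

/-- `α` is congruent to a rational integer prime to `p` modulo `π ^ 3`. -/
def IsLocalInt (α : 𝓞 K) : Prop :=
  ∃ c : ℤ, ¬ (p : ℤ) ∣ c ∧ piO p K ^ 3 ∣ (α - c)

end FLTA.Herbrand
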