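import Mathlib

/-!
# S14: small helpers for exponents in `ZMod p` and ideals with divisible exponents
-/

set_option autoImplicit false

open UniqueFactorizationMonoid

namespace FLTA.Herbrand

variable {M : Type*} [Monoid M] {p : ℕ} [NeZero p] {z : M}

theorem pow_val_natCast (hz : z ^ p = 1) (n : ℕ) : z ^ ((n : ZMod p)).val = z ^ n := by
  rw [ZMod.val_natCast, ← pow_eq_pow_mod n hz]

theorem pow_val_add (hz : z ^ p = 1) (a b : ZMod p) :
    z ^ (a + b).val = z ^ a.val * z ^ b.val := by
  rw [ZMod.val_add, ← pow_add, ← pow_eq_pow_mod _ hz]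

theorem pow_val_mul (hz : z ^ p = 1) (a b : ZMod p) :
    z ^ (a * b).val = (z ^ a.val) ^ b.val := by
  rw [ZMod.val_mul, ← pow_mul, ← pow_eq_pow_mod _ hz]

theorem pow_val_inj {N : Type*} [CommMonoid N] {z : N} (hz : IsPrimitiveRoot z p) {a b : ZMod p}
    (h : z ^ a.val = z ^ b.val) : a = b :=
  ZMod.val_injective p (hz.pow_inj a.val_lt b.val_lt h)

/-- An ideal all of whose exponents are divisible by `p` is a `p`-th power. -/
theorem exists_pow_eq_of_dvd_count {R : Type*} [CommRing R] [IsDedekindDomain R]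
    {J : Ideal R} (hJ : J ≠ ⊥)
    (h : ∀ P : Ideal R, Irreducible P → ∃ N : ℕ∞, emultiplicity P J = (p : ℕ∞) * N) :
    ∃ I : Ideal R, J = I ^ p := by
  classical
  obtain ⟨u, hu⟩ := Multiset.exists_smul_of_dvd_count (normalizedFactors J) (k := p) fun P hP => by
    have hirr : Irreducible P := (prime_of_normalized_factor P hP).irreducible
    obtain ⟨N, hN⟩ := h P hirr
    rw [emultiplicity_eq_count_normalizedFactors hirr hJ, normalize_eq] at hN
    induction N with
    | top => simp [NeZero.ne p] at hN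
    | coe n => exact ⟨n, by exact_mod_cast hN⟩
  refine ⟨u.prod, ?_⟩
  rw [← Ideal.prod_normalizedFactors_eq_self hJ, hu, Multiset.prod_nsmul]

/-- In a field of characteristic `p` the roots of `X ^ p - X` form the prime field. -/
theorem exists_natCast_eq_of_pow_eq {F : Type*} [Field F] [Fact p.Prime] [CharP F p]
    {y : F} (hy : y ^ p = y) : ∃ n : ℕ, (n : F) = y := by
  have hmem : y ∈ (⊥ : Subfield F) := (Subfield.mem_bot_iff_pow_eq_self F p).mpr hy
  have hle : (⊥ : Subfield F) ≤ (ZMod.castHom (dvd_refl p) F).fieldRange := bot_le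
  obtain ⟨a, ha⟩ := hle hmem
  exact ⟨a.val, by rw [← ha, ZMod.castHom_apply, ZMod.natCast_val]⟩

end FLTA.Herbrand
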