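import Fermat.Agent.Herbrand.Defs
import Fermat.Agent.Herbrand.PowHelpers

/-!
# S14: splitting in Kummer extensions
-/

set_option autoImplicit false

noncomputable section

open NumberField Polynomial
open scoped Pointwise

namespace FLTA.Herbrand

/-- If a unit which is not a `p`-th power is a `p`-th power modulo a degree-one prime `Q`, then
`Q` has `p` degree-one primes above it in the Kummer extension. -/
theorem exists_kummer_split (p : ℕ) [Fact p.Prime] (K : Type) [Field K] [NumberField K]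
    [IsCyclotomicExtension {p} ℚ K] (η : (𝓞 K)ˣ) (hη : ¬ ∃ x : K, ((η : 𝓞 K) : K) = x ^ p) :
    ∃ (F : Type) (_ : Field F) (_ : NumberField F) (_ : Algebra K F),
      Module.finrank K F = p ∧
      ∀ q : ℕ, q.Prime → q ≠ p → ∀ Q : Ideal (𝓞 K), Ideal.absNorm Q = q →
        (∃ y : 𝓞 K, (η : 𝓞 K) - y ^ p ∈ Q) →
        p ≤ Nat.card {P : Ideal (𝓞 F) //
          Ideal.absNorm P = q ∧ P.comap (algebraMap (𝓞 K) (𝓞 F)) = Q} := by
  classical
  have hp := (Fact.out : p.Prime)
  set a : K := ((η : 𝓞 K) : K)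
  have hirr : Irreducible (X ^ p - C a) :=
    X_pow_sub_C_irreducible_of_prime hp fun b hb => hη ⟨b, hb.symm⟩
  set f : K[X] := X ^ p - C a with hf
  haveI : Fact (Irreducible f) := ⟨hirr⟩
  have hzK := IsCyclotomicExtension.zeta_spec p ℚ K
  have hroots : (primitiveRoots p K).Nonempty :=
    ⟨_, (mem_primitiveRoots hp.pos).mpr hzK⟩
  let F := AdjoinRoot f
  haveI : FiniteDimensional K F := (AdjoinRoot.powerBasis hirr.ne_zero).finite
  haveI : CharZero F := charZero_of_injective_algebraMap (algebraMap K F).injective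
  haveI : NumberField F := NumberField.of_module_finite K F
  haveI : IsSplittingField K F f := isSplittingField_AdjoinRoot_X_pow_sub_C hroots hirr
  haveI : IsGalois K F := IsGalois.of_separable_splitting_field (p := f) hirr.separable
  have hdeg : Module.finrank K F = p := by
    rw [(AdjoinRoot.powerBasis hirr.ne_zero).finrank, AdjoinRoot.powerBasis_dim, hf,
      natDegree_X_pow_sub_C]
  refine ⟨F, inferInstance, inferInstance, inferInstance, hdeg, ?_⟩
  rintro q hq hqp Q hQ ⟨y, hy⟩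
  have hQ0 : Q ≠ ⊥ := fun h => by rw [h, Ideal.absNorm_bot] at hQ; exact hq.ne_zero hQ.symm
  haveI hQp : Q.IsPrime := Ideal.isPrime_of_irreducible_absNorm (by rw [hQ]; exact hq)
  haveI : Q.IsMaximal := hQp.isMaximal hQ0
  -- the root
  set r : F := AdjoinRoot.root f
  have hr : r ^ p = algebraMap K F a := by
    have := AdjoinRoot.eval₂_root f
    rw [hf, eval₂_sub, eval₂_X_pow, eval₂_C, sub_eq_zero] at this
    exact this
  have hri : IsIntegral ℤ r := IsIntegral.of_pow hp.pos
    (hr ▸ (RingOfIntegers.isIntegral_coe (η : 𝓞 K)).map ((algebraMap K F).toIntAlgHom))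
  set b : 𝓞 F := ⟨r, hri⟩
  have hb : b ^ p = algebraMap (𝓞 K) (𝓞 F) (η : 𝓞 K) := RingOfIntegers.ext hr
  set ζ : 𝓞 F := algebraMap (𝓞 K) (𝓞 F) (zetaO p K)
  have hζ : IsPrimitiveRoot ζ p :=
    (zetaO_isPrimitiveRoot p K).map_of_injective
      (FaithfulSMul.algebraMap_injective (𝓞 K) (𝓞 F))
  -- every prime above `Q` has trivial stabiliser and norm `q`
  have key : ∀ P : Ideal (𝓞 F), P.IsPrime → P.LiesOver Q →
      (∀ g : Gal(F/K), g • P = P → g = 1) ∧ Ideal.absNorm P = q := by
    intro P hP hPQ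
    haveI := hP
    haveI := hPQ
    have hP0 : P ≠ ⊥ := Ideal.ne_bot_of_liesOver_of_ne_bot hQ0 P
    haveI : P.IsMaximal := hP.isMaximal hP0
    have hqP : (q : 𝓞 F) ∈ P := by
      rw [← map_natCast (algebraMap (𝓞 K) (𝓞 F)), ← Ideal.mem_of_liesOver P Q, ← hQ]
      exact Ideal.absNorm_mem Q
    have hbP : b ∉ P := fun h => by
      have h2 := Ideal.pow_mem_of_mem P h p hp.pos
      rw [hb] at h2
      exact hP.ne_top (Ideal.eq_top_of_isUnit_mem _ h2 (η.isUnit.map _))
    have hyP : b ^ p - algebraMap (𝓞 K) (𝓞 F) y ^ p ∈ P := by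
      rw [hb, ← map_pow, ← map_sub]
      exact (Ideal.mem_of_liesOver P Q _).mp hy
    letI := Ideal.Quotient.field P
    -- `b` is congruent to an element of `𝓞 K`
    obtain ⟨w, hw⟩ : ∃ w : 𝓞 K, b - algebraMap (𝓞 K) (𝓞 F) w ∈ P := by
      have hmkp : Ideal.Quotient.mk P b ^ p =
          Ideal.Quotient.mk P (algebraMap (𝓞 K) (𝓞 F) y) ^ p := by
        rw [← map_pow, ← map_pow]
        exact Ideal.Quotient.eq.mpr hyP
      have hζP : IsPrimitiveRoot (Ideal.Quotient.mk P ζ) p := by
        refine IsPrimitiveRoot.iff_def _ _ |>.mpr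
          ⟨by rw [← map_pow, hζ.pow_eq_one, map_one], fun i hi => ?_⟩
        by_contra hpi
        rw [← map_pow, ← map_one (Ideal.Quotient.mk P), Ideal.Quotient.eq] at hi
        have hdvd : ζ ^ i - 1 ∣ (p : 𝓞 F) := by
          have hζi : IsPrimitiveRoot (ζ ^ i) p :=
            hζ.pow_of_coprime i ((Nat.Prime.coprime_iff_not_dvd hp).mpr hpi).symm
          have := (hζi.sub_one_dvd_natCast hp.one_lt)
          exact this
        have hpP : (p : 𝓞 F) ∈ P := Ideal.mem_of_dvd P hdvd hi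
        have hcop : IsCoprime (p : 𝓞 F) (q : 𝓞 F) :=
          ((Nat.coprime_primes hp hq).mpr (Ne.symm hqp)).cast
        obtain ⟨u, v, huv⟩ := hcop
        exact hP.ne_top ((Ideal.eq_top_iff_one P).mpr
          (huv ▸ add_mem (P.mul_mem_left u hpP) (P.mul_mem_left v hqP)))
      have hy0 : Ideal.Quotient.mk P (algebraMap (𝓞 K) (𝓞 F) y) ≠ 0 := by
        intro h
        rw [h, zero_pow hp.ne_zero, pow_eq_zero_iff hp.ne_zero,
          Ideal.Quotient.eq_zero_iff_mem] at hmkp
        exact hbP hmkp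
      obtain ⟨i, -, hi⟩ := hζP.eq_pow_of_pow_eq_one
        (ξ := Ideal.Quotient.mk P b / Ideal.Quotient.mk P (algebraMap (𝓞 K) (𝓞 F) y))
        (by rw [div_pow, hmkp, div_self (pow_ne_zero _ hy0)])
      refine ⟨zetaO p K ^ i * y, Ideal.Quotient.eq.mp ?_⟩
      rw [eq_div_iff hy0] at hi
      rw [← hi, map_mul, map_mul, map_pow, map_pow]
    -- stabiliser
    have hstab : ∀ g : Gal(F/K), g • P = P → g = 1 := by
      intro g hg
      have hgw : g • algebraMap (𝓞 K) (𝓞 F) w = algebraMap (𝓞 K) (𝓞 F) w :=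
        RingOfIntegers.ext (g.commutes (w : K))
      have hgb : g • b - b ∈ P := by
        have h2 := Ideal.smul_mem_pointwise_smul g _ P hw
        rw [hg, smul_sub, hgw] at h2
        simpa using sub_mem h2 hw
      have hgbp : (g • b) ^ p = b ^ p := by
        rw [← smul_pow', hb]
        exact RingOfIntegers.ext (g.commutes ((η : 𝓞 K) : K))
      -- `g • b = b`
      have hfix : g • b = b := by
        by_contra hne
        have hbF : r ≠ 0 := by
          intro h
          exact hbP (by rw [show b = 0 from RingOfIntegers.ext h]; exact P.zero_mem)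
        have hroot : (g r / r) ^ p = 1 := by
          have := congrArg (fun t : 𝓞 F => (t : F)) hgbp
          rw [div_pow, div_eq_one_iff_eq (pow_ne_zero _ hbF)]
          exact this
        obtain ⟨i, hi, hi'⟩ := (hζ.map_of_injective
          (FaithfulSMul.algebraMap_injective (𝓞 F) F)).eq_pow_of_pow_eq_one hroot
        rw [eq_div_iff hbF] at hi'
        have hgbeq : g • b = ζ ^ i * b := RingOfIntegers.ext (by
          show g r = algebraMap (𝓞 F) F (ζ ^ i * b)
          rw [map_mul, map_pow]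
          exact hi'.symm)
        have hi0 : i ≠ 0 := fun h => hne (by rw [hgbeq, h, pow_zero, one_mul])
        rw [hgbeq, ← sub_one_mul] at hgb
        have hz1 : ζ ^ i - 1 ∈ P := (hP.mem_or_mem hgb).resolve_right hbP
        have hζi : IsPrimitiveRoot (ζ ^ i) p :=
          hζ.pow_of_coprime i ((Nat.Prime.coprime_iff_not_dvd hp).mpr fun h =>
            hi0 (Nat.eq_zero_of_dvd_of_lt h hi)).symm
        have hpP : (p : 𝓞 F) ∈ P := Ideal.mem_of_dvd P (hζi.sub_one_dvd_natCast hp.one_lt) hz1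
        obtain ⟨u, v, huv⟩ : IsCoprime (p : 𝓞 F) (q : 𝓞 F) :=
          ((Nat.coprime_primes hp hq).mpr (Ne.symm hqp)).cast
        exact hP.ne_top ((Ideal.eq_top_iff_one P).mpr
          (huv ▸ add_mem (P.mul_mem_left u hpP) (P.mul_mem_left v hqP)))
      have hcomp : (g : F ≃ₐ[K] F).toAlgHom = AlgHom.id K F :=
        AdjoinRoot.algHom_ext (congrArg (fun t : 𝓞 F => (t : F)) hfix)
      exact AlgEquiv.ext fun x => DFunLike.congr_fun hcomp x
    refine ⟨hstab, ?_⟩
    -- norm
    haveI : Finite (𝓞 F ⧸ P) := Ideal.finiteQuotientOfFreeOfNeBot P hP0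
    have hfrob := IsArithFrobAt.arithFrobAt (𝓞 K) Gal(F/K) P
    rw [hstab _ (IsArithFrobAt.arithFrobAt_mem_stabilizer (𝓞 K) Gal(F/K) P)] at hfrob
    have hcard : Nat.card (𝓞 K ⧸ P.under (𝓞 K)) = q := by
      rw [← hPQ.over, ← hQ]
      rfl
    haveI : Fact q.Prime := ⟨hq⟩
    haveI : CharP (𝓞 F ⧸ P) q := by
      refine (CharP.charP_iff_prime_eq_zero hq).mpr ?_
      rw [← map_natCast (Ideal.Quotient.mk P), Ideal.Quotient.eq_zero_iff_mem]
      exact hqP
    have hsurj : Function.Surjective (ZMod.castHom (dvd_refl q) (𝓞 F ⧸ P)) := by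
      intro z
      obtain ⟨x, rfl⟩ := Ideal.Quotient.mk_surjective z
      have hx := hfrob x
      rw [hcard, MulSemiringAction.toAlgHom_apply, one_smul, ← Ideal.Quotient.eq, map_pow] at hx
      obtain ⟨n, hn⟩ := exists_natCast_eq_of_pow_eq (p := q) hx.symm
      exact ⟨n, by rw [map_natCast, hn]⟩
    calc Ideal.absNorm P = Nat.card (𝓞 F ⧸ P) := rfl
      _ = Nat.card (ZMod q) := (Nat.card_eq_of_bijective _
          ⟨RingHom.injective _, hsurj⟩).symm
      _ = q := Nat.card_zmod q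
  -- count
  obtain ⟨P₀, hP₀, hP₀Q⟩ := Ideal.exists_maximal_ideal_liesOver_of_isIntegral (S := 𝓞 F) Q
  haveI : Finite {P : Ideal (𝓞 F) //
      Ideal.absNorm P = q ∧ P.comap (algebraMap (𝓞 K) (𝓞 F)) = Q} :=
    Set.Finite.to_subtype ((Ideal.finite_setOfPred_absNorm_eq q).subset fun P hP => hP.1)
  haveI hpr : ∀ g : Gal(F/K), (g • P₀).IsPrime := fun g => inferInstance
  haveI hlo : ∀ g : Gal(F/K), (g • P₀).LiesOver Q := fun g => inferInstance
  let Φ : Gal(F/K) → {P : Ideal (𝓞 F) //
      Ideal.absNorm P = q ∧ P.comap (algebraMap (𝓞 K) (𝓞 F)) = Q} := fun g =>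
    ⟨g • P₀, (key _ (hpr g) (hlo g)).2, (hlo g).over.symm⟩
  have hinj : Function.Injective Φ := by
    intro g h hgh
    have h2 : g • P₀ = h • P₀ := congrArg Subtype.val hgh
    have h3 : (h⁻¹ * g) • P₀ = P₀ := by rw [mul_smul, h2, inv_smul_smul]
    exact (inv_mul_eq_one.mp ((key P₀ inferInstance hP₀Q).1 _ h3)).symm
  calc p = Nat.card Gal(F/K) := by rw [IsGalois.card_aut_eq_finrank, hdeg]
    _ ≤ _ := Nat.card_le_card_of_injective Φ hinj

end FLTA.Herbrand
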