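import Mathlib.Algebra.DualNumber
import Mathlib.RingTheory.Polynomial.Cyclotomic.Expand

/-!
# Truncated exponential and the second logarithmic coefficient

`F_p[ε][δ]` with `ε ^ 2 = δ ^ 2 = 0` contains the `p`-th root of unity `(1 + ε) * (1 + δ)`,
a model for `exp t` modulo `t ^ 3`.
-/

set_option autoImplicit false

open TrivSqZeroExt

noncomputable section

namespace FLTA.Herbrand

variable (p : ℕ) [hp : Fact p.Prime]

set_option linter.unusedSectionVars false

/-- The ring `F_p[ε][δ]`. -/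
abbrev Jet : Type := DualNumber (DualNumber (ZMod p))

variable {p}

/-- The element with the four given coordinates. -/
def Jet.mk (a b c d : ZMod p) : Jet p :=
  (TrivSqZeroExt.inl (TrivSqZeroExt.inl a + TrivSqZeroExt.inr b) : Jet p)
    + TrivSqZeroExt.inr (TrivSqZeroExt.inl c + TrivSqZeroExt.inr d)

@[simp] theorem Jet.mk_fst_fst (a b c d : ZMod p) : (Jet.mk a b c d).fst.fst = a := by
  simp [Jet.mk]
@[simp] theorem Jet.mk_fst_snd (a b c d : ZMod p) : (Jet.mk a b c d).fst.snd = b := by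
  simp [Jet.mk]
@[simp] theorem Jet.mk_snd_fst (a b c d : ZMod p) : (Jet.mk a b c d).snd.fst = c := by
  simp [Jet.mk]
@[simp] theorem Jet.mk_snd_snd (a b c d : ZMod p) : (Jet.mk a b c d).snd.snd = d := by
  simp [Jet.mk]

theorem Jet.ext {x y : Jet p} (h₁ : x.fst.fst = y.fst.fst) (h₂ : x.fst.snd = y.fst.snd)
    (h₃ : x.snd.fst = y.snd.fst) (h₄ : x.snd.snd = y.snd.snd) : x = y :=
  TrivSqZeroExt.ext (TrivSqZeroExt.ext h₁ h₂) (TrivSqZeroExt.ext h₃ h₄)

theorem Jet.mk_mul (a b c d a' b' c' d' : ZMod p) :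
    Jet.mk a b c d * Jet.mk a' b' c' d' =
      Jet.mk (a * a') (a * b' + b * a') (a * c' + c * a')
        (a * d' + d * a' + b * c' + c * b') := by
  apply Jet.ext <;> simp
  ring

theorem Jet.eq_mk (x : Jet p) : x = Jet.mk x.fst.fst x.fst.snd x.snd.fst x.snd.snd :=
  Jet.ext (by simp) (by simp) (by simp) (by simp)

theorem Jet.mk_add (a b c d a' b' c' d' : ZMod p) :
    Jet.mk a b c d + Jet.mk a' b' c' d' = Jet.mk (a + a') (b + b') (c + c') (d + d') := by
  apply Jet.ext <;> simp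

theorem Jet.one_eq : (1 : Jet p) = Jet.mk 1 0 0 0 := by
  apply Jet.ext <;> simp

theorem Jet.natCast_eq (n : ℕ) : (n : Jet p) = Jet.mk (n : ZMod p) 0 0 0 := by
  induction n with
  | zero => apply Jet.ext <;> simp
  | succ n ih =>
    rw [Nat.cast_succ, ih, Jet.one_eq, Jet.mk_add, Nat.cast_succ]
    simp

/-- `exp (a t)` modulo `t ^ 3`. -/
def Jet.expo (a : ZMod p) : Jet p := Jet.mk 1 a a (a ^ 2)

theorem Jet.expo_pow (a : ZMod p) (n : ℕ) : Jet.expo a ^ n = Jet.expo ((n : ZMod p) * a) := by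
  induction n with
  | zero => simp [Jet.expo, Jet.one_eq]
  | succ n ih =>
    rw [pow_succ, ih, Jet.expo, Jet.expo, Jet.expo, Jet.mk_mul]
    congr 1 <;> push_cast <;> ring

theorem Jet.expo_sub_one_pow_three (a : ZMod p) : (Jet.expo a - 1) ^ 3 = 0 := by
  have h : Jet.expo a - 1 = Jet.mk 0 a a (a ^ 2) := by
    rw [sub_eq_iff_eq_add, Jet.one_eq, Jet.mk_add, Jet.expo]
    simp
  rw [h, pow_succ, sq, Jet.mk_mul, Jet.mk_mul]
  apply Jet.ext <;> simp

theorem Jet.aeval_expo_cyclotomic (a : ZMod p) (h5 : 5 ≤ p) :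
    Polynomial.aeval (Jet.expo a) (Polynomial.cyclotomic p ℤ) = 0 := by
  have hcyc : Polynomial.cyclotomic p (ZMod p) = (Polynomial.X - 1) ^ (p - 1) := by
    have h := Polynomial.cyclotomic_mul_prime_pow_eq (ZMod p) (p := p) (m := 1)
      hp.out.not_dvd_one (k := 1) one_pos
    simpa using h
  have : CharP (Jet p) p := by
    have := charP_of_injective_algebraMap
      (algebraMap (ZMod p) (DualNumber (ZMod p))).injective p
    exact charP_of_injective_ringHom (f := TrivSqZeroExt.inlHom (DualNumber (ZMod p))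
      (DualNumber (ZMod p))) TrivSqZeroExt.inl_injective p
  let f : ZMod p →+* Jet p := ZMod.castHom dvd_rfl _
  have he : Polynomial.eval₂RingHom f (Jet.expo a) (Polynomial.cyclotomic p (ZMod p)) = 0 := by
    rw [hcyc, map_pow, map_sub, map_one]
    have hX : Polynomial.eval₂RingHom f (Jet.expo a) Polynomial.X = Jet.expo a :=
      Polynomial.eval₂_X _ _
    rw [hX, show p - 1 = 3 + (p - 4) by omega, pow_add, Jet.expo_sub_one_pow_three, zero_mul]
  rw [Polynomial.aeval_def, RingHom.ext_int (algebraMap ℤ (Jet p))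
      (f.comp (Int.castRingHom (ZMod p))), ← Polynomial.eval₂_map, Polynomial.map_cyclotomic]
  exact he

/-- Scaling `t ↦ a t`. -/
def Jet.scale (a : ZMod p) : Jet p →+* Jet p where
  toFun x := Jet.mk x.fst.fst (a * x.fst.snd) (a * x.snd.fst) (a ^ 2 * x.snd.snd)
  map_one' := by apply Jet.ext <;> simp
  map_mul' x y := by
    rw [Jet.mk_mul]
    apply Jet.ext <;> simp <;> ring
  map_zero' := by apply Jet.ext <;> simp
  map_add' x y := by
    rw [Jet.mk_add]
    apply Jet.ext <;> simp <;> ring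

theorem Jet.scale_expo (a b : ZMod p) : Jet.scale a (Jet.expo b) = Jet.expo (a * b) := by
  apply Jet.ext <;> simp [Jet.scale, Jet.expo]
  ring

/-- The coefficient of `t ^ 2` (up to normalisation) in the logarithm. -/
def Jet.logTwo (x : Jet p) : ZMod p :=
  x.snd.snd / x.fst.fst - x.fst.snd * x.snd.fst / x.fst.fst ^ 2

theorem Jet.fst_fst_ne_zero {x : Jet p} (hx : IsUnit x) : x.fst.fst ≠ 0 := by
  have h := (hx.map (TrivSqZeroExt.fstHom (DualNumber (ZMod p)) (DualNumber (ZMod p))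
    (DualNumber (ZMod p)))).map (TrivSqZeroExt.fstHom (ZMod p) (ZMod p) (ZMod p))
  simpa using h.ne_zero

theorem Jet.logTwo_mul {x y : Jet p} (hx : IsUnit x) (hy : IsUnit y) :
    Jet.logTwo (x * y) = Jet.logTwo x + Jet.logTwo y := by
  have hx0 := Jet.fst_fst_ne_zero hx
  have hy0 := Jet.fst_fst_ne_zero hy
  simp only [Jet.logTwo, TrivSqZeroExt.fst_mul, DualNumber.snd_mul, TrivSqZeroExt.fst_add,
    TrivSqZeroExt.snd_add]
  field_simp
  ring

theorem Jet.logTwo_scale (a : ZMod p) (x : Jet p) :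
    Jet.logTwo (Jet.scale a x) = a ^ 2 * Jet.logTwo x := by
  simp [Jet.logTwo, Jet.scale]
  ring

theorem Jet.logTwo_mk (a : ZMod p) : Jet.logTwo (Jet.mk a 0 0 0) = 0 := by
  simp [Jet.logTwo]

end FLTA.Herbrand
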