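import Fermat.Agent.Herbrand.CycloBasic
import Fermat.Agent.Herbrand.LogDeriv
import Mathlib.FieldTheory.KummerExtension

/-!
# The second logarithmic derivative modulo `p`

`phiTwo` is an additive function on units which is `χ²`-equivariant, kills `p`-th powers, torsion,
and units congruent to an integer modulo `(ζ - 1) ^ 3`, and does not vanish at `1 + ζ`.
-/

set_option autoImplicit false

open NumberField IsCyclotomicExtension

noncomputable section

namespace FLTA.Herbrand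

variable {p : ℕ} [hp : Fact p.Prime] {K : Type*} [Field K] [NumberField K]
  [hK : IsCyclotomicExtension {p} ℚ K]

variable (K) in
theorem integralPowerBasis_gen_eq :
    (zeta_spec p ℚ K).integralPowerBasis.gen = zetaO p K :=
  IsPrimitiveRoot.integralPowerBasis_gen _

variable (K) in
theorem minpoly_zetaO : minpoly ℤ (zetaO p K) = Polynomial.cyclotomic p ℤ := by
  rw [← minpoly.algebraMap_eq (RingOfIntegers.coe_injective (K := K))]
  exact (Polynomial.cyclotomic_eq_minpoly (zeta_spec p ℚ K) hp.out.pos).symm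

variable (K) in
/-- The ring homomorphism `ζ ↦ exp t` modulo `(p, t ^ 3)`. -/
def jetHom (h5 : 5 ≤ p) : 𝓞 K →+* Jet p :=
  ((zeta_spec p ℚ K).integralPowerBasis.lift (Jet.expo 1) (by
    rw [integralPowerBasis_gen_eq, minpoly_zetaO]
    exact Jet.aeval_expo_cyclotomic 1 h5)).toRingHom

theorem jetHom_zetaO (h5 : 5 ≤ p) : jetHom K h5 (zetaO p K) = Jet.expo 1 := by
  rw [← integralPowerBasis_gen_eq]
  exact PowerBasis.lift_gen _ _ _

theorem jetHom_smul (h5 : 5 ≤ p) (σ : Gal(K/ℚ)) (x : 𝓞 K) :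
    jetHom K h5 (σ • x) = Jet.scale ((galChar p K σ : (ZMod p)ˣ) : ZMod p) (jetHom K h5 x) := by
  let f : 𝓞 K →+* Jet p :=
    (jetHom K h5).comp (MulSemiringAction.toRingHom Gal(K/ℚ) (𝓞 K) σ)
  let g : 𝓞 K →+* Jet p :=
    (Jet.scale ((galChar p K σ : (ZMod p)ˣ) : ZMod p)).comp (jetHom K h5)
  have h : f.toIntAlgHom = g.toIntAlgHom := by
    refine (zeta_spec p ℚ K).integralPowerBasis.algHom_ext ?_
    rw [integralPowerBasis_gen_eq]
    show jetHom K h5 (σ • zetaO p K) = Jet.scale _ (jetHom K h5 (zetaO p K))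
    rw [smul_zetaO, map_pow, jetHom_zetaO, Jet.expo_pow, Jet.scale_expo, ZMod.natCast_val,
      ZMod.cast_id]
  exact DFunLike.congr_fun h x

theorem jetHom_piO_pow_three (h5 : 5 ≤ p) : jetHom K h5 (piO p K ^ 3) = 0 := by
  rw [map_pow, piO, map_sub, jetHom_zetaO, map_one, Jet.expo_sub_one_pow_three]

/-- The second logarithmic derivative of a unit, modulo `p`. -/
def phiTwo (h5 : 5 ≤ p) (u : (𝓞 K)ˣ) : ZMod p := Jet.logTwo (jetHom K h5 (u : 𝓞 K))

theorem phiTwo_mul (h5 : 5 ≤ p) (u v : (𝓞 K)ˣ) :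
    phiTwo h5 (u * v) = phiTwo h5 u + phiTwo h5 v := by
  rw [phiTwo, Units.val_mul, map_mul]
  exact Jet.logTwo_mul (u.isUnit.map _) (v.isUnit.map _)

theorem phiTwo_one (h5 : 5 ≤ p) : phiTwo h5 (1 : (𝓞 K)ˣ) = 0 := by
  simp [phiTwo, Jet.logTwo]

/-- `phiTwo` as a monoid homomorphism. -/
def phiTwoHom (h5 : 5 ≤ p) : Additive (𝓞 K)ˣ →+ ZMod p where
  toFun u := phiTwo h5 u.toMul
  map_zero' := phiTwo_one h5
  map_add' u v := phiTwo_mul h5 u.toMul v.toMul

theorem phiTwo_pow (h5 : 5 ≤ p) (u : (𝓞 K)ˣ) (n : ℕ) :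
    phiTwo h5 (u ^ n) = n * phiTwo h5 u := by
  induction n with
  | zero => simp [phiTwo_one]
  | succ n ih => rw [pow_succ, phiTwo_mul, ih]; push_cast; ring

theorem phiTwo_pow_p (h5 : 5 ≤ p) (u : (𝓞 K)ˣ) : phiTwo h5 (u ^ p) = 0 := by
  rw [phiTwo_pow, ZMod.natCast_self, zero_mul]

theorem phiTwo_prod (h5 : 5 ≤ p) {ι : Type*} (s : Finset ι) (f : ι → (𝓞 K)ˣ) :
    phiTwo h5 (∏ i ∈ s, f i) = ∑ i ∈ s, phiTwo h5 (f i) := by
  classical
  induction s using Finset.induction_on with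
  | empty => simp [phiTwo_one]
  | insert i s hi ih => rw [Finset.prod_insert hi, Finset.sum_insert hi, phiTwo_mul, ih]

theorem phiTwo_galUnit (h5 : 5 ≤ p) (σ : Gal(K/ℚ)) (u : (𝓞 K)ˣ) :
    phiTwo h5 (galUnit σ u) = chiSq p K σ * phiTwo h5 u := by
  rw [phiTwo, coe_galUnit, jetHom_smul, Jet.logTwo_scale]
  rfl

theorem phiTwo_eq_zero_of_congr_int (h5 : 5 ≤ p) (u : (𝓞 K)ˣ) (c : ℤ)
    (h : piO p K ^ 3 ∣ ((u : 𝓞 K) - c)) : phiTwo h5 u = 0 := by
  obtain ⟨y, hy⟩ := h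
  have h' : jetHom K h5 (u : 𝓞 K) = (c : Jet p) := by
    rw [eq_add_of_sub_eq hy, map_add, map_mul, jetHom_piO_pow_three, zero_mul, zero_add,
      map_intCast]
  rw [phiTwo, h', Jet.logTwo]
  simp

theorem phiTwo_cycloUnit (h5 : 5 ≤ p) : phiTwo h5 (cycloUnit p K) = 4⁻¹ := by
  have h2 : (2 : ZMod p) ≠ 0 := by
    rw [← Nat.cast_two (R := ZMod p)]
    exact fun h => absurd (Nat.le_of_dvd two_pos ((ZMod.natCast_eq_zero_iff 2 p).mp h)) (by omega)
  have h4 : (4 : ZMod p) ≠ 0 := by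
    rw [show (4 : ZMod p) = 2 * 2 by norm_num]
    exact mul_ne_zero h2 h2
  rw [phiTwo, coe_cycloUnit K (by omega), map_add, map_one, jetHom_zetaO, Jet.one_eq, Jet.expo,
    Jet.mk_add, Jet.logTwo]
  simp only [Jet.mk_fst_fst, Jet.mk_fst_snd, Jet.mk_snd_fst, Jet.mk_snd_snd, zero_add, one_pow]
  rw [show (4 : ZMod p) = 2 * 2 by norm_num]
  field_simp
  norm_num
  exact h4

theorem phiTwo_cycloUnit_ne_zero (h5 : 5 ≤ p) : phiTwo h5 (cycloUnit p K) ≠ 0 := by
  rw [phiTwo_cycloUnit]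
  refine inv_ne_zero ?_
  rw [← Nat.cast_ofNat (R := ZMod p)]
  exact fun h => absurd (Nat.le_of_dvd (by norm_num) ((ZMod.natCast_eq_zero_iff 4 p).mp h)) (by omega)

theorem phiTwo_eta (h5 : 5 ≤ p) : phiTwo h5 (eta p K) = -phiTwo h5 (cycloUnit p K) := by
  rw [eta, phiTwo_prod]
  simp only [phiTwo_pow, phiTwo_galUnit, ← mul_assoc, ZMod.natCast_val, ZMod.cast_id,
    chiSq_inv_mul, one_mul, Finset.sum_const, Finset.card_univ, nsmul_eq_mul]
  rw [← Nat.card_eq_fintype_card, Nat.card_congr (Equiv.ofBijective _ (galChar_bijective p K)),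
    Nat.card_eq_fintype_card, ZMod.card_units, Nat.cast_sub hp.out.one_le, ZMod.natCast_self]
  ring

theorem phiTwo_eta_ne_zero (h5 : 5 ≤ p) : phiTwo h5 (eta p K) ≠ 0 := by
  rw [phiTwo_eta]
  exact neg_ne_zero.mpr (phiTwo_cycloUnit_ne_zero h5)

/-- Torsion units are killed by `phiTwo`. -/
theorem phiTwo_of_mem_torsion (h5 : 5 ≤ p) {u : (𝓞 K)ˣ} (hu : u ∈ Units.torsion K) :
    phiTwo h5 u = 0 := by
  have h2p : (u ^ 2) ^ p = 1 := by
    have h : (⟨u, hu⟩ : Units.torsion K) ^ Units.torsionOrder K = 1 := pow_card_eq_one'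
    rw [IsCyclotomicExtension.Rat.torsionOrder_eq (n := p) (K := K),
      if_neg (Nat.not_even_iff_odd.mpr (hp.out.odd_of_ne_two (by omega)))] at h
    rw [← pow_mul]
    exact congrArg Subtype.val h
  have h : ((u : 𝓞 K) ^ 2) ^ p = 1 := by
    have := congrArg Units.val h2p
    simpa using this
  obtain ⟨i, -, hi⟩ := (zetaO_isPrimitiveRoot p K).eq_pow_of_pow_eq_one h
  have h0 : phiTwo h5 (u ^ 2) = 0 := by
    rw [phiTwo, Units.val_pow_eq_pow_val, ← hi, map_pow, jetHom_zetaO, Jet.expo_pow, Jet.logTwo]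
    simp [Jet.expo]
    ring
  rw [phiTwo_pow] at h0
  refine (mul_eq_zero.mp h0).resolve_left fun h => ?_
  exact absurd (Nat.le_of_dvd two_pos ((ZMod.natCast_eq_zero_iff 2 p).mp h)) (by omega)

/-- `eta` is not a `p`-th power, even up to an integer modulo `(ζ - 1) ^ 3`. -/
theorem eta_pow_not_congr_int (h5 : 5 ≤ p) {k : ℕ} (hk : ¬ p ∣ k) (c : ℤ) :
    ¬ piO p K ^ 3 ∣ ((eta p K : 𝓞 K) ^ k - c) := by
  intro h
  have h0 := phiTwo_eq_zero_of_congr_int h5 (eta p K ^ k) c (by rwa [Units.val_pow_eq_pow_val])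
  rw [phiTwo_pow] at h0
  exact (mul_eq_zero.mp h0).elim (fun h' => hk ((ZMod.natCast_eq_zero_iff k p).mp h'))
    (phiTwo_eta_ne_zero h5)

/-- `eta` is not a `p`-th power in `K`. -/
theorem eta_not_pow (h5 : 5 ≤ p) (x : K) : x ^ p ≠ algebraMap (𝓞 K) K (eta p K : 𝓞 K) := by
  intro h
  have hint : IsIntegral ℤ x :=
    IsIntegral.of_pow hp.out.pos (h ▸ RingOfIntegers.isIntegral_coe _)
  obtain ⟨y, rfl⟩ : ∃ y : 𝓞 K, algebraMap (𝓞 K) K y = x := ⟨⟨x, hint⟩, rfl⟩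
  rw [← map_pow] at h
  have hy := FaithfulSMul.algebraMap_injective (𝓞 K) K h
  have hu : IsUnit y := (isUnit_pow_iff hp.out.ne_zero).mp (hy ▸ (eta p K).isUnit)
  refine phiTwo_eta_ne_zero (K := K) h5 ?_
  rw [show eta p K = hu.unit ^ p from Units.ext (by simp [hy]), phiTwo_pow_p]

/-- The polynomial `X ^ p - eta` is irreducible over `K`. -/
theorem irreducible_X_pow_sub_eta (h5 : 5 ≤ p) :
    Irreducible ((Polynomial.X : Polynomial K) ^ p -
      Polynomial.C (algebraMap (𝓞 K) K (eta p K : 𝓞 K))) :=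
  X_pow_sub_C_irreducible_of_prime hp.out (eta_not_pow h5)

end FLTA.Herbrand
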