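import Fermat.Agent.Herbrand.ThaineElement
import Mathlib.RingTheory.Ideal.Pointwise

/-!
# Thaine's annihilation relation

If `Q` is a prime of `ℚ(ζ_p)` of prime norm `q ≠ p` and `eta` is not a `p`-th power modulo `Q`,
then every `χ²`-equivariant homomorphism from the ideal class group to `ZMod p` kills `Q`.
-/

set_option autoImplicit false

open NumberField IsCyclotomicExtension
open scoped Pointwise

noncomputable section

namespace FLTA.Herbrand

variable (p : ℕ) [hp : Fact p.Prime] (K : Type*) [Field K] [NumberField K]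
  [hK : IsCyclotomicExtension {p} ℚ K]

/-- A `ZMod p`-valued class function on nonzero ideals which is `χ²`-equivariant. -/
structure EigenClassHom where
  toFun : Ideal (𝓞 K) → ZMod p
  map_mul : ∀ I J : Ideal (𝓞 K), I ≠ ⊥ → J ≠ ⊥ → toFun (I * J) = toFun I + toFun J
  map_span : ∀ x : 𝓞 K, x ≠ 0 → toFun (Ideal.span {x}) = 0
  map_smul : ∀ (σ : Gal(K/ℚ)) (I : Ideal (𝓞 K)), I ≠ ⊥ →
    toFun (σ • I) = chiSq p K σ * toFun I

variable {p K}

theorem natCast_p_mem_of_zetaO_sub_one_mem {I : Ideal (𝓞 K)} (h : zetaO p K - 1 ∈ I) :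
    (p : 𝓞 K) ∈ I :=
  I.mem_of_dvd ((zeta_spec p ℚ K).toInteger_sub_one_dvd_prime') h

section degreeOne

variable {q : ℕ} [hq : Fact q.Prime] (Q : Ideal (𝓞 K)) [hQ : Q.IsPrime]

omit hK in
theorem natCast_p_not_mem (hN : Ideal.absNorm Q = q) (hqp : q ≠ p) : (p : 𝓞 K) ∉ Q := by
  intro h
  obtain ⟨a, b, hab⟩ := Int.isCoprime_iff_nat_coprime.mpr
    (show (q : ℤ).natAbs.Coprime (p : ℤ).natAbs by
      simpa using (Nat.coprime_primes hq.out hp.out).mpr hqp)
  refine hQ.ne_top ((Ideal.eq_top_iff_one _).mpr ?_)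
  have h1 : ((a * q + b * p : ℤ) : 𝓞 K) ∈ Q := by
    push_cast
    exact Q.add_mem (Q.mul_mem_left _ (hN ▸ Ideal.absNorm_mem Q)) (Q.mul_mem_left _ h)
  rwa [hab, Int.cast_one] at h1

theorem orderOf_mk_zetaO (hN : Ideal.absNorm Q = q) (hqp : q ≠ p) :
    orderOf (Ideal.Quotient.mk Q (zetaO p K)) = p := by
  refine orderOf_eq_prime (by rw [← map_pow, (zetaO_isPrimitiveRoot p K).pow_eq_one, map_one]) ?_
  rw [← map_one (Ideal.Quotient.mk Q)]
  exact fun h => natCast_p_not_mem Q hN hqp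
    (natCast_p_mem_of_zetaO_sub_one_mem (Ideal.Quotient.eq.mp h))

theorem mod_eq_one_of_degree_one (hN : Ideal.absNorm Q = q) (hqp : q ≠ p) : q % p = 1 := by
  have hQbot : Q ≠ ⊥ := fun h => hq.out.ne_zero (by rw [← hN, h, Ideal.absNorm_bot])
  have := hQ.isMaximal hQbot
  let := Ideal.Quotient.field Q
  have hcard : Nat.card (𝓞 K ⧸ Q) = q := hN
  have : Finite (𝓞 K ⧸ Q) := Nat.finite_of_card_ne_zero (by rw [hcard]; exact hq.out.ne_zero)
  let := Fintype.ofFinite (𝓞 K ⧸ Q)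
  have hne : Ideal.Quotient.mk Q (zetaO p K) ≠ 0 := fun h => by
    have h' := orderOf_mk_zetaO Q hN hqp
    rw [h, orderOf_zero] at h'
    exact hp.out.ne_zero h'.symm
  have h1 := FiniteField.pow_card_sub_one_eq_one _ hne
  have h2 : p ∣ q - 1 := by
    have h3 := orderOf_dvd_of_pow_eq_one h1
    rwa [orderOf_mk_zetaO Q hN hqp, ← Nat.card_eq_fintype_card, hcard] at h3
  rw [← show 1 % p = q % p from (Nat.modEq_iff_dvd' hq.out.one_le).mpr h2]
  exact Nat.one_mod_eq_one.mpr hp.out.ne_one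

omit hQ in
theorem absNorm_smul (σ : Gal(K/ℚ)) : Ideal.absNorm (σ • Q) = Ideal.absNorm Q :=
  (Nat.card_congr (Ideal.quotientEquiv Q (σ • Q)
    (MulSemiringAction.toRingEquiv Gal(K/ℚ) (𝓞 K) σ) rfl).toEquiv).symm

theorem smul_right_injective_of_degree_one (hN : Ideal.absNorm Q = q) (hqp : q ≠ p) :
    Function.Injective (fun σ : Gal(K/ℚ) => σ • Q) := by
  intro σ τ h
  replace h : σ • Q = τ • Q := h
  have hfix : (τ⁻¹ * σ) • Q = Q := by rw [mul_smul, h, inv_smul_smul]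
  suffices hρ : ∀ ρ : Gal(K/ℚ), ρ • Q = Q → ρ = 1 from (inv_mul_eq_one.mp (hρ _ hfix)).symm
  intro ρ hρ
  obtain ⟨m, hm⟩ := exists_natCast_sub_mem hN (zetaO p K)
  have h1 : ρ • (zetaO p K - (m : 𝓞 K)) ∈ Q := hρ ▸ Ideal.smul_mem_pointwise_smul ρ _ _ hm
  rw [smul_sub, ← MulSemiringAction.toRingHom_apply Gal(K/ℚ) (𝓞 K) ρ (m : 𝓞 K), map_natCast,
    smul_zetaO] at h1
  have hm' := Ideal.Quotient.eq.mpr hm
  have h1' := Ideal.Quotient.eq.mpr h1
  rw [map_pow, ← hm'] at h1'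
  have hprim : IsPrimitiveRoot (Ideal.Quotient.mk Q (zetaO p K)) p := by
    have h := IsPrimitiveRoot.orderOf (Ideal.Quotient.mk Q (zetaO p K))
    rwa [orderOf_mk_zetaO Q hN hqp] at h
  have h2 := hprim.pow_inj (ZMod.val_lt _) hp.out.one_lt (h1'.trans (pow_one _).symm)
  apply (galChar_bijective p K).injective
  rw [map_one]
  exact Units.ext (ZMod.val_injective p (by rw [h2, Units.val_one, ZMod.val_one]))

open scoped Classical in
theorem prod_smul_eq_span (hN : Ideal.absNorm Q = q) (hqp : q ≠ p) :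
    ∏ σ : Gal(K/ℚ), σ • Q = Ideal.span {(q : 𝓞 K)} := by
  have hQbot : Q ≠ ⊥ := fun h => hq.out.ne_zero (by rw [← hN, h, Ideal.absNorm_bot])
  have hN' : ∀ σ : Gal(K/ℚ), Ideal.absNorm (σ • Q) = q := fun σ => (absNorm_smul Q σ).trans hN
  refine eq_of_dvd_of_absNorm_eq ?_ ?_ ?_
  · rw [← Finset.prod_image (g := fun σ : Gal(K/ℚ) => σ • Q) (f := fun I => I)
      (fun σ _ τ _ h => smul_right_injective_of_degree_one Q hN hqp h)]
    refine Finset.prod_primes_dvd _ (fun I hI => ?_) fun I hI => ?_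
    · obtain ⟨σ, -, rfl⟩ := Finset.mem_image.mp hI
      exact Ideal.prime_of_isPrime
        (fun h => hq.out.ne_zero (by rw [← hN' σ, h, Ideal.absNorm_bot])) inferInstance
    · obtain ⟨σ, -, rfl⟩ := Finset.mem_image.mp hI
      exact Ideal.dvd_span_singleton.mpr (hN' σ ▸ Ideal.absNorm_mem _)
  · have hint : Ideal.absNorm (Ideal.span {(q : 𝓞 K)}) = q ^ (p - 1) := by
      rw [Ideal.absNorm_span_singleton, ← map_natCast (algebraMap ℤ (𝓞 K)),
        Algebra.norm_algebraMap, Int.natAbs_pow, Int.natAbs_natCast,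
        RingOfIntegers.rank, IsCyclotomicExtension.Rat.finrank p K, Nat.totient_prime hp.out]
    rw [hint, map_prod, Finset.prod_congr rfl fun σ _ => hN' σ, Finset.prod_const,
      Finset.card_univ, Fintype.card_congr (Equiv.ofBijective _ (galChar_bijective p K)),
      ZMod.card_units]
  · rw [Ne, Ideal.absNorm_eq_zero_iff, Ideal.span_singleton_eq_bot]
    exact Nat.cast_ne_zero.mpr hq.out.ne_zero

theorem eq_smul_of_natCast_mem (hN : Ideal.absNorm Q = q) (hqp : q ≠ p) (r : Ideal (𝓞 K))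
    [hr : r.IsPrime] (hqr : (q : 𝓞 K) ∈ r) : ∃ σ : Gal(K/ℚ), r = σ • Q := by
  have hle : ∏ σ : Gal(K/ℚ), σ • Q ≤ r := by
    rw [prod_smul_eq_span Q hN hqp]; exact (Ideal.span_singleton_le_iff_mem _).mpr hqr
  obtain ⟨σ, -, hσ⟩ := hr.prod_le.mp hle
  have hσ0 : σ • Q ≠ ⊥ := fun h => hq.out.ne_zero (by
    rw [← hN, ← absNorm_smul Q σ, h, Ideal.absNorm_bot])
  exact ⟨σ, ((Ideal.IsPrime.isMaximal inferInstance hσ0).eq_of_le hr.ne_top hσ).symm⟩

theorem not_sq_dvd_span (hN : Ideal.absNorm Q = q) (hqp : q ≠ p) :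
    ¬ Q ^ 2 ∣ Ideal.span {(q : 𝓞 K)} := by
  classical
  have hQbot : Q ≠ ⊥ := fun h => hq.out.ne_zero (by rw [← hN, h, Ideal.absNorm_bot])
  have hQp : Prime Q := Ideal.prime_of_isPrime hQbot hQ
  rw [← prod_smul_eq_span Q hN hqp, ← Finset.mul_prod_erase _ _ (Finset.mem_univ (1 : Gal(K/ℚ))),
    one_smul, pow_two, mul_dvd_mul_iff_left hQbot]
  intro h
  obtain ⟨σ, hσ, hσd⟩ := hQp.exists_mem_finset_dvd h
  have hσ0 : σ • Q ≠ ⊥ := fun h => hq.out.ne_zero (by
    rw [← hN, ← absNorm_smul Q σ, h, Ideal.absNorm_bot])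
  refine (Finset.mem_erase.mp hσ).1 (smul_right_injective_of_degree_one Q hN hqp ?_)
  simpa using (Ideal.IsPrime.isMaximal inferInstance hσ0).eq_of_le hQ.ne_top (Ideal.le_of_dvd hσd)

end degreeOne

theorem EigenClassHom.map_multisetProd (ψ : EigenClassHom p K) (m : Multiset (Ideal (𝓞 K)))
    (h : ∀ I ∈ m, I ≠ ⊥) : ψ.toFun m.prod = (m.map ψ.toFun).sum := by
  induction m using Multiset.induction_on with
  | empty =>
    simp only [Multiset.prod_zero, Multiset.map_zero, Multiset.sum_zero, Ideal.one_eq_top,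
      ← Ideal.span_singleton_one]
    exact ψ.map_span 1 one_ne_zero
  | cons a s ih =>
    rw [Multiset.prod_cons, Multiset.map_cons, Multiset.sum_cons,
      ψ.map_mul _ _ (h a (Multiset.mem_cons_self a s)) ?_,
      ih fun I hI => h I (Multiset.mem_cons_of_mem hI)]
    exact Multiset.prod_ne_zero fun h0 => h _ (Multiset.mem_cons_of_mem h0) rfl

/-- Thaine's relation. -/
theorem EigenClassHom.eq_zero_of_eta_not_pow (h3 : 3 ≤ p) (ψ : EigenClassHom p K)
    (Q : Ideal (𝓞 K)) [Q.IsPrime] {q : ℕ} (hq : q.Prime) (hQ : Ideal.absNorm Q = q) (hqp : q ≠ p)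
    (hnot : ∀ x : 𝓞 K, (eta p K : 𝓞 K) - x ^ p ∉ Q) : ψ.toFun Q = 0 := by
  classical
  by_contra hψ
  have : Fact q.Prime := ⟨hq⟩
  have hq1 : q % p = 1 := mod_eq_one_of_degree_one Q hQ hqp
  have hq2 : q ≠ 2 := by
    rintro rfl
    rw [Nat.mod_eq_of_lt (by omega : 2 < p)] at hq1
    exact absurd hq1 (by norm_num)
  obtain ⟨γ, hγ, g, hr, hQ'⟩ := exists_thaine_element (p := p) (q := q) (CyclotomicField q K) h3
    hq2 hq1 (fun Q' hQ' hN' => not_sq_dvd_span Q' hN' hqp) Q hQ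
  have hQbot : Q ≠ ⊥ := fun h => hq.ne_zero (by rw [← hQ, h, Ideal.absNorm_bot])
  set I := Ideal.span {γ} with hI
  have hIbot : I ≠ ⊥ := by simpa [hI] using hγ
  -- the class relation
  have hrel : ∑ σ : Gal(K/ℚ), (idealMult (σ • Q) I : ZMod p) * chiSq p K σ = 0 := by
    have h0 := ψ.map_span γ hγ
    rw [← hI, ← Ideal.prod_normalizedFactors_eq_self hIbot, ψ.map_multisetProd _ fun J hJ =>
      (UniqueFactorizationMonoid.prime_of_normalized_factor J hJ).ne_zero,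
      Finset.sum_multiset_map_count] at h0
    set S := Finset.univ.image (fun σ : Gal(K/ℚ) => σ • Q)
    set T := (UniqueFactorizationMonoid.normalizedFactors I).toFinset
    have h1 : ∀ r : Ideal (𝓞 K), (UniqueFactorizationMonoid.normalizedFactors I).count r •
        ψ.toFun r = (idealMult r I : ZMod p) * ψ.toFun r := fun r => by
      rw [nsmul_eq_mul]; rfl
    simp only [h1] at h0
    have h2 : ∑ r ∈ T, (idealMult r I : ZMod p) * ψ.toFun r =
        ∑ r ∈ S, (idealMult r I : ZMod p) * ψ.toFun r := by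
      refine Finset.sum_congr_of_eq_on_inter (fun r hrT hrS => ?_) (fun r _ hrT => ?_)
        (fun _ _ _ => rfl)
      · have hrp := UniqueFactorizationMonoid.prime_of_normalized_factor r
          (Multiset.mem_toFinset.mp hrT)
        have := Ideal.isPrime_of_prime hrp
        have hqr : (q : 𝓞 K) ∉ r := fun h => hrS (by
          obtain ⟨σ, rfl⟩ := eq_smul_of_natCast_mem Q hQ hqp r h
          exact Finset.mem_image.mpr ⟨σ, Finset.mem_univ _, rfl⟩)
        rw [(ZMod.natCast_eq_zero_iff _ p).mpr (hr r this hrp.ne_zero hqr), zero_mul]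
      · rw [show idealMult r I = 0 from Multiset.count_eq_zero.mpr
          fun h => hrT (Multiset.mem_toFinset.mpr h), Nat.cast_zero, zero_mul]
    rw [h2, Finset.sum_image fun σ _ τ _ h =>
      smul_right_injective_of_degree_one Q hQ hqp h] at h0
    simp only [ψ.map_smul _ Q hQbot, ← mul_assoc, ← Finset.sum_mul] at h0
    exact (mul_eq_zero.mp h0).resolve_right hψ
  -- the residues
  let e := Ideal.Quotient.mk Q
  have hres : ∀ σ : Gal(K/ℚ),
      (g : 𝓞 K ⧸ Q) ^ idealMult (σ • Q) I * e (σ⁻¹ • (cycloUnit p K : 𝓞 K)) = 1 := by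
    intro σ
    have h := Ideal.smul_mem_pointwise_smul σ⁻¹ _ _
      (hQ' (σ • Q) inferInstance ((absNorm_smul Q σ).trans hQ))
    rw [inv_smul_smul, ← coe_cycloUnit K h3, smul_sub, smul_one, smul_mul', smul_pow',
      ← MulSemiringAction.toRingHom_apply Gal(K/ℚ) (𝓞 K) σ⁻¹ (g : 𝓞 K), map_natCast] at h
    have h' := Ideal.Quotient.eq.mpr h
    rwa [_root_.map_mul, map_pow, map_natCast, map_one] at h'
  set N := ∑ σ : Gal(K/ℚ), idealMult (σ • Q) I * (chiSq p K σ).val with hNdef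
  have hN : (N : ZMod p) = 0 := by
    rw [hNdef, Nat.cast_sum, ← hrel]
    refine Finset.sum_congr rfl fun σ _ => ?_
    rw [Nat.cast_mul, ZMod.natCast_val, ZMod.cast_id]
  obtain ⟨k, hk⟩ := (ZMod.natCast_eq_zero_iff N p).mp hN
  have heta : (g : 𝓞 K ⧸ Q) ^ N * e (eta p K : 𝓞 K) = 1 := by
    rw [eta, Units.coe_prod, map_prod, ← Equiv.prod_comp (Equiv.inv Gal(K/ℚ)), hNdef,
      ← Finset.prod_pow_eq_pow_sum, ← Finset.prod_mul_distrib]
    refine Finset.prod_eq_one fun σ _ => ?_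
    rw [Equiv.inv_apply, inv_inv, Units.val_pow_eq_pow_val, coe_galUnit, map_pow, pow_mul,
      ← mul_pow, hres, one_pow]
  have := Ideal.IsPrime.isMaximal ‹_› hQbot
  let := Ideal.Quotient.field Q
  obtain ⟨x, hx⟩ := Ideal.Quotient.mk_surjective (((g : 𝓞 K ⧸ Q) ^ k)⁻¹)
  refine hnot x (Ideal.Quotient.eq.mp ?_)
  rw [map_pow, hx, inv_pow, ← pow_mul, mul_comm k, ← hk]
  exact eq_inv_of_mul_eq_one_right heta

/-- A degree-one prime outside `p` on which `ψ` does not vanish splits in `K(η^(1/p))`. -/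
theorem EigenClassHom.exists_pow_sub_mem (h3 : 3 ≤ p) (ψ : EigenClassHom p K)
    (Q : Ideal (𝓞 K)) [Q.IsPrime] {q : ℕ} (hq : q.Prime) (hQ : Ideal.absNorm Q = q) (hqp : q ≠ p)
    (hψ : ψ.toFun Q ≠ 0) : ∃ x : 𝓞 K, (eta p K : 𝓞 K) - x ^ p ∈ Q := by
  by_contra h
  exact hψ (ψ.eq_zero_of_eta_not_pow h3 Q hq hQ hqp fun x hx => h ⟨x, hx⟩)

end FLTA.Herbrand
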