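import Mathlib
import Fermat.Prelude.Def_ClassGroup_GaloisAction
import Fermat.Agent.Herbrand.Defs
import Fermat.Agent.Herbrand.Thaine
import Fermat.Agent.Herbrand.Local
import Fermat.Agent.Herbrand.ClassSplit
import Fermat.Agent.Herbrand.KummerSplit

/-!
# S14: the `χ²` component of the class group is trivial
-/

set_option autoImplicit false

noncomputable section

open NumberField
open scoped Pointwise nonZeroDivisors

namespace FLTA.Herbrand

variable {p : ℕ} [hp : Fact p.Prime] {K : Type} [Field K] [NumberField K]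
  [IsCyclotomicExtension {p} ℚ K]

/-- Every `χ²`-equivariant class function is zero. -/
theorem EigenClassHom.eq_zero (h5 : 5 ≤ p) (ψ : EigenClassHom p K) (I : Ideal (𝓞 K))
    (hI : I ≠ ⊥) : ψ.toFun I = 0 := by
  classical
  have hwd : ∀ J J' : (Ideal (𝓞 K))⁰, ClassGroup.mk0 J = ClassGroup.mk0 J' →
      ψ.toFun J = ψ.toFun J' := by
    intro J J' h
    obtain ⟨x, y, hx, hy, hxy⟩ := ClassGroup.mk0_eq_mk0_iff.mp h
    have := congrArg ψ.toFun hxy
    rw [ψ.map_mul _ _ (by simpa using hx) (nonZeroDivisors.ne_zero J.2),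
      ψ.map_mul _ _ (by simpa using hy) (nonZeroDivisors.ne_zero J'.2), ψ.map_span x hx,
      ψ.map_span y hy, zero_add, zero_add] at this
    exact this
  have hsurj := ClassGroup.mk0_surjective (R := 𝓞 K)
  let φ : ClassGroup (𝓞 K) →* Multiplicative (ZMod p) :=
    MonoidHom.mk' (fun c => Multiplicative.ofAdd (ψ.toFun (Function.surjInv hsurj c : (Ideal (𝓞 K))⁰)))
      fun a b => by
        rw [← ofAdd_add, ← ψ.map_mul _ _ (nonZeroDivisors.ne_zero (Function.surjInv hsurj a).2)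
          (nonZeroDivisors.ne_zero (Function.surjInv hsurj b).2)]
        refine congrArg Multiplicative.ofAdd
          (hwd _ (Function.surjInv hsurj a * Function.surjInv hsurj b) ?_)
        rw [_root_.map_mul, Function.surjInv_eq hsurj, Function.surjInv_eq hsurj, Function.surjInv_eq hsurj]
  have hφ : ∀ J : (Ideal (𝓞 K))⁰, φ (ClassGroup.mk0 J) = Multiplicative.ofAdd (ψ.toFun J) :=
    fun J => congrArg Multiplicative.ofAdd (hwd _ J (Function.surjInv_eq hsurj _))
  by_contra hne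
  have hφ1 : φ ≠ 1 := by
    intro h
    apply hne
    have := hφ ⟨I, mem_nonZeroDivisors_of_ne_zero hI⟩
    rw [h, MonoidHom.one_apply, eq_comm, ← ofAdd_zero] at this
    exact Multiplicative.ofAdd.injective this
  have hη : ¬ ∃ x : K, ((eta p K : 𝓞 K) : K) = x ^ p := fun ⟨x, hx⟩ => eta_not_pow h5 x hx.symm
  obtain ⟨F, _, _, _, hdeg, hsplit⟩ := exists_kummer_split p K (eta p K) hη
  obtain ⟨q, hq, hqS, Q, hQ, hQφ, hlt⟩ :=
    exists_degreeOne_not_split K F p (by omega) hdeg φ hφ1 {p}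
  have hqp : q ≠ p := by simpa using hqS
  haveI : (Q : Ideal (𝓞 K)).IsPrime := Ideal.isPrime_of_irreducible_absNorm (by rw [hQ]; exact hq)
  have hψQ : ψ.toFun Q ≠ 0 := fun h => hQφ (by rw [hφ, h, ofAdd_zero])
  exact absurd hlt (not_lt.mpr
    (hsplit q hq hqp Q hQ (ψ.exists_pow_sub_mem (by omega) Q hq hQ hqp hψQ)))

variable (p) in
/-- The action of the Galois group on the class group. -/
def galCl (σ : Gal(K/ℚ)) : ClassGroup (𝓞 K) →* ClassGroup (𝓞 K) :=
  (ClassGroup.mulEquiv (MulSemiringAction.toRingEquiv Gal(K/ℚ) (𝓞 K) σ)).toMonoidHom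

omit hp [IsCyclotomicExtension {p} ℚ K] in
theorem galCl_mk0 (σ : Gal(K/ℚ)) (J : (Ideal (𝓞 K))⁰)
    (hJ : σ • (J : Ideal (𝓞 K)) ∈ (Ideal (𝓞 K))⁰) :
    galCl σ (ClassGroup.mk0 J) = ClassGroup.mk0 ⟨σ • (J : Ideal (𝓞 K)), hJ⟩ := by
  show ClassGroup.mulEquiv (MulSemiringAction.toRingEquiv Gal(K/ℚ) (𝓞 K) σ) (ClassGroup.mk0 J) = _
  rw [ClassGroup.mulEquiv_mk0]
  rfl

omit hp [IsCyclotomicExtension {p} ℚ K] in
theorem galCl_galCl (τ σ : Gal(K/ℚ)) (c : ClassGroup (𝓞 K)) :
    galCl τ (galCl σ c) = galCl (τ * σ) c := by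
  show ClassGroup.mulEquiv _ (ClassGroup.mulEquiv _ c) = ClassGroup.mulEquiv _ c
  rw [← ClassGroup.mulEquiv_trans_apply]
  refine congrArg (fun e => ClassGroup.mulEquiv e c) (RingEquiv.ext fun x => ?_)
  exact (mul_smul τ σ x).symm

variable (p K) in
/-- Minus the projection to the `χ²` component. -/
def eigCl : ClassGroup (𝓞 K) →* ClassGroup (𝓞 K) :=
  ∏ σ : Gal(K/ℚ), (powMonoidHom (chiSq p K σ⁻¹).val).comp (galCl σ)

theorem eigCl_apply (c : ClassGroup (𝓞 K)) :
    eigCl p K c = ∏ σ : Gal(K/ℚ), (galCl σ c) ^ (chiSq p K σ⁻¹).val := by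
  simp [eigCl, MonoidHom.finsetProd_apply]

/-- Every homomorphism to `ZMod p` kills the image of `eigCl`. -/
theorem hom_eigCl_eq_zero (h5 : 5 ≤ p) (f : Additive (ClassGroup (𝓞 K)) →+ ZMod p)
    (c : ClassGroup (𝓞 K)) : f (Additive.ofMul (eigCl p K c)) = 0 := by
  classical
  have hne : ∀ (σ : Gal(K/ℚ)) {I : Ideal (𝓞 K)}, I ≠ ⊥ → σ • I ∈ (Ideal (𝓞 K))⁰ := by
    intro σ I hI
    refine mem_nonZeroDivisors_of_ne_zero fun h => hI ?_
    have := congrArg (σ⁻¹ • ·) h
    simp only [inv_smul_smul] at this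
    rw [this, Ideal.zero_eq_bot]
    exact Ideal.map_bot
  let g : Ideal (𝓞 K) → ClassGroup (𝓞 K) := fun I =>
    if hI : I = ⊥ then 1 else ClassGroup.mk0 ⟨I, mem_nonZeroDivisors_of_ne_zero hI⟩
  have hg : ∀ (I : Ideal (𝓞 K)) (hI : I ∈ (Ideal (𝓞 K))⁰), g I = ClassGroup.mk0 ⟨I, hI⟩ :=
    fun I hI => dif_neg (nonZeroDivisors.ne_zero hI)
  let ψ : EigenClassHom p K :=
    { toFun := fun I => f (Additive.ofMul (eigCl p K (g I)))
      map_mul := fun I J hI hJ => by
        have hI' := mem_nonZeroDivisors_of_ne_zero hI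
        have hJ' := mem_nonZeroDivisors_of_ne_zero hJ
        rw [hg I hI', hg J hJ', hg (I * J) (mul_mem hI' hJ'), ← map_add, ← ofMul_mul, ← map_mul,
          ← map_mul]
        rfl
      map_span := fun x hx => by
        rw [hg _ (mem_nonZeroDivisors_of_ne_zero (by simpa using hx)),
          (ClassGroup.mk0_eq_one_iff _).mpr ⟨x, rfl⟩, map_one, ofMul_one, map_zero]
      map_smul := fun σ I hI => by
        rw [hg I (mem_nonZeroDivisors_of_ne_zero hI), hg (σ • I) (hne σ hI),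
          ← galCl_mk0 σ ⟨I, mem_nonZeroDivisors_of_ne_zero hI⟩ (hne σ hI)]
        set C := ClassGroup.mk0 (⟨I, mem_nonZeroDivisors_of_ne_zero hI⟩ : (Ideal (𝓞 K))⁰)
        have hcomp : ∀ τ, galCl τ (galCl σ C) = galCl (τ * σ) C := fun τ => galCl_galCl τ σ C
        simp only [eigCl_apply, hcomp, ofMul_prod, ofMul_pow, map_sum, map_nsmul, nsmul_eq_mul,
          ZMod.natCast_val, ZMod.cast_id', id, Finset.mul_sum]
        refine Fintype.sum_equiv (Equiv.mulRight σ) _ _ fun τ => ?_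
        simp only [Equiv.coe_mulRight, mul_inv_rev, chiSq_mul]
        linear_combination (-(chiSq p K τ⁻¹ * f (Additive.ofMul (galCl (τ * σ) C)))) *
          chiSq_inv_mul p K σ }
  obtain ⟨J, rfl⟩ := ClassGroup.mk0_surjective c
  have := ψ.eq_zero h5 J (nonZeroDivisors.ne_zero J.2)
  simp only [ψ, hg _ J.2] at this
  exact this

/-- The image of `eigCl` consists of `p`-th powers. -/
theorem eigCl_mem_powers (h5 : 5 ≤ p) (c : ClassGroup (𝓞 K)) :
    ∃ d : ClassGroup (𝓞 K), eigCl p K c = d ^ p := by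
  have h0 : JacobiSumStickelberger.ModP.proj p (Additive (ClassGroup (𝓞 K)))
      (Additive.ofMul (eigCl p K c)) = 0 := by
    refine (Module.forall_dual_apply_eq_zero_iff (ZMod p) _).mp fun f => ?_
    exact hom_eigCl_eq_zero h5
      (f.toAddMonoidHom.comp (JacobiSumStickelberger.ModP.proj p _)) c
  obtain ⟨y, hy⟩ := (JacobiSumStickelberger.ModP.proj_eq_zero_iff p _).mp h0
  exact ⟨y.toMul, (congrArg Additive.toMul hy).symm⟩

/-- A `p`-torsion class in the `χ²` component is trivial. -/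
theorem eq_one_of_eigen (h5 : 5 ≤ p) (c : ClassGroup (𝓞 K)) (hc : c ^ p = 1)
    (he : ∀ σ : Gal(K/ℚ), galCl σ c = c ^ (chiSq p K σ).val) : c = 1 := by
  classical
  have hcard : Nat.card Gal(K/ℚ) = p - 1 := by
    rw [Nat.card_congr (Equiv.ofBijective _ (galChar_bijective p K)), Nat.card_eq_fintype_card,
      ZMod.card_units]
  have hec : eigCl p K c = c⁻¹ := by
    rw [eq_inv_iff_mul_eq_one, eigCl_apply]
    have h1 : ∀ σ : Gal(K/ℚ), galCl σ c ^ (chiSq p K σ⁻¹).val = c := fun σ => by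
      rw [he, ← pow_mul, pow_eq_pow_mod _ hc, ← ZMod.val_mul, mul_comm, chiSq_inv_mul,
        ZMod.val_one, pow_one]
    rw [Finset.prod_congr rfl (fun σ _ => h1 σ), Finset.prod_const, Finset.card_univ,
      ← Nat.card_eq_fintype_card, hcard, ← pow_succ, Nat.sub_add_cancel hp.out.one_le, hc]
  have hiter : ∀ k : ℕ, ∀ x : ClassGroup (𝓞 K),
      ∃ d, ((eigCl p K)^[k]) x = d ^ p ^ k := by
    intro k
    induction k with
    | zero => exact fun x => ⟨x, by simp⟩
    | succ k ih =>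
      intro x
      obtain ⟨d, hd⟩ := ih x
      obtain ⟨d', hd'⟩ := eigCl_mem_powers h5 d
      refine ⟨d', ?_⟩
      rw [Function.iterate_succ_apply', hd, map_pow, hd', ← pow_mul, ← pow_succ']
  have hiterc : ∀ k : ℕ, ((eigCl p K)^[k]) c = c ∨ ((eigCl p K)^[k]) c = c⁻¹ := by
    intro k
    induction k with
    | zero => left; rfl
    | succ k ih =>
      rcases ih with h | h <;> rw [Function.iterate_succ_apply', h]
      · right; exact hec
      · left; rw [map_inv, hec, inv_inv]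
  obtain ⟨a, m, hm, hN⟩ :=
    Nat.exists_eq_pow_mul_and_not_dvd (Nat.card_pos (α := ClassGroup (𝓞 K))).ne' p hp.out.ne_one
  obtain ⟨d, hd⟩ := hiter a c
  have hdm : (d ^ p ^ a) ^ m = 1 := by
    rw [← pow_mul, ← hN, pow_card_eq_one']
  have hcm : c ^ m = 1 := by
    rcases hiterc a with h | h <;> rw [h] at hd
    · rw [hd, hdm]
    · rw [← inv_inj, inv_one, ← inv_pow, hd, hdm]
  have := pow_gcd_eq_one.mpr ⟨hc, hcm⟩
  rwa [(Nat.Prime.coprime_iff_not_dvd hp.out).mpr hm, pow_one] at this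

end FLTA.Herbrand
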