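import Fermat.Agent.Herbrand.Defs
import Fermat.Agent.Herbrand.PowHelpers

/-!
# S14: Kummer element of an unramified `p`-extension split at `p`
-/

set_option autoImplicit false

noncomputable section

open NumberField UniqueFactorizationMonoid
open scoped Pointwise

namespace FLTA.Herbrand

section EMult

variable {K E : Type*} [Field K] [NumberField K] [Field E] [NumberField E] [Algebra K E]
  [IsGalois K E]

/-- Multiplicities do not change at a prime with trivial inertia. -/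
theorem emultiplicity_map_of_inertia_trivial (P : Ideal (𝓞 K)) (Q : Ideal (𝓞 E)) [Q.LiesOver P]
    [Q.IsPrime] [P.IsPrime] (hP : P ≠ ⊥) (hI : ∀ g ∈ Q.inertia Gal(E/K), g = 1)
    {J : Ideal (𝓞 K)} (hJ : J ≠ ⊥) :
    emultiplicity Q (J.map (algebraMap (𝓞 K) (𝓞 E))) = emultiplicity P J := by
  have hQ : Q ≠ ⊥ := Ideal.ne_bot_of_liesOver_of_ne_bot hP Q
  have hPi : Irreducible P := (Ideal.prime_of_isPrime hP ‹_›).irreducible
  have hQi : Irreducible Q := (Ideal.prime_of_isPrime hQ ‹_›).irreducible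
  have he : P.ramificationIdx' Q = 1 := by
    rw [Ideal.ramificationIdx'_eq_ramificationIdx P Q hP,
      ← Ideal.ramificationIdxIn_eq_ramificationIdx P Q Gal(E/K),
      ← Ideal.card_inertia_eq_ramificationIdxIn (G := Gal(E/K)) P Q,
      (Subgroup.eq_bot_iff_forall _).mpr hI, Subgroup.card_bot]
  rw [Ideal.IsDedekindDomain.emultiplicity_map_eq_ramificationIdx'_mul hJ hPi hQi hQ, he, Nat.cast_one, one_mul]

end EMult

variable {p : ℕ} [hp : Fact p.Prime] {K : Type*} [Field K] [NumberField K]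
  [IsCyclotomicExtension {p} ℚ K] {E : Type*} [Field E] [NumberField E] [Algebra K E]
  [IsGalois K E]

theorem piO_prime : Prime (piO p K) :=
  (IsCyclotomicExtension.zeta_spec p ℚ K).zeta_sub_one_prime'

theorem natCast_mem_span_piO_pow : (p : 𝓞 K) ∈ Ideal.span {piO p K ^ (p - 1)} := by
  haveI : IsCyclotomicExtension {p ^ (0 + 1)} ℚ K := by simpa using ‹IsCyclotomicExtension {p} ℚ K›
  have hζ : IsPrimitiveRoot (IsCyclotomicExtension.zeta p ℚ K) (p ^ (0 + 1)) := by
    simpa using IsCyclotomicExtension.zeta_spec p ℚ K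
  have h := IsCyclotomicExtension.Rat.map_eq_span_zeta_sub_one_pow p 0 hζ
  rw [IsCyclotomicExtension.finrank (n := p) K
    (Polynomial.cyclotomic.irreducible_rat hp.out.pos), Nat.totient_prime hp.out, Ideal.map_span,
    Set.image_singleton, Ideal.span_singleton_pow, map_natCast] at h
  rw [show piO p K = hζ.toInteger - 1 from rfl, ← h]
  exact Ideal.mem_span_singleton_self _

/-- Kummer theory for an everywhere unramified `p`-extension in which `π` splits. -/
theorem kummer_core (h3 : 3 ≤ p) (ψ : Gal(E/K) → ZMod p)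
    (hadd : ∀ g h, ψ (g * h) = ψ g + ψ h) (hne : ∃ g, ψ g ≠ 0)
    (hinertia : ∀ Q : Ideal (𝓞 E), Q.IsPrime → Q ≠ ⊥ → ∀ g ∈ Q.inertia Gal(E/K), g = 1)
    (hstab : ∀ Q : Ideal (𝓞 E), Q.IsPrime → (p : 𝓞 E) ∈ Q →
      ∀ g ∈ MulAction.stabilizer Gal(E/K) Q, g = 1)
    (hconj : ∀ s : Gal(K/ℚ), ∃ g₀ : E ≃+* E,
      (∀ k : K, g₀ (algebraMap K E k) = algebraMap K E (s k)) ∧
      ∀ g : Gal(E/K), ∃ g' : Gal(E/K), (∀ x : E, g (g₀ x) = g₀ (g' x)) ∧
        ψ g' = (galChar p K s : ZMod p) * ψ g) :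
    ∃ α : 𝓞 K, (¬ ∃ x : K, (α : K) = x ^ p) ∧ IsEigen p K α ∧ IsLocalInt p K α ∧
      ∃ I : Ideal (𝓞 K), Ideal.span {α} = I ^ p := by
  classical
  haveI : FiniteDimensional K E := Module.Finite.of_restrictScalars_finite ℚ K E
  set zK : K := IsCyclotomicExtension.zeta p ℚ K with hzK
  have hzKp : IsPrimitiveRoot zK p := IsCyclotomicExtension.zeta_spec p ℚ K
  set z : E := algebraMap K E zK with hz
  have hzp : IsPrimitiveRoot z p := hzKp.map_of_injective (algebraMap K E).injective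
  have hz1 : z ^ p = 1 := hzp.pow_eq_one
  have hz0 : z ≠ 0 := hzp.ne_zero hp.out.ne_zero
  -- Hilbert 90
  have hfix : ∀ (g : Gal(E/K)) (n : ℕ), g (z ^ n) = z ^ n := fun g n => by
    rw [hz, ← map_pow, g.commutes]
  obtain ⟨β, hβ⟩ : ∃ β : Eˣ, ∀ g : Gal(E/K), g (β : E) = z ^ (ψ g).val * β := by
    let f : Gal(E/K) → Eˣ := fun g => Units.mk0 (z ^ (ψ g).val) (pow_ne_zero _ hz0)
    have hf : groupCohomology.IsMulCocycle₁ f := by
      intro g h
      ext
      simp only [f, AlgEquiv.smul_units_def, Units.val_mul, Units.val_mk0, Units.coe_map,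
        MonoidHom.coe_coe, hadd, pow_val_add hz1]
      rw [show (g : E → E) = g from rfl, hfix, mul_comm]
    obtain ⟨β, hβ⟩ := groupCohomology.isMulCoboundary₁_of_isMulCocycle₁_of_aut_to_units f hf
    refine ⟨β, fun g => ?_⟩
    have := congrArg Units.val (hβ g)
    simp only [AlgEquiv.smul_units_def, Units.val_div_eq_div_val, Units.coe_map, f,
      Units.val_mk0] at this
    rw [← this, div_mul_cancel₀ _ β.ne_zero]
    rfl
  obtain ⟨x₀, hx₀0, hx₀⟩ : ∃ x : 𝓞 E, x ≠ 0 ∧
      ∀ g : Gal(E/K), g (x : E) = z ^ (ψ g).val * (x : E) := by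
    obtain ⟨a, b, hb, hab⟩ := IsFractionRing.div_surjective (A := 𝓞 E) (β : E)
    set N := Ideal.absNorm (Ideal.span {b})
    have hb0 : b ≠ 0 := nonZeroDivisors.ne_zero hb
    obtain ⟨c, hc⟩ := Ideal.mem_span_singleton.mp (Ideal.absNorm_mem (Ideal.span {b}))
    have hval : ((a * c : 𝓞 E) : E) = (N : E) * (β : E) := by
      have hcE : ((N : ℕ) : E) = (b : E) * (c : E) := by
        have := congrArg (algebraMap (𝓞 E) E) hc
        simpa [N] using this
      have hbE : (b : E) ≠ 0 := by simpa using hb0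
      rw [hcE, ← hab]
      simp only [map_mul]
      field_simp
    have hN : N ≠ 0 := by simp [N, hb0]
    refine ⟨a * c, fun h => ?_, fun g => ?_⟩
    · rw [h] at hval
      exact mul_ne_zero (Nat.cast_ne_zero.mpr hN) β.ne_zero (hval.symm.trans (by simp))
    · rw [hval, map_mul, map_natCast, hβ]
      ring
  -- descend the `p`-th power
  have hpow : ∀ x : E, (∀ g : Gal(E/K), g x = z ^ (ψ g).val * x) → IsIntegral ℤ x →
      ∃ α : 𝓞 K, algebraMap K E α = x ^ p := by
    intro x hx hxi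
    obtain ⟨a, ha⟩ := (IsGalois.mem_range_algebraMap_iff_fixed (x ^ p)).mpr fun g => by
      rw [map_pow, hx, mul_pow, pow_right_comm, hz1, one_pow, one_mul]
    have hai : IsIntegral ℤ a :=
      (isIntegral_algebraMap_iff (algebraMap K E).injective).mp (ha ▸ hxi.pow p)
    exact ⟨⟨a, hai⟩, ha⟩
  obtain ⟨α₀, hα₀⟩ := hpow _ hx₀ (RingOfIntegers.isIntegral_coe x₀)
  have hcoe : ∀ a : 𝓞 K,
      ((algebraMap (𝓞 K) (𝓞 E) a : 𝓞 E) : E) = algebraMap K E (a : K) := fun a => rfl
  have hmapα₀ : algebraMap (𝓞 K) (𝓞 E) α₀ = x₀ ^ p :=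
    RingOfIntegers.ext (by rw [hcoe, hα₀]; rfl)
  have hα₀0 : α₀ ≠ 0 := fun h => by
    rw [h, map_zero, eq_comm, pow_eq_zero_iff hp.out.ne_zero] at hmapα₀
    exact hx₀0 hmapα₀
  -- the ideal
  obtain ⟨I₀, hI₀⟩ : ∃ I₀, Ideal.span {α₀} = I₀ ^ p := by
    refine exists_pow_eq_of_dvd_count (by simpa using hα₀0) fun P hP => ?_
    have hP0 : P ≠ ⊥ := hP.ne_zero
    haveI := Ideal.isPrime_of_prime hP.prime
    haveI : P.IsMaximal := Ideal.IsPrime.isMaximal inferInstance hP0
    obtain ⟨Q, hQmax, hQP⟩ := Ideal.exists_maximal_ideal_liesOver_of_isIntegral (S := 𝓞 E) P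
    have hQ0 : Q ≠ ⊥ := Ideal.ne_bot_of_liesOver_of_ne_bot hP0 Q
    refine ⟨emultiplicity Q (Ideal.span {x₀}), ?_⟩
    rw [← emultiplicity_map_of_inertia_trivial P Q hP0 (hinertia Q inferInstance hQ0)
      (J := Ideal.span {α₀}) (by simpa using hα₀0), Ideal.map_span, Set.image_singleton, hmapα₀,
      ← Ideal.span_singleton_pow, emultiplicity_pow (Ideal.prime_of_isPrime hQ0 inferInstance)]
  -- remove the power of `π`
  set π := piO p K with hπ
  have hπp : Prime π := piO_prime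
  have hπ0 : (π : K) ≠ 0 := by simpa using hπp.ne_zero
  haveI hπI : (Ideal.span {π}).IsPrime := (Ideal.span_singleton_prime hπp.ne_zero).mpr hπp
  have hπbot : Ideal.span {π} ≠ ⊥ := by simpa using hπp.ne_zero
  obtain ⟨j, I, hI, hI₀'⟩ : ∃ j I, ¬ Ideal.span {π} ∣ I ∧ I₀ = Ideal.span {π} ^ j * I := by
    refine WfDvdMonoid.max_power_factor ?_ (Ideal.prime_of_isPrime hπbot hπI).irreducible
    intro h
    rw [h, zero_pow hp.out.ne_zero] at hI₀
    exact hα₀0 (Ideal.span_singleton_eq_bot.mp hI₀)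
  obtain ⟨α, hα⟩ : π ^ (j * p) ∣ α₀ := by
    rw [← Ideal.span_singleton_le_span_singleton, hI₀, hI₀', mul_pow, ← pow_mul,
      Ideal.span_singleton_pow]
    exact Ideal.mul_le_left
  have hspan : Ideal.span {α} = I ^ p := by
    have h := hI₀
    rw [hα, hI₀', mul_pow, ← pow_mul, Ideal.span_singleton_pow,
      ← Ideal.span_singleton_mul_span_singleton] at h
    exact mul_left_cancel₀ (by simpa using pow_ne_zero (j * p) hπp.ne_zero) h
  have hπα : ¬ π ∣ α := fun h => by
    apply hI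
    rw [← Ideal.span_singleton_le_span_singleton, hspan] at h
    exact Ideal.dvd_iff_le.mpr (hπI.le_of_pow_le h)
  -- the root of `α`
  set xE : E := (x₀ : E) / algebraMap K E (π : K) ^ j with hxE
  have hπE : algebraMap K E (π : K) ≠ 0 := by
    simpa using (algebraMap K E).injective.ne hπ0
  have hxEα : xE ^ p = algebraMap K E (α : K) := by
    rw [hxE, div_pow, ← hα₀, ← pow_mul, hα]
    simp only [map_mul, map_pow]
    field_simp
  have hxEi : IsIntegral ℤ xE := IsIntegral.of_pow hp.out.pos (hxEα ▸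
    ((RingOfIntegers.isIntegral_coe α).map ((algebraMap K E).toIntAlgHom)))
  set x : 𝓞 E := ⟨xE, hxEi⟩ with hxdef
  have hxg : ∀ g : Gal(E/K), g xE = z ^ (ψ g).val * xE := fun g => by
    rw [hxE, map_div₀, map_pow, g.commutes, hx₀, mul_div_assoc]
  have hxα : algebraMap (𝓞 K) (𝓞 E) α = x ^ p := RingOfIntegers.ext (by rw [hcoe, ← hxEα]; rfl)
  have hxE0 : xE ≠ 0 := div_ne_zero (by simpa using hx₀0) (pow_ne_zero _ hπE)
  refine ⟨α, ?_, ?_, ?_, I, hspan⟩
  · -- not a `p`-th power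
    rintro ⟨y, hy⟩
    have hy0 : algebraMap K E y ≠ 0 := by
      intro h
      rw [hy, map_pow, h, zero_pow hp.out.ne_zero] at hxEα
      exact hxE0 (pow_eq_zero_iff hp.out.ne_zero |>.mp hxEα)
    have h1 : (xE / algebraMap K E y) ^ p = 1 := by
      rw [div_pow, hxEα, hy, map_pow, div_self (pow_ne_zero _ hy0)]
    obtain ⟨i, -, hi⟩ := hzp.eq_pow_of_pow_eq_one h1
    obtain ⟨g, hg⟩ := hne
    refine hg ?_
    have hfx : g xE = xE := by
      rw [← div_mul_cancel₀ xE hy0, ← hi, map_mul, hfix, g.commutes]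
    rw [hxg] at hfx
    exact pow_val_inj hzp ((mul_eq_right₀ hxE0).mp hfx |>.trans (by simp))
  · -- eigenspace
    intro s
    obtain ⟨g₀, hg₀, hg₀'⟩ := hconj s
    set a : ZMod p := (galChar p K s : ZMod p) with ha
    set n := (chiSq p K s).val with hn
    have hg₀z : g₀ z = z ^ a.val := by
      rw [hz, hg₀, ← map_pow]
      congr 1
      exact IsCyclotomicExtension.Rat.galEquivZMod_apply_of_pow_eq p K s hzKp.pow_eq_one
    have hgz : ∀ g : Gal(E/K), g (g₀ xE) = z ^ (a * a * ψ g).val * g₀ xE := by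
      intro g
      obtain ⟨g', hg', hψ⟩ := hg₀' g
      rw [hg', hxg, map_mul, map_pow, hg₀z, ← pow_val_mul hz1, hψ, mul_assoc]
    obtain ⟨y, hy⟩ := (IsGalois.mem_range_algebraMap_iff_fixed (F := K) (g₀ xE / xE ^ n)).mpr
      fun g => by
        rw [map_div₀, map_pow, hgz, hxg, mul_pow, ← pow_mul]
        have hexp : z ^ ((ψ g).val * n) = z ^ (a * a * ψ g).val := by
          rw [pow_mul, hn, ← pow_val_mul hz1, mul_comm, chiSq, sq]
        rw [hexp, mul_div_mul_left _ _ (pow_ne_zero _ hz0)]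
    obtain ⟨u, v, hv, huv⟩ := IsFractionRing.div_surjective (A := 𝓞 K) y
    refine ⟨u, v, nonZeroDivisors.ne_zero hv, RingOfIntegers.ext ((algebraMap K E).injective ?_)⟩
    have hvE : algebraMap K E (v : K) ≠ 0 := by
      simpa using nonZeroDivisors.ne_zero hv
    have huvE : algebraMap K E y = algebraMap K E (u : K) / algebraMap K E (v : K) := by
      rw [← huv, map_div₀]
    have hs : algebraMap K E (s (α : K)) = (g₀ xE) ^ p := by
      rw [← hg₀, ← hxEα, map_pow]
    have hg : g₀ xE = xE ^ n * (algebraMap K E (u : K) / algebraMap K E (v : K)) := by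
      rw [← huvE, hy, mul_div_cancel₀ _ (pow_ne_zero _ hxE0)]
    have hsm : ((s • α : 𝓞 K) : K) = s (α : K) := rfl
    simp only [map_mul, map_pow, hsm, hs, hg, mul_pow, div_pow]
    rw [← hxEα, ← pow_mul, ← pow_mul, mul_comm p n]
    field_simp
  · -- local condition
    haveI : (Ideal.span {π}).IsMaximal := Ideal.IsPrime.isMaximal hπI hπbot
    obtain ⟨Q, hQmax, hQP⟩ := Ideal.exists_maximal_ideal_liesOver_of_isIntegral (S := 𝓞 E)
      (Ideal.span {π})
    have hQ0 : Q ≠ ⊥ := Ideal.ne_bot_of_liesOver_of_ne_bot hπbot Q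
    have hπQ : algebraMap (𝓞 K) (𝓞 E) π ∈ Q :=
      (Ideal.mem_of_liesOver Q (Ideal.span {π}) π).mp (Ideal.mem_span_singleton_self _)
    have hpQ : (p : 𝓞 E) ∈ Q ^ 2 := by
      obtain ⟨w, hw⟩ := Ideal.mem_span_singleton.mp
        (natCast_mem_span_piO_pow (p := p) (K := K))
      have h2 : algebraMap (𝓞 K) (𝓞 E) π ^ (p - 1) ∈ Q ^ 2 :=
        Ideal.pow_le_pow_right (by omega) (Ideal.pow_mem_pow hπQ (p - 1))
      rw [← map_natCast (algebraMap (𝓞 K) (𝓞 E)), hw, map_mul, map_pow, ← hπ]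
      exact Ideal.mul_mem_right _ _ h2
    haveI : Finite (𝓞 E ⧸ Q) := Ideal.finiteQuotientOfFreeOfNeBot Q hQ0
    have hfrob := IsArithFrobAt.arithFrobAt (𝓞 K) Gal(E/K) Q
    have hone := hstab Q inferInstance (Ideal.pow_le_self two_ne_zero hpQ) _
      (IsArithFrobAt.arithFrobAt_mem_stabilizer (𝓞 K) Gal(E/K) Q)
    rw [hone] at hfrob
    have hcard : Nat.card (𝓞 K ⧸ Q.under (𝓞 K)) = p := by
      haveI : IsCyclotomicExtension {p ^ (0 + 1)} ℚ K := by
        simpa using ‹IsCyclotomicExtension {p} ℚ K›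
      have hζ : IsPrimitiveRoot (IsCyclotomicExtension.zeta p ℚ K) (p ^ (0 + 1)) := by
        simpa using IsCyclotomicExtension.zeta_spec p ℚ K
      rw [← hQP.over]
      exact IsCyclotomicExtension.Rat.absNorm_span_zeta_sub_one p 0 hζ
    have hroot : x ^ p - x ∈ Q := by
      have := hfrob x
      rw [hcard] at this
      rw [MulSemiringAction.toAlgHom_apply, one_smul] at this
      rw [← neg_sub]
      exact neg_mem this
    obtain ⟨c, hc⟩ : ∃ c : ℕ, x - (c : 𝓞 E) ∈ Q := by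
      haveI : CharP (𝓞 E ⧸ Q) p := by
        refine (CharP.charP_iff_prime_eq_zero hp.out).mpr ?_
        rw [← map_natCast (Ideal.Quotient.mk Q), Ideal.Quotient.eq_zero_iff_mem]
        exact Ideal.pow_le_self two_ne_zero hpQ
      letI := Ideal.Quotient.field Q
      have hx' : Ideal.Quotient.mk Q x ^ p = Ideal.Quotient.mk Q x := by
        rw [← map_pow, Ideal.Quotient.eq]
        exact hroot
      obtain ⟨c, hc⟩ := exists_natCast_eq_of_pow_eq hx'
      refine ⟨c, ?_⟩
      rw [← Ideal.Quotient.eq, map_natCast, hc]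
    refine ⟨(c : ℤ) ^ p, fun h => hπα ?_, ?_⟩
    · have hcp : (p : ℤ) ∣ (c : ℤ) := (Nat.prime_iff_prime_int.mp hp.out).dvd_of_dvd_pow h
      have hxQ : x ∈ Q := by
        have : (c : 𝓞 E) ∈ Q := by
          obtain ⟨d, hd⟩ := Int.natCast_dvd_natCast.mp hcp
          rw [hd, Nat.cast_mul]
          exact Q.mul_mem_right _ (Ideal.pow_le_self two_ne_zero hpQ)
        simpa using add_mem hc this
      rw [← Ideal.mem_span_singleton, Ideal.mem_of_liesOver Q (Ideal.span {π}), hxα]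
      exact Ideal.pow_mem_of_mem Q hxQ p hp.out.pos
    · obtain ⟨r, hr⟩ := exists_add_pow_prime_eq hp.out (c : 𝓞 E) (x - c)
      rw [add_sub_cancel] at hr
      have hmem : algebraMap (𝓞 K) (𝓞 E) (α - (((c : ℤ) ^ p : ℤ) : 𝓞 K)) ∈ Q ^ 3 := by
        rw [map_sub, hxα, map_intCast, Int.cast_pow, Int.cast_natCast, hr]
        rw [show (c : 𝓞 E) ^ p + (x - c) ^ p + (p : 𝓞 E) * c * (x - c) * r - (c : 𝓞 E) ^ p
          = (x - c) ^ p + ((p : 𝓞 E) * (x - c)) * (c * r) by ring]
        refine add_mem (Ideal.pow_le_pow_right h3 (Ideal.pow_mem_pow hc p))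
          (Ideal.mul_mem_right _ _ ?_)
        rw [pow_succ (n := 2)]
        exact Ideal.mul_mem_mul hpQ hc
      set d := α - (((c : ℤ) ^ p : ℤ) : 𝓞 K)
      rcases eq_or_ne d 0 with hd | hd
      · rw [hd]; exact dvd_zero _
      rw [← Ideal.span_singleton_le_span_singleton, ← Ideal.span_singleton_pow,
        ← Ideal.dvd_iff_le]
      apply pow_dvd_of_le_emultiplicity
      rw [← emultiplicity_map_of_inertia_trivial (Ideal.span {π}) Q hπbot
        (hinertia Q inferInstance hQ0) (J := Ideal.span {d}) (by simpa using hd), Ideal.map_span,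
        Set.image_singleton]
      apply le_emultiplicity_of_pow_dvd
      rw [Ideal.dvd_iff_le, Ideal.span_singleton_le_iff_mem]
      exact hmem

end FLTA.Herbrand
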