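import Fermat.Agent.Herbrand.Cocycle
import Fermat.Agent.Herbrand.KummerCore
import Fermat.Agent.Galois.PlacesFinite

/-!
# S14: Kummer descent for a non-split admissible extension
-/

set_option autoImplicit false

noncomputable section

open NumberField ExtCitation
open scoped Pointwise

namespace FLTA.Herbrand

local notation "Qbar" => AlgebraicClosure ℚ
local notation "Γ" => AlgebraicClosure ℚ ≃ₐ[ℚ] AlgebraicClosure ℚ

/-- The subgroup acting trivially. -/
def actKer (V : Type) [AddCommGroup V] [DistribMulAction Γ V] : Subgroup Γ where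
  carrier := {σ | ∀ v : V, σ • v = v}
  one_mem' := one_smul Γ
  mul_mem' {a b} ha hb v := by rw [mul_smul, hb, ha]
  inv_mem' {a} ha v := by conv_lhs => rw [← ha v, inv_smul_smul]

theorem actKer_normal (V : Type) [AddCommGroup V] [DistribMulAction Γ V] :
    (actKer V).Normal :=
  ⟨fun n hn g v => by rw [mul_smul, mul_smul, hn, smul_inv_smul]⟩

variable {p : ℕ} [hp : Fact p.Prime]

theorem chiBar_apply_rootOfUnity (σ : Γ) {z : Qbar} (hz : z ^ p = 1) :
    σ z = z ^ (chiBar p σ).val := by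
  haveI : NeZero p := ⟨hp.out.ne_zero⟩
  have hz0 : z ≠ 0 := fun h => by simp [h, hp.out.ne_zero] at hz
  have hmem : Units.mk0 z hz0 ∈ rootsOfUnity p Qbar := by
    rw [mem_rootsOfUnity]; ext; simpa using hz
  have h := modularCyclotomicCharacter.spec Qbar (card_rootsOfUnity_eq_self p)
    (σ : Qbar ≃+* Qbar) hmem
  rw [chiBar_eq_cycloChar]
  simpa [cycloChar] using h

variable {V : Type} [AddCommGroup V] [Module (ZMod p) V]
  [DistribMulAction Γ V] [SMulCommClass Γ (ZMod p) V] {C : Submodule (ZMod p) V}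

omit hp [Module (ZMod p) V] [SMulCommClass Γ (ZMod p) V] in
theorem exists_level (hopen : IsOpen {σ : Γ | ∀ v : V, σ • v = v}) :
    ∃ E : IntermediateField ℚ Qbar, FiniteDimensional ℚ E ∧ IsGalois ℚ E ∧
      E.fixingSubgroup = actKer V := by
  have hclosed : IsClosed ((actKer V : Subgroup Γ) : Set Γ) :=
    OpenSubgroup.isClosed ⟨actKer V, hopen⟩
  refine ⟨IntermediateField.fixedField (actKer V), ?_⟩
  have hfix : (IntermediateField.fixedField (actKer V)).fixingSubgroup = actKer V :=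
    InfiniteGalois.fixingSubgroup_fixedField ⟨actKer V, hclosed⟩
  refine ⟨(InfiniteGalois.isOpen_iff_finite _).mp (by rw [hfix]; exact hopen),
    (InfiniteGalois.normal_iff_isGalois _).mp (by rw [hfix]; exact actKer_normal V), hfix⟩

/-- The Kummer element of a non-split admissible extension. -/
theorem exists_kummer_element (h3 : 3 ≤ p) (hadm : IsAdmissibleExtensionCts p V C)
    (hns : ¬ SplitsGlobally C) (K : Type) [Field K] [NumberField K]
    [IsCyclotomicExtension {p} ℚ K] :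
    ∃ α : 𝓞 K, (¬ ∃ x : K, (α : K) = x ^ p) ∧ IsEigen p K α ∧ IsLocalInt p K α ∧
      ∃ I : Ideal (𝓞 K), Ideal.span {α} = I ^ p := by
  classical
  obtain ⟨D⟩ := exists_extData hadm
  obtain ⟨E, hfin, hgal, hfixE⟩ := exists_level hadm.open_kernel
  haveI := hfin
  haveI := hgal
  haveI : NumberField E := { to_charZero := inferInstance, to_finiteDimensional := hfin }
  have hmemfix : ∀ {σ : Γ}, (∀ x : E, σ x = x) ↔ σ ∈ actKer V := by
    intro σ
    rw [← hfixE, IntermediateField.mem_fixingSubgroup_iff]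
    exact ⟨fun h x hx => h ⟨x, hx⟩, fun h x => h x x.2⟩
  have hagree : ∀ σ τ : Γ, (∀ x : E, σ x = τ x) →
      chiBar p σ = chiBar p τ ∧ D.φ σ = D.φ τ := by
    intro σ τ h
    have hn : τ⁻¹ * σ ∈ actKer V := hmemfix.mp fun x => by
      rw [AlgEquiv.mul_apply, h, ← AlgEquiv.mul_apply, inv_mul_cancel, AlgEquiv.one_apply]
    obtain ⟨h1, h2⟩ := D.φ_eq_zero_of_forall_smul_eq hn
    have hσ : σ = τ * (τ⁻¹ * σ) := (mul_inv_cancel_left τ σ).symm
    rw [hσ, chiBar_mul, D.φ_mul, h1, h2]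
    simp
  -- the embedding of `K`
  set zK : K := IsCyclotomicExtension.zeta p ℚ K with hzK
  have hzKp : IsPrimitiveRoot zK p := IsCyclotomicExtension.zeta_spec p ℚ K
  let ι : K →ₐ[ℚ] Qbar := IsAlgClosed.lift
  have hz : IsPrimitiveRoot (ι zK) p := hzKp.map_of_injective ι.toRingHom.injective
  have hιfix : ∀ σ : Γ, chiBar p σ = 1 → ∀ k : K, σ (ι k) = ι k := by
    intro σ hσ
    have h : σ.toAlgHom.comp ι = ι := by
      refine (hzKp.powerBasis ℚ).algHom_ext ?_
      rw [IsPrimitiveRoot.powerBasis_gen]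
      show σ (ι zK) = ι zK
      rw [chiBar_apply_rootOfUnity σ hz.pow_eq_one, hσ, ZMod.val_one, pow_one]
    exact fun k => DFunLike.congr_fun h k
  have hιE : ∀ k : K, ι k ∈ E := by
    intro k
    rw [← InfiniteGalois.fixedField_fixingSubgroup E, IntermediateField.mem_fixedField_iff]
    intro σ hσ
    rw [hfixE] at hσ
    exact hιfix σ (D.φ_eq_zero_of_forall_smul_eq hσ).1 k
  let e : K →ₐ[ℚ] E := ι.codRestrict E.toSubalgebra hιE
  letI : Algebra K E := e.toRingHom.toAlgebra
  haveI : IsScalarTower ℚ K E := IsScalarTower.of_algebraMap_eq fun x => (e.commutes x).symm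
  haveI : IsGalois K E := IsGalois.tower_top_of_isGalois ℚ K E
  have halg : ∀ k : K, ((algebraMap K E k : E) : Qbar) = ι k := fun k => rfl
  -- the homomorphism
  let lift : Gal(E/K) → Γ := fun g => (g.restrictScalars ℚ).liftNormal Qbar
  have hlift : ∀ (g : Gal(E/K)) (x : E), lift g x = (g x : Qbar) := fun g x =>
    AlgEquiv.liftNormal_commutes (g.restrictScalars ℚ) Qbar x
  have hchi : ∀ g : Gal(E/K), chiBar p (lift g) = 1 := by
    intro g
    refine pow_val_inj hz ?_
    rw [← chiBar_apply_rootOfUnity _ hz.pow_eq_one, ZMod.val_one, pow_one, ← halg, hlift,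
      g.commutes]
  have hofτ : ∀ σ : Γ, chiBar p σ = 1 → ∃ g : Gal(E/K), ∀ x : E, (g x : Qbar) = σ x := by
    intro σ hσ
    refine ⟨AlgEquiv.ofRingEquiv (f := (σ.restrictNormal E).toRingEquiv) (fun k => ?_), fun x => ?_⟩
    · apply Subtype.ext
      exact (AlgEquiv.restrictNormal_commutes σ E (algebraMap K E k)).trans (hιfix σ hσ k)
    · exact AlgEquiv.restrictNormal_commutes σ E x
  have hinert : ∀ σ : Γ, chiBar p σ = 1 → D.φ σ = 0 → ∀ g : Gal(E/K),
      (∀ x : E, σ x = (g x : Qbar)) → g = 1 := by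
    intro σ h1 h2 g hg
    refine AlgEquiv.ext fun x => Subtype.ext ?_
    have := hmemfix.mpr ((D.smul_eq_self_iff σ).mpr ⟨h1, h2⟩) x
    rw [hg] at this
    exact this
  refine kummer_core (E := E) h3 (fun g => D.φ (lift g)) ?_ ?_ ?_ ?_ ?_
  · intro g h
    obtain ⟨-, h2⟩ := hagree (lift (g * h)) (lift g * lift h) fun x => by
      rw [hlift, AlgEquiv.mul_apply, AlgEquiv.mul_apply, hlift, hlift]
    rw [h2, D.φ_mul, hchi, one_mul]
  · by_contra! h
    apply hns
    refine D.splitsGlobally_of_forall fun σ hσ => ?_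
    obtain ⟨g, hg⟩ := hofτ σ hσ
    rw [(hagree σ (lift g) fun x => by rw [hlift, hg]).2]
    exact h g
  · intro Q hQ hQ0 g hg
    haveI := hQ
    haveI : Finite (𝓞 E ⧸ Q) := Ideal.finiteQuotientOfFreeOfNeBot Q hQ0
    have hq : (ringChar (𝓞 E ⧸ Q)).Prime :=
      CharP.char_is_prime (𝓞 E ⧸ Q) _
    have hqQ : ((ringChar (𝓞 E ⧸ Q) : ℕ) : 𝓞 E) ∈ Q := by
      rw [← Ideal.Quotient.eq_zero_iff_mem, map_natCast]
      exact CharP.cast_eq_zero _ _
    obtain ⟨A, hA, hAQ⟩ := FLTA.Galois.exists_placeIdeal_eq hq Q hqQ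
    have hg' : g.restrictScalars ℚ ∈
        (FLTA.Galois.placeIdeal A E).inertia (E ≃ₐ[ℚ] E) := by
      rw [hAQ]
      exact hg
    rw [← FLTA.Galois.map_inertia_eq hq hA] at hg'
    obtain ⟨σ, hσ, hres⟩ := hg'
    have hσx : ∀ x : E, σ x = (g x : Qbar) := fun x =>
      (AlgEquiv.restrictNormal_commutes σ E x).symm.trans
        (congrArg Subtype.val (DFunLike.congr_fun hres x))
    obtain ⟨h1, -⟩ := hagree σ (lift g) fun x => by rw [hlift, hσx]
    rw [hchi] at h1
    exact hinert σ h1 (D.φ_eq_zero_of_inertia hadm hq A hA hσ h1) g hσx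
  · intro Q hQ hpQ g hg
    haveI := hQ
    obtain ⟨A, hA, hAQ⟩ := FLTA.Galois.exists_placeIdeal_eq hp.out Q hpQ
    have hg' : (g.restrictScalars ℚ) • FLTA.Galois.placeIdeal A E = FLTA.Galois.placeIdeal A E := by
      rw [hAQ]
      exact hg
    obtain ⟨σ, hσ, hres⟩ := FLTA.Galois.exists_decomposition_restrict_eq hp.out hA hg'
    have hσx : ∀ x : E, σ x = (g x : Qbar) := fun x =>
      (AlgEquiv.restrictNormal_commutes σ E x).symm.trans
        (congrArg Subtype.val (DFunLike.congr_fun hres x))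
    obtain ⟨h1, -⟩ := hagree σ (lift g) fun x => by rw [hlift, hσx]
    rw [hchi] at h1
    exact hinert σ h1 (D.φ_eq_zero_of_decomposition hadm A hA hσ h1) g hσx
  · intro s
    let g₀ : E ≃ₐ[ℚ] E := s.liftNormal E
    have hg₀ : ∀ k : K, g₀ (algebraMap K E k) = algebraMap K E (s k) :=
      AlgEquiv.liftNormal_commutes s E
    refine ⟨g₀.toRingEquiv, hg₀, fun g => ?_⟩
    refine ⟨AlgEquiv.ofRingEquiv (f := ((g₀.trans (g.restrictScalars ℚ)).trans g₀.symm).toRingEquiv)
      (fun k => ?_), fun x => ?_, ?_⟩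
    · show g₀.symm (g (g₀ (algebraMap K E k))) = algebraMap K E k
      rw [hg₀, g.commutes, ← hg₀, g₀.symm_apply_apply]
    · show g (g₀ x) = g₀ (g₀.symm (g (g₀ x)))
      rw [g₀.apply_symm_apply]
    · set σ : Γ := g₀.liftNormal Qbar
      have hσ : ∀ x : E, σ x = (g₀ x : Qbar) := AlgEquiv.liftNormal_commutes g₀ Qbar
      have hσinv : ∀ x : E, σ⁻¹ (x : Qbar) = (g₀.symm x : Qbar) := fun x => by
        have := hσ (g₀.symm x)
        rw [g₀.apply_symm_apply] at this
        rw [← this, ← AlgEquiv.mul_apply, inv_mul_cancel, AlgEquiv.one_apply]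
      have hχσ : chiBar p σ = (galChar p K s : ZMod p) := by
        refine pow_val_inj hz ?_
        rw [← chiBar_apply_rootOfUnity _ hz.pow_eq_one, ← halg, hσ, hg₀, halg, halg, ← map_pow]
        exact congrArg ι
          (IsCyclotomicExtension.Rat.galEquivZMod_apply_of_pow_eq p K s hzKp.pow_eq_one)
      rw [← hχσ, ← (D.φ_conj σ (lift g) (hchi g)).2]
      refine (hagree _ _ fun x => ?_).2
      rw [hlift, AlgEquiv.mul_apply, AlgEquiv.mul_apply, hσ, hlift, hσinv]
      rfl

end FLTA.Herbrand
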