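import Fermat.Agent.Herbrand.UnitTrace
import Mathlib.RingTheory.IntegralDomain
import Mathlib.NumberTheory.NumberField.InfinitePlace.TotallyRealComplex

/-!
# The `χ²`-eigenspace of units modulo torsion and `p`-th powers is a line

`unitProj` is the projector on `(ZMod p) ^ rank` onto the `χ²`-eigenspace; its range has dimension
one.
-/

set_option autoImplicit false
set_option linter.unusedSectionVars false
set_option maxSynthPendingDepth 3

open NumberField NumberField.Units IsCyclotomicExtension Module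

noncomputable section

namespace FLTA.Herbrand

variable {p : ℕ} [hp : Fact p.Prime] {K : Type*} [Field K] [NumberField K]
  [hK : IsCyclotomicExtension {p} ℚ K]

include hp hK

theorem gal_mul_comm (σ τ : Gal(K/ℚ)) : σ * τ = τ * σ :=
  (galChar_bijective p K).injective (by rw [map_mul, map_mul, mul_comm])

theorem card_gal_cyclo : Fintype.card Gal(K/ℚ) = p - 1 := by
  rw [Fintype.card_congr (Equiv.ofBijective _ (galChar_bijective p K)), ZMod.card_units]

theorem isComplex_of_cyclo (h3 : 3 ≤ p) (w : InfinitePlace K) : w.IsComplex := by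
  classical
  rw [← InfinitePlace.not_isReal_iff_isComplex]
  intro hw
  have h := IsCyclotomicExtension.Rat.nrRealPlaces_eq_zero (n := p) K (by omega)
  exact (Fintype.card_eq_zero_iff.mp h).false ⟨w, hw⟩

theorem two_mul_rank_add_one (h3 : 3 ≤ p) : 2 * (rank K + 1) = p - 1 := by
  have h1 := InfinitePlace.card_eq_nrRealPlaces_add_nrComplexPlaces (K := K)
  rw [IsCyclotomicExtension.Rat.nrRealPlaces_eq_zero (n := p) K (by omega), zero_add,
    IsCyclotomicExtension.Rat.nrComplexPlaces_eq_totient_div_two p K,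
    Nat.totient_prime hp.out] at h1
  obtain ⟨m, hm⟩ : Odd p := hp.out.odd_of_ne_two (by omega)
  have h2 : rank K + 1 = Fintype.card (InfinitePlace K) := Nat.sub_add_cancel Fintype.card_pos
  omega

theorem card_stabilizer_cyclo (h3 : 3 ≤ p) (w : InfinitePlace K) :
    Nat.card (MulAction.stabilizer Gal(K/ℚ) w) = 2 := by
  have := IsCyclotomicExtension.isGalois {p} ℚ K
  exact InfinitePlace.isRamified_iff_card_stabilizer_eq_two.mp (InfinitePlace.isRamified_iff.mpr
    ⟨isComplex_of_cyclo (p := p) h3 w, IsTotallyReal.isReal _⟩)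

theorem mem_stabilizer_iff_of_cyclo (σ : Gal(K/ℚ)) (w w' : InfinitePlace K) :
    σ • w = w ↔ σ • w' = w' := by
  have := IsCyclotomicExtension.isGalois {p} ℚ K
  obtain ⟨τ, rfl⟩ := InfinitePlace.exists_smul_eq_of_comap_eq (k := ℚ) (w := w) (w' := w')
    (Subsingleton.elim _ _)
  rw [smul_smul, gal_mul_comm (p := p) σ τ, ← smul_smul, smul_left_cancel_iff]

theorem chiSq_of_smul_eq (h3 : 3 ≤ p) {σ : Gal(K/ℚ)} {w : InfinitePlace K} (h : σ • w = w) :
    chiSq p K σ = 1 := by
  have hσ : (⟨σ, h⟩ : MulAction.stabilizer Gal(K/ℚ) w) ^ 2 = 1 := by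
    rw [← card_stabilizer_cyclo (p := p) h3 w]
    exact pow_card_eq_one'
  have h2 : σ ^ 2 = 1 := congrArg Subtype.val hσ
  rw [chiSq, ← Units.val_pow_eq_pow_val, ← map_pow, h2, map_one, Units.val_one]

theorem sum_chiSq (h5 : 5 ≤ p) : ∑ σ : Gal(K/ℚ), chiSq p K σ = 0 := by
  have h2 : (2 : ZMod p) ≠ 0 := by
    rw [← Nat.cast_two (R := ZMod p)]
    exact fun h => absurd (Nat.le_of_dvd two_pos ((ZMod.natCast_eq_zero_iff 2 p).mp h)) (by omega)
  obtain ⟨τ, hτ⟩ := (galChar_bijective p K).surjective (Units.mk0 (2 : ZMod p) h2)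
  have h : chiSq p K τ * ∑ σ : Gal(K/ℚ), chiSq p K σ = ∑ σ : Gal(K/ℚ), chiSq p K σ := by
    rw [Finset.mul_sum]
    simp only [← chiSq_mul]
    exact Equiv.sum_comp (Equiv.mulLeft τ) (chiSq p K)
  have h4 : chiSq p K τ ≠ 1 := by
    rw [chiSq, hτ, Units.val_mk0, sq, ← sub_ne_zero, show (2 : ZMod p) * 2 - 1 = (3 : ℕ) by norm_num]
    exact fun h => absurd (Nat.le_of_dvd (by norm_num) ((ZMod.natCast_eq_zero_iff 3 p).mp h))
      (by omega)
  exact (mul_left_eq_self₀.mp h).resolve_left h4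

variable (p) in
/-- The action of `σ` on units modulo torsion and `p`-th powers. -/
def unitEnd (σ : Gal(K/ℚ)) : (Fin (rank K) → ZMod p) →ₗ[ZMod p] (Fin (rank K) → ZMod p) :=
  Matrix.toLin' ((unitMatrix σ).map (Int.castRingHom (ZMod p)))

variable (p) in
/-- Coordinates of a unit modulo torsion and `p`-th powers. -/
def unitRed (u : (𝓞 K)ˣ) : Fin (rank K) → ZMod p :=
  fun i => (unitCoord K (Additive.ofMul u) i : ZMod p)

theorem unitRed_mul (u v : (𝓞 K)ˣ) : unitRed p (u * v) = unitRed p u + unitRed p v := by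
  funext i
  simp [unitRed]

theorem unitRed_pow (u : (𝓞 K)ˣ) (n : ℕ) : unitRed p (u ^ n) = (n : ZMod p) • unitRed p u := by
  funext i
  simp [unitRed]

theorem unitRed_prod {ι : Type*} (s : Finset ι) (f : ι → (𝓞 K)ˣ) :
    unitRed p (∏ i ∈ s, f i) = ∑ i ∈ s, unitRed p (f i) := by
  funext j
  simp [unitRed, ofMul_prod, Finset.sum_apply]

theorem unitRed_galUnit (σ : Gal(K/ℚ)) (u : (𝓞 K)ˣ) :
    unitRed p (galUnit σ u) = unitEnd p σ (unitRed p u) := by
  funext i
  show _ = (((unitMatrix σ).map (Int.castRingHom (ZMod p))).mulVec (unitRed p u)) i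
  exact (congrArg (fun z : ℤ => (z : ZMod p)) (congrFun (unitCoord_galUnit σ u) i)).trans
    (RingHom.map_mulVec (Int.castRingHom (ZMod p)) (unitMatrix σ) _ i)

theorem unitEnd_mul (σ τ : Gal(K/ℚ)) :
    unitEnd p (σ * τ) = (unitEnd p σ).comp (unitEnd p τ) := by
  rw [unitEnd, unitMatrix_mul, Matrix.map_mul, Matrix.toLin'_mul]
  rfl

variable (p K) in
/-- The projector onto the `χ²`-eigenspace. -/
def unitProj : (Fin (rank K) → ZMod p) →ₗ[ZMod p] (Fin (rank K) → ZMod p) :=
  -∑ σ : Gal(K/ℚ), chiSq p K σ⁻¹ • unitEnd p σ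

theorem unitProj_apply (x : Fin (rank K) → ZMod p) :
    unitProj p K x = -∑ σ : Gal(K/ℚ), chiSq p K σ⁻¹ • unitEnd p σ x := by
  simp [unitProj]

theorem neg_natCast_card_gal : -((Fintype.card Gal(K/ℚ) : ℕ) : ZMod p) = 1 := by
  rw [card_gal_cyclo (p := p), Nat.cast_sub hp.out.one_le, ZMod.natCast_self, zero_sub, neg_neg,
    Nat.cast_one]

theorem unitProj_of_eigen {x : Fin (rank K) → ZMod p}
    (hx : ∀ σ : Gal(K/ℚ), unitEnd p σ x = chiSq p K σ • x) : unitProj p K x = x := by
  rw [unitProj_apply]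
  simp only [hx, smul_smul, chiSq_inv_mul, one_smul, Finset.sum_const, Finset.card_univ]
  rw [← Nat.cast_smul_eq_nsmul (ZMod p), ← neg_smul, neg_natCast_card_gal, one_smul]

theorem unitEnd_unitProj (τ : Gal(K/ℚ)) (x : Fin (rank K) → ZMod p) :
    unitEnd p τ (unitProj p K x) = chiSq p K τ • unitProj p K x := by
  simp only [unitProj_apply, map_neg, map_sum, map_smul, smul_neg, Finset.smul_sum, smul_smul]
  congr 1
  refine Fintype.sum_equiv (Equiv.mulLeft τ) _ _ fun σ => ?_
  rw [Equiv.coe_mulLeft, unitEnd_mul, LinearMap.comp_apply, mul_inv_rev, chiSq_mul,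
    mul_left_comm, mul_comm (chiSq p K τ), chiSq_inv_mul, mul_one]

open scoped Classical in
theorem trace_unitEnd (h3 : 3 ≤ p) (w₀ : InfinitePlace K) (σ : Gal(K/ℚ)) :
    LinearMap.trace (ZMod p) _ (unitEnd p σ) =
      (if σ • w₀ = w₀ then ((rank K + 1 : ℕ) : ZMod p) else 0) - 1 := by
  have hZ : (unitMatrix σ).trace = (if σ • w₀ = w₀ then ((rank K + 1 : ℕ) : ℤ) else 0) - 1 := by
    have h := trace_unitMatrix σ
    have hfix : ∀ w : InfinitePlace K, σ⁻¹ • w = w ↔ σ • w₀ = w₀ := fun w =>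
      (inv_smul_eq_iff.trans eq_comm).trans (mem_stabilizer_iff_of_cyclo (p := p) σ w w₀)
    simp only [hfix, Finset.sum_const, Finset.card_univ, nsmul_eq_mul] at h
    have h2 : rank K + 1 = Fintype.card (InfinitePlace K) := Nat.sub_add_cancel Fintype.card_pos
    apply Int.cast_injective (α := ℝ)
    rw [h, ← h2]
    split_ifs <;> simp
  rw [unitEnd, Matrix.trace_toLin'_eq, ← AddMonoidHom.map_trace, hZ]
  split_ifs <;> simp

theorem trace_unitProj (h5 : 5 ≤ p) : LinearMap.trace (ZMod p) _ (unitProj p K) = 1 := by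
  classical
  obtain ⟨w₀⟩ := (inferInstance : Nonempty (InfinitePlace K))
  simp only [unitProj, map_neg, map_sum, map_smul, trace_unitEnd (p := p) (by omega) w₀,
    smul_eq_mul, mul_sub, mul_one, Finset.sum_sub_distrib, mul_ite, mul_zero]
  rw [Fintype.sum_equiv (Equiv.inv Gal(K/ℚ)) (fun σ => chiSq p K σ⁻¹) (chiSq p K) (fun _ => rfl),
    sum_chiSq h5, sub_zero, ← Finset.sum_filter]
  have hs : ∀ σ ∈ Finset.univ.filter (fun σ : Gal(K/ℚ) => σ • w₀ = w₀),
      chiSq p K σ⁻¹ * ((rank K + 1 : ℕ) : ZMod p) = ((rank K + 1 : ℕ) : ZMod p) := fun σ hσ => by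
    rw [chiSq_of_smul_eq (p := p) (by omega) (inv_smul_eq_iff.mpr (Finset.mem_filter.mp hσ).2.symm),
      one_mul]
  rw [Finset.sum_congr rfl hs, Finset.sum_const, nsmul_eq_mul]
  have hc : (Finset.univ.filter (fun σ : Gal(K/ℚ) => σ • w₀ = w₀)).card = 2 := by
    rw [← card_stabilizer_cyclo (p := p) (by omega) w₀, Nat.card_eq_fintype_card,
      Fintype.card_subtype]
    rfl
  rw [hc, ← Nat.cast_mul, two_mul_rank_add_one (p := p) (by omega),
    Nat.cast_sub hp.out.one_le, ZMod.natCast_self, zero_sub, neg_neg, Nat.cast_one]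

theorem finrank_range_unitProj (h5 : 5 ≤ p) :
    finrank (ZMod p) (LinearMap.range (unitProj p K)) = 1 := by
  have hproj : LinearMap.IsProj (LinearMap.range (unitProj p K)) (unitProj p K) :=
    ⟨fun x => LinearMap.mem_range_self _ x, by
      rintro x ⟨y, rfl⟩
      exact unitProj_of_eigen fun σ => unitEnd_unitProj σ y⟩
  have h := hproj.trace
  rw [trace_unitProj h5] at h
  have hr : rank K < p := by have := two_mul_rank_add_one (p := p) (K := K) (by omega); omega
  have hle : finrank (ZMod p) (LinearMap.range (unitProj p K)) ≤ rank K :=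
    (Submodule.finrank_le _).trans (le_of_eq (Module.finrank_fin_fun (ZMod p)))
  have h' := (ZMod.natCast_eq_natCast_iff' _ 1 p).mp (by rw [← h, Nat.cast_one])
  rw [Nat.mod_eq_of_lt (hle.trans_lt hr), Nat.mod_eq_of_lt hp.out.one_lt] at h'
  exact h'

end FLTA.Herbrand
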