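import Fermat.Agent.Herbrand.Local
import Fermat.Agent.Herbrand.UnitsEigen

/-!
# Units in the `χ²`-eigenspace

A unit of `ℚ(ζ_p)` which lies in the `χ²`-eigenspace modulo `p`-th powers and is congruent to an
integer modulo `(ζ - 1) ^ 3` is a `p`-th power.
-/

set_option autoImplicit false
set_option linter.unusedSectionVars false
set_option maxSynthPendingDepth 3

open NumberField NumberField.Units IsCyclotomicExtension

noncomputable section

namespace FLTA.Herbrand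

variable {p : ℕ} [hp : Fact p.Prime] {K : Type*} [Field K] [NumberField K]
  [hK : IsCyclotomicExtension {p} ℚ K]

theorem phiTwo_eq_sum (h5 : 5 ≤ p) (u : (𝓞 K)ˣ) :
    phiTwo h5 u = ∑ i, unitRed p u i * phiTwo h5 (fundSystem K i) := by
  obtain ⟨t, ht, hu⟩ := exists_eq_mul_prod u
  conv_lhs => rw [hu]
  rw [phiTwo_mul, phiTwo_of_mem_torsion h5 ht, zero_add, phiTwo_prod]
  refine Finset.sum_congr rfl fun i _ => ?_
  have h := map_zsmul (phiTwoHom (K := K) h5) (unitCoord K (Additive.ofMul u) i)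
    (Additive.ofMul (fundSystem K i))
  rw [zsmul_eq_mul] at h
  exact h

theorem unitRed_eta : unitRed p (eta p K) = -unitProj p K (unitRed p (cycloUnit p K)) := by
  rw [eta, unitRed_prod, unitProj_apply, neg_neg]
  refine Finset.sum_congr rfl fun σ _ => ?_
  rw [unitRed_pow, unitRed_galUnit, ZMod.natCast_val, ZMod.cast_id]

theorem exists_torsion_mul_pow_eq (h5 : 5 ≤ p) (u : (𝓞 K)ˣ)
    (heig : ∀ σ : Gal(K/ℚ), ∃ v : (𝓞 K)ˣ, galUnit σ u = u ^ (chiSq p K σ).val * v ^ p)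
    (hu0 : phiTwo h5 u = 0) :
    ∃ t ∈ torsion K, ∃ v : (𝓞 K)ˣ, u = t * v ^ p := by
  have hx : ∀ σ : Gal(K/ℚ), unitEnd p σ (unitRed p u) = chiSq p K σ • unitRed p u := by
    intro σ
    obtain ⟨v, hv⟩ := heig σ
    rw [← unitRed_galUnit, hv, unitRed_mul, unitRed_pow, unitRed_pow, ZMod.natCast_val,
      ZMod.cast_id, ZMod.natCast_self, zero_smul, add_zero]
  have hmem : unitRed p u ∈ LinearMap.range (unitProj p K) :=
    ⟨unitRed p u, unitProj_of_eigen hx⟩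
  have hmem' : unitRed p (eta p K) ∈ LinearMap.range (unitProj p K) :=
    ⟨-unitRed p (cycloUnit p K), by rw [map_neg, unitRed_eta]⟩
  have hne : (⟨_, hmem'⟩ : LinearMap.range (unitProj p K)) ≠ 0 := by
    intro h
    have h' : unitRed p (eta p K) = 0 := congrArg Subtype.val h
    exact phiTwo_eta_ne_zero (K := K) h5 (by rw [phiTwo_eq_sum, h']; simp)
  obtain ⟨c, hc⟩ := (finrank_eq_one_iff_of_nonzero' _ hne).mp (finrank_range_unitProj h5) ⟨_, hmem⟩
  have hc' : c • unitRed p (eta p K) = unitRed p u := congrArg Subtype.val hc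
  have hu := phiTwo_eq_sum h5 u
  rw [← hc', hu0] at hu
  simp only [Pi.smul_apply, smul_eq_mul, mul_assoc, ← Finset.mul_sum, ← phiTwo_eq_sum h5] at hu
  rw [(mul_eq_zero.mp hu.symm).resolve_right (phiTwo_eta_ne_zero h5), zero_smul] at hc'
  obtain ⟨t, ht, hut⟩ := exists_eq_mul_prod u
  have hd : ∀ i, ∃ k : ℤ, unitCoord K (Additive.ofMul u) i = (p : ℤ) * k := fun i =>
    (ZMod.intCast_zmod_eq_zero_iff_dvd _ p).mp (congrFun hc'.symm i)
  choose k hk using hd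
  refine ⟨t, ht, ∏ i, fundSystem K i ^ k i, ?_⟩
  rw [← Finset.prod_pow]
  refine hut.trans (congrArg (t * ·) (Finset.prod_congr rfl fun i _ => ?_))
  rw [hk i, mul_comm, zpow_mul, zpow_natCast]

/-- The first logarithmic derivative modulo `p`. -/
def phiOne (h5 : 5 ≤ p) (u : (𝓞 K)ˣ) : ZMod p :=
  (jetHom K h5 (u : 𝓞 K)).fst.snd / (jetHom K h5 (u : 𝓞 K)).fst.fst

theorem phiOne_mul (h5 : 5 ≤ p) (u v : (𝓞 K)ˣ) :
    phiOne h5 (u * v) = phiOne h5 u + phiOne h5 v := by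
  have hu := Jet.fst_fst_ne_zero (u.isUnit.map (jetHom K h5))
  have hv := Jet.fst_fst_ne_zero (v.isUnit.map (jetHom K h5))
  simp only [phiOne, Units.val_mul, map_mul, TrivSqZeroExt.fst_mul, DualNumber.snd_mul]
  field_simp
  ring

theorem phiOne_one (h5 : 5 ≤ p) : phiOne h5 (1 : (𝓞 K)ˣ) = 0 := by
  simp [phiOne]

theorem phiOne_pow (h5 : 5 ≤ p) (u : (𝓞 K)ˣ) (n : ℕ) : phiOne h5 (u ^ n) = n * phiOne h5 u := by
  induction n with
  | zero => simp [phiOne_one]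
  | succ n ih => rw [pow_succ, phiOne_mul, ih]; push_cast; ring

theorem exists_pow_eq_of_eigen_of_local (h5 : 5 ≤ p) (u : (𝓞 K)ˣ)
    (heig : ∀ σ : Gal(K/ℚ), ∃ v : (𝓞 K)ˣ, galUnit σ u = u ^ (chiSq p K σ).val * v ^ p)
    (hloc : ∃ c : ℤ, piO p K ^ 3 ∣ ((u : 𝓞 K) - c)) :
    ∃ v : (𝓞 K)ˣ, v ^ p = u := by
  obtain ⟨c, hc⟩ := hloc
  obtain ⟨t, ht, v, hu⟩ :=
    exists_torsion_mul_pow_eq h5 u heig (phiTwo_eq_zero_of_congr_int h5 u c hc)
  have hu1 : phiOne h5 u = 0 := by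
    obtain ⟨y, hy⟩ := hc
    rw [phiOne, eq_add_of_sub_eq hy, map_add, map_mul, jetHom_piO_pow_three, zero_mul, zero_add,
      map_intCast]
    simp
  have ht1 : phiOne h5 t = 0 := by
    rw [hu, phiOne_mul, phiOne_pow, ZMod.natCast_self, zero_mul, add_zero] at hu1
    exact hu1
  have h2p : ((t : 𝓞 K) ^ 2) ^ p = 1 := by
    have h : (⟨t, ht⟩ : Units.torsion K) ^ Units.torsionOrder K = 1 := pow_card_eq_one'
    rw [IsCyclotomicExtension.Rat.torsionOrder_eq (n := p) (K := K),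
      if_neg (Nat.not_even_iff_odd.mpr (hp.out.odd_of_ne_two (by omega)))] at h
    rw [← pow_mul]
    simpa using congrArg (fun x : (𝓞 K)ˣ => (x : 𝓞 K)) (congrArg Subtype.val h)
  obtain ⟨i, hi, hit⟩ := (zetaO_isPrimitiveRoot p K).eq_pow_of_pow_eq_one h2p
  have hi0 : (i : ZMod p) = 0 := by
    have h := phiOne_pow h5 t 2
    rw [ht1, mul_zero, phiOne, Units.val_pow_eq_pow_val, ← hit, map_pow, jetHom_zetaO,
      Jet.expo_pow] at h
    simpa [Jet.expo] using h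
  have hi' : i = 0 := Nat.eq_zero_of_dvd_of_lt ((ZMod.natCast_eq_zero_iff i p).mp hi0) hi
  have ht2 : t ^ 2 = 1 := Units.ext (by rw [Units.val_pow_eq_pow_val, ← hit, hi']; simp)
  obtain ⟨m, hm⟩ : Odd p := hp.out.odd_of_ne_two (by omega)
  refine ⟨t * v, ?_⟩
  rw [mul_pow, hu]
  congr 1
  rw [hm, pow_succ, pow_mul, ht2, one_pow, one_mul]

end FLTA.Herbrand
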