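import Mathlib.NumberTheory.NumberField.Cyclotomic.PID
import Mathlib.NumberTheory.NumberField.Cyclotomic.Three
import Fermat.Agent.Herbrand.ClassKill
import Fermat.Agent.Herbrand.Units
import Fermat.Agent.Herbrand.Descent

/-!
# S14: assembly
-/

set_option autoImplicit false

noncomputable section

open NumberField
open scoped Pointwise nonZeroDivisors

namespace FLTA.Herbrand

variable {p : ℕ} [hp : Fact p.Prime] {K : Type} [Field K] [NumberField K]
  [IsCyclotomicExtension {p} ℚ K]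

theorem absNorm_span_piO : Ideal.absNorm (Ideal.span {piO p K}) = p := by
  haveI : IsCyclotomicExtension {p ^ (0 + 1)} ℚ K := by simpa using ‹IsCyclotomicExtension {p} ℚ K›
  have hζ : IsPrimitiveRoot (IsCyclotomicExtension.zeta p ℚ K) (p ^ (0 + 1)) := by
    simpa using IsCyclotomicExtension.zeta_spec p ℚ K
  exact IsCyclotomicExtension.Rat.absNorm_span_zeta_sub_one p 0 hζ

/-- There is no Kummer element: the descent is contradictory. -/
theorem not_exists_kummer_element (h3 : 3 ≤ p) (α : 𝓞 K) (hnp : ¬ ∃ x : K, (α : K) = x ^ p)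
    (he : IsEigen p K α) (hl : IsLocalInt p K α) (hI : ∃ I : Ideal (𝓞 K), Ideal.span {α} = I ^ p) :
    False := by
  classical
  obtain ⟨I, hI⟩ := hI
  have hα0 : α ≠ 0 := fun h => hnp ⟨0, by simp [h, hp.out.ne_zero]⟩
  have hI0 : I ≠ ⊥ := by
    rintro rfl
    rw [← Ideal.zero_eq_bot, zero_pow hp.out.ne_zero, Ideal.zero_eq_bot,
      Ideal.span_singleton_eq_bot] at hI
    exact hα0 hI
  have hp5 : p = 3 ∨ 5 ≤ p := by
    rcases Nat.lt_or_ge p 5 with h | h
    · left
      interval_cases p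
      · rfl
      · exact absurd hp.out (by norm_num)
    · exact Or.inr h
  -- the ideal `I` is principal
  have hprin : Submodule.IsPrincipal I := by
    rcases hp5 with rfl | h5
    · exact (IsCyclotomicExtension.Rat.three_pid K).principal I
    · refine (ClassGroup.mk0_eq_one_iff (mem_nonZeroDivisors_of_ne_zero hI0)).mp ?_
      refine eq_one_of_eigen h5 _ ?_ fun σ => ?_
      · rw [← map_pow, ClassGroup.mk0_eq_one_iff]
        exact ⟨α, hI.symm⟩
      · obtain ⟨g, h, hh, hgh⟩ := he σ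
        set n := (chiSq p K σ).val
        have hσI : σ • I ≠ ⊥ := fun e => hI0 (by
          have := congrArg (σ⁻¹ • ·) e
          simp only [inv_smul_smul] at this
          rw [this]
          exact Ideal.map_bot)
        rw [galCl_mk0 σ ⟨I, _⟩ (mem_nonZeroDivisors_of_ne_zero hσI), ← map_pow,
          ClassGroup.mk0_eq_mk0_iff]
        have hroot : (σ • I * Ideal.span {h}) ^ p = (I ^ n * Ideal.span {g}) ^ p := by
          rw [mul_pow, mul_pow, pow_right_comm I n p, Ideal.span_singleton_pow,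
            Ideal.span_singleton_pow, ← hI, ← smul_pow', ← hI, Ideal.span_singleton_pow,
            Ideal.span_singleton_mul_span_singleton, ← hgh, Ideal.pointwise_smul_def, Ideal.map_span,
            Set.image_singleton, Ideal.span_singleton_mul_span_singleton]
          rfl
        have heq : σ • I * Ideal.span {h} = I ^ n * Ideal.span {g} :=
          dvd_antisymm
            ((UniqueFactorizationMonoid.pow_dvd_pow_iff_dvd hp.out.ne_zero).mp hroot.dvd)
            ((UniqueFactorizationMonoid.pow_dvd_pow_iff_dvd hp.out.ne_zero).mp hroot.symm.dvd)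
        have hg : g ≠ 0 := by
          rintro rfl
          rw [Ideal.span_singleton_eq_bot.mpr rfl, Ideal.mul_bot, Ideal.mul_eq_bot] at heq
          rcases heq with e | e
          · exact hσI e
          · exact hh (Ideal.span_singleton_eq_bot.mp e)
        exact ⟨h, g, hh, hg, by rw [mul_comm, heq, mul_comm]; rfl⟩
  obtain ⟨g₁, hg₁⟩ := hprin
  rw [Ideal.submodule_span_eq] at hg₁
  rw [hg₁, Ideal.span_singleton_pow, Ideal.span_singleton_eq_span_singleton] at hI
  obtain ⟨u', hu'⟩ := hI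
  set u : (𝓞 K)ˣ := u'⁻¹
  have hαu : α = (u : 𝓞 K) * g₁ ^ p := by
    rw [← hu', mul_comm α, ← mul_assoc, Units.inv_mul, one_mul]
  have hg₁0 : g₁ ≠ 0 := by
    rintro rfl
    exact hα0 (by rw [hαu, zero_pow hp.out.ne_zero, mul_zero])
  -- local condition for `u`
  obtain ⟨c, hc, hcong⟩ := hl
  have hloc : ∃ n : ℤ, piO p K ^ 3 ∣ ((u : 𝓞 K) - n) := by
    haveI : Fact p.Prime := hp
    obtain ⟨m, hm⟩ := exists_natCast_sub_mem (absNorm_span_piO (p := p) (K := K)) g₁
    rw [Ideal.mem_span_singleton] at hm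
    have hpπ : piO p K ^ 2 ∣ (p : 𝓞 K) :=
      (pow_dvd_pow _ (by omega)).trans (Ideal.mem_span_singleton.mp natCast_mem_span_piO_pow)
    -- congruences of `p`-th powers
    have hlift : ∀ x y : 𝓞 K, piO p K ∣ x - y → piO p K ^ 3 ∣ x ^ p - y ^ p := by
      intro x y hxy
      obtain ⟨r, hr⟩ := exists_add_pow_prime_eq hp.out y (x - y)
      rw [add_sub_cancel] at hr
      rw [hr, show y ^ p + (x - y) ^ p + (p : 𝓞 K) * y * (x - y) * r - y ^ p
          = (x - y) ^ p + ((p : 𝓞 K) * (x - y)) * (y * r) by ring]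
      refine dvd_add ((pow_dvd_pow _ h3).trans (pow_dvd_pow_of_dvd hxy p)) (Dvd.dvd.mul_right ?_ _)
      rw [pow_succ (n := 2)]
      exact mul_dvd_mul hpπ hxy
    have hπp : piO p K ∣ (p : 𝓞 K) := (dvd_pow_self _ two_ne_zero).trans hpπ
    have hm0 : ¬ (p : ℤ) ∣ (m : ℤ) := by
      intro h
      apply hc
      have hmπ : piO p K ∣ (m : 𝓞 K) := by
        obtain ⟨t, ht⟩ := Int.natCast_dvd_natCast.mp h
        rw [ht, Nat.cast_mul]
        exact hπp.mul_right _
      have hg : piO p K ∣ g₁ := by simpa using dvd_add hm hmπ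
      have hcπ : piO p K ∣ (c : 𝓞 K) := by
        have h1 := (dvd_pow_self (piO p K) three_ne_zero).trans hcong
        have h2 : piO p K ∣ α := hαu ▸ (dvd_pow hg hp.out.ne_zero).mul_left _
        simpa using dvd_sub h2 h1
      haveI : IsCyclotomicExtension {p ^ (0 + 1)} ℚ K := by
        simpa using ‹IsCyclotomicExtension {p} ℚ K›
      have hζ : IsPrimitiveRoot (IsCyclotomicExtension.zeta p ℚ K) (p ^ (0 + 1)) := by
        simpa using IsCyclotomicExtension.zeta_spec p ℚ K
      exact (IsCyclotomicExtension.Rat.zeta_sub_one_dvd_intCast_iff p 0 hζ).mp hcπ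
    obtain ⟨a, b, hab⟩ : IsCoprime (p : ℤ) (m : ℤ) :=
      (Nat.prime_iff_prime_int.mp hp.out).coprime_iff_not_dvd.mpr hm0
    refine ⟨c * b ^ p, ?_⟩
    have h1 : piO p K ^ 3 ∣ g₁ ^ p * (b : 𝓞 K) ^ p - 1 := by
      have := hlift (g₁ * (b : 𝓞 K)) 1 (by
        have e : g₁ * (b : 𝓞 K) - 1 = (g₁ - (m : 𝓞 K)) * b + (p : 𝓞 K) * (-a : 𝓞 K) := by
          have hab' := congrArg (fun z : ℤ => (z : 𝓞 K)) hab
          push_cast at hab'
          linear_combination hab'
        rw [e]
        exact dvd_add (hm.mul_right _) (hπp.mul_right _))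
      rwa [mul_pow, one_pow] at this
    have e : (u : 𝓞 K) - ((c * b ^ p : ℤ) : 𝓞 K) =
        (b : 𝓞 K) ^ p * (α - c) - (u : 𝓞 K) * (g₁ ^ p * (b : 𝓞 K) ^ p - 1) := by
      rw [hαu]
      push_cast
      ring
    rw [e]
    exact dvd_sub (hcong.mul_left _) (h1.mul_left _)
  -- eigenspace condition for `u`
  have heig : ∀ σ : Gal(K/ℚ), ∃ v : (𝓞 K)ˣ, galUnit σ u = u ^ (chiSq p K σ).val * v ^ p := by
    intro σ
    obtain ⟨g, h, hh, hgh⟩ := he σ
    set n := (chiSq p K σ).val
    rw [hαu, smul_mul', smul_pow', mul_pow] at hgh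
    have hσg : σ • g₁ ≠ 0 := fun e => hg₁0 (smul_eq_zero_iff_eq σ |>.mp e)
    set den : K := ((σ • g₁ : 𝓞 K) : K) * (h : K)
    have hden : den ≠ 0 := mul_ne_zero (by simpa using hσg) (by simpa using hh)
    set r : K := (g₁ : K) ^ n * (g : K) / den
    have hval : ((((u ^ n)⁻¹ * galUnit σ u : (𝓞 K)ˣ) : 𝓞 K) : K) = r ^ p := by
      have hK : (((σ • (u : 𝓞 K) : 𝓞 K)) : K) * den ^ p
          = ((u : 𝓞 K) : K) ^ n * ((g₁ : K) ^ n * (g : K)) ^ p := by
        have := congrArg (fun z : 𝓞 K => (z : K)) hgh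
        simp only [map_mul, map_pow] at this
        rw [mul_pow, mul_pow, pow_right_comm ((g₁ : K)) n p]
        linear_combination this
      have hu0 : (((u ^ n : (𝓞 K)ˣ) : 𝓞 K) : K) ≠ 0 := by simp
      rw [div_pow, eq_div_iff (pow_ne_zero _ hden)]
      refine mul_left_cancel₀ hu0 ?_
      rw [← mul_assoc, ← map_mul, ← Units.val_mul, mul_inv_cancel_left, coe_galUnit, hK,
        Units.val_pow_eq_pow_val]
      rfl
    have hr : IsIntegral ℤ r := IsIntegral.of_pow hp.out.pos (hval ▸ RingOfIntegers.isIntegral_coe _)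
    have hrv : (⟨r, hr⟩ : 𝓞 K) ^ p = (((u ^ n)⁻¹ * galUnit σ u : (𝓞 K)ˣ) : 𝓞 K) :=
      RingOfIntegers.ext hval.symm
    obtain ⟨v, hv⟩ := (isUnit_pow_iff hp.out.ne_zero).mp (hrv.symm ▸ Units.isUnit _)
    refine ⟨v, ?_⟩
    rw [← inv_mul_eq_iff_eq_mul]
    exact Units.ext (by rw [← hrv, Units.val_pow_eq_pow_val, hv]; rfl)
  -- `u` is a `p`-th power
  obtain ⟨w, hw⟩ : ∃ w : (𝓞 K)ˣ, w ^ p = u := by
    rcases hp5 with rfl | h5
    · obtain ⟨n, hn⟩ := hloc
      rcases IsCyclotomicExtension.Rat.Three.eq_one_or_neg_one_of_unit_of_congruent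
        (IsCyclotomicExtension.zeta_spec 3 ℚ K) u
        ⟨n, (pow_dvd_pow _ (by norm_num)).trans hn⟩ with h | h
      · exact ⟨1, by rw [h, one_pow]⟩
      · exact ⟨-1, by rw [h, Odd.neg_one_pow (by decide)]⟩
    · exact exists_pow_eq_of_eigen_of_local h5 u heig hloc
  exact hnp ⟨((w : 𝓞 K) : K) * (g₁ : K), by
    rw [hαu, ← hw, Units.val_pow_eq_pow_val, mul_pow]
    rfl⟩

/-- The Ext-vanishing property. -/
theorem extVanishingCts (h3 : 3 ≤ p) : ExtCitation.ExtVanishingCts p := by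
  intro V _ _ _ _ C hadm
  by_contra hns
  haveI : NeZero p := ⟨hp.out.ne_zero⟩
  haveI : NeZero ((p : ℕ) : ℚ) := ⟨by exact_mod_cast hp.out.ne_zero⟩
  haveI : IsCyclotomicExtension {p} ℚ (CyclotomicField p ℚ) :=
    CyclotomicField.isCyclotomicExtension p ℚ
  obtain ⟨α, h1, h2, h4, h5⟩ := exists_kummer_element h3 hadm hns (CyclotomicField p ℚ)
  exact not_exists_kummer_element h3 α h1 h2 h4 h5

end FLTA.Herbrand
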