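/-
Uniform comparison of translated lattice sums `∑ N(x + v)^(-r)`, for functions `N`
equivalent to a norm, as the exponent `r` decreases to the dimension.
-/
import Mathlib

set_option autoImplicit false

noncomputable section

open Module Filter

namespace FLTA.Herbrand

/-- Lipschitz bound for `t ↦ t^(-r)` on `[c, ∞)`. -/
theorem abs_rpow_neg_sub_le {c r a b : ℝ} (hc : 0 < c) (hr : 0 ≤ r) (ha : c ≤ a) (hb : c ≤ b) :
    |a ^ (-r) - b ^ (-r)| ≤ r * c ^ (-r - 1) * |a - b| := by
  have h : ∀ x ∈ Set.Ici c, HasDerivWithinAt (fun t : ℝ => t ^ (-r))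
      (-r * x ^ (-r - 1)) (Set.Ici c) x := fun x hx =>
    (Real.hasDerivAt_rpow_const (Or.inl (hc.trans_le hx).ne')).hasDerivWithinAt
  have bound : ∀ x ∈ Set.Ici c, ‖-r * x ^ (-r - 1)‖ ≤ r * c ^ (-r - 1) := by
    intro x hx
    have hx0 : 0 < x := hc.trans_le hx
    rw [Real.norm_eq_abs, abs_mul, abs_neg, abs_of_nonneg hr,
      abs_of_nonneg (Real.rpow_nonneg hx0.le _)]
    exact mul_le_mul_of_nonneg_left (Real.rpow_le_rpow_of_nonpos hc hx (by linarith)) hr
  have h2 := (convex_Ici c).norm_image_sub_le_of_norm_hasDerivWithin_le h bound hb ha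
  simpa [Real.norm_eq_abs] using h2

theorem rpow_neg_le_one_add {t r R : ℝ} (ht : 0 < t) (hr : 0 ≤ r) (hR : r ≤ R) :
    t ^ (-r) ≤ 1 + t ^ (-R) := by
  rcases le_total 1 t with h | h
  · linarith [Real.rpow_le_one_of_one_le_of_nonpos h (by linarith : -r ≤ 0),
      Real.rpow_nonneg ht.le (-R)]
  · linarith [Real.rpow_le_rpow_of_exponent_ge ht h (by linarith : -R ≤ -r)]

/-- Comparison of `N^(-r)` at a point `a` far from the origin and at a nearby point `b`. -/
theorem abs_rpow_neg_sub_le_of_far {d m B R r q a b : ℝ} (hm : 0 < m) (hq : 1 ≤ q) (hd : 0 ≤ d)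
    (hdr : d < r) (hrR : r ≤ R) (ha : m / 2 * q ≤ a) (hb : m / 2 * q ≤ b) (hab : |a - b| ≤ B) :
    |a ^ (-r) - b ^ (-r)| ≤ R * B * (1 + (m / 2) ^ (-(R + 1))) * q ^ (-(d + 1)) := by
  have hr0 : 0 < r := hd.trans_lt hdr
  have hB : 0 ≤ B := (abs_nonneg _).trans hab
  have hq0 : 0 < q := one_pos.trans_le hq
  refine (abs_rpow_neg_sub_le (by positivity) hr0.le ha hb).trans ?_
  have h1 : (m / 2) ^ (-r - 1) ≤ 1 + (m / 2) ^ (-(R + 1)) := by
    rw [show -r - 1 = -(r + 1) by ring]
    exact rpow_neg_le_one_add (by positivity) (by linarith) (by linarith)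
  have h2 : q ^ (-r - 1) ≤ q ^ (-(d + 1)) :=
    Real.rpow_le_rpow_of_exponent_le hq (by linarith)
  rw [Real.mul_rpow (by positivity) hq0.le]
  calc r * ((m / 2) ^ (-r - 1) * q ^ (-r - 1)) * |a - b|
      ≤ R * ((1 + (m / 2) ^ (-(R + 1))) * q ^ (-(d + 1))) * B :=
        mul_le_mul (mul_le_mul hrR (mul_le_mul h1 h2 (by positivity) (by positivity))
          (by positivity) (hr0.le.trans hrR)) hab (abs_nonneg _)
          (by have : 0 ≤ R := hr0.le.trans hrR; positivity)
    _ = _ := by ring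

variable {E : Type*} [NormedAddCommGroup E] [NormedSpace ℝ E] [FiniteDimensional ℝ E]
  (L : Submodule ℤ E) [DiscreteTopology L] [IsZLattice ℝ L]

/-- Translating a lattice changes `∑ N(x)^(-r)` only by a bounded amount, uniformly in `r ≤ R`
above the dimension and in the function `N` with the given comparison constants. -/
theorem exists_shift_error (v : E) {m : ℝ} (hm : 0 < m) (M R : ℝ) :
    ∃ e : L → ℝ, Summable e ∧ ∀ N : E → ℝ, N 0 = 0 → (∀ x, m * ‖x‖ ≤ N x) →
      (∀ x y, |N x - N y| ≤ M * ‖x - y‖) → ∀ r : ℝ, finrank ℝ E < r → r ≤ R →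
      ∀ x : L, |N (x + v) ^ (-r) - N x ^ (-r)| ≤ e x := by
  set n : ℕ := finrank ℝ E with hn
  set K := max R 0 * (|M| * ‖v‖) * (1 + (m / 2) ^ (-(R + 1))) with hK
  set e : L → ℝ := fun x => if 2 * ‖v‖ + 1 ≤ ‖(x : E)‖ then K * ‖(x : E)‖ ^ (-((n : ℝ) + 1))
    else (1 + (m * ‖(x : E) + v‖) ^ (-R)) + (1 + (m * ‖(x : E)‖) ^ (-R)) with he
  have hes : Summable e := by
    have hs : Summable fun x : L => K * ‖x‖ ^ (-((n : ℝ) + 1)) :=
      (ZLattice.summable_norm_rpow L _ (by rw [ZLattice.rank ℝ L]; linarith)).mul_left K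
    refine hs.congr_cofinite ?_
    have hfin : {x : L | ‖(x : E)‖ < 2 * ‖v‖ + 1}.Finite := by
      have : DiscreteTopology L.toAddSubgroup := inferInstanceAs (DiscreteTopology L)
      have h1 : (Metric.closedBall 0 (2 * ‖v‖ + 1) ∩ (L.toAddSubgroup : Set E)).Finite :=
        Metric.finite_isBounded_inter_isClosed DiscreteTopology.isDiscrete
          Metric.isBounded_closedBall AddSubgroup.isClosed_of_discrete
      refine Set.Finite.of_finite_image (h1.subset ?_) Subtype.val_injective.injOn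
      rintro _ ⟨x, hx, rfl⟩
      exact ⟨by simpa using hx.le, x.2⟩
    filter_upwards [hfin.compl_mem_cofinite] with x hx
    rw [Set.mem_compl_iff, Set.mem_ofPred_eq, not_lt] at hx
    simp only [he, if_pos hx]
    rfl
  refine ⟨e, hes, ?_⟩
  intro N hN0 hNm hNM r hrn hrR x
  have hr0 : 0 < r := lt_of_le_of_lt (Nat.cast_nonneg n) hrn
  have hNnn : ∀ y, 0 ≤ N y := fun y => le_trans (by positivity) (hNm y)
  by_cases hx : 2 * ‖v‖ + 1 ≤ ‖(x : E)‖
  · have hxy : ‖(x : E)‖ / 2 ≤ ‖(x : E) + v‖ := by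
      have := norm_sub_norm_le (x : E) (-v)
      rw [sub_neg_eq_add, norm_neg] at this
      linarith
    simp only [he, if_pos hx]
    rw [hK, max_eq_left (by linarith : (0 : ℝ) ≤ R)]
    refine abs_rpow_neg_sub_le_of_far hm (by linarith [norm_nonneg v]) (Nat.cast_nonneg n) hrn hrR
      ?_ ?_ ?_
    · refine le_trans ?_ (hNm _)
      nlinarith [norm_nonneg (x : E)]
    · refine le_trans ?_ (hNm _)
      nlinarith [norm_nonneg (x : E)]
    · refine (hNM _ _).trans ?_
      rw [add_sub_cancel_left]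
      exact mul_le_mul_of_nonneg_right (le_abs_self M) (norm_nonneg _)
  · simp only [he, if_neg hx]
    have ha : ∀ y, N y ^ (-r) ∈ Set.Icc 0 (1 + (m * ‖y‖) ^ (-R)) := by
      intro y
      refine ⟨Real.rpow_nonneg (hNnn _) _, ?_⟩
      rcases eq_or_ne y 0 with h0 | h0
      · rw [h0, hN0, Real.zero_rpow (by linarith)]
        positivity
      · have : 0 < m * ‖y‖ := by positivity
        exact (Real.rpow_le_rpow_of_nonpos this (hNm _) (by linarith)).trans
          (rpow_neg_le_one_add this hr0.le hrR)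
    rw [abs_le]
    constructor <;> linarith [(ha (x + v)).1, (ha (x + v)).2, (ha x).1, (ha x).2]

end FLTA.Herbrand
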