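/-
The family of norms on the mixed space of a number field indexed by the log space, used to
write `|N a|^(-s)` as an integral that unfolds over the unit group.
-/
import Mathlib

set_option autoImplicit false

noncomputable section

open NumberField NumberField.InfinitePlace NumberField.Units
  NumberField.Units.dirichletUnitTheorem NumberField.mixedEmbedding MeasureTheory Finset Module
open scoped ENNReal Classical

namespace FLTA.Herbrand

variable (K : Type*) [Field K] [NumberField K]

/-- The logarithm of the scaling factor at `w` attached to `t` in the log space. -/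
def logScale (t : logSpace K) (w : InfinitePlace K) : ℝ :=
  (if h : w = w₀ then - ∑ v, t v else t ⟨w, h⟩) / mult w

theorem continuous_logScale (w : InfinitePlace K) :
    Continuous fun t : logSpace K => logScale K t w := by
  unfold logScale
  split_ifs with h
  · fun_prop
  · fun_prop

theorem logScale_add (t t' : logSpace K) (w : InfinitePlace K) :
    logScale K (t + t') w = logScale K t w + logScale K t' w := by
  unfold logScale
  split_ifs with h
  · simp only [Pi.add_apply, Finset.sum_add_distrib]; ring
  · simp only [Pi.add_apply]; ring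

theorem sum_mult_logScale (t : logSpace K) :
    ∑ w, (mult w : ℝ) * logScale K t w = 0 := by
  classical
  rw [Fintype.sum_eq_add_sum_subtype_ne _ w₀]
  have h1 : ∀ w : InfinitePlace K, (mult w : ℝ) * logScale K t w =
      if h : w = w₀ then - ∑ v, t v else t ⟨w, h⟩ := fun w => by
    rw [logScale, mul_div_cancel₀ _ mult_coe_ne_zero]
  have h2 : ∀ v : {w : InfinitePlace K // w ≠ w₀}, (mult v.1 : ℝ) * logScale K t v = t v :=
    fun v => by rw [h1, dif_neg v.2]
  rw [h1, dif_pos rfl, Finset.sum_congr rfl fun v _ => h2 v]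
  simp

theorem exists_logScale_nonneg (t : logSpace K) : ∃ w, 0 ≤ logScale K t w := by
  by_contra h
  push Not at h
  have : ∑ w, (mult w : ℝ) * logScale K t w < 0 :=
    Finset.sum_neg (fun w _ => mul_neg_of_pos_of_neg (Nat.cast_pos.mpr mult_pos) (h w))
      Finset.univ_nonempty
  rw [sum_mult_logScale] at this
  exact lt_irrefl _ this

theorem exists_abs_logScale_le {s : Set (logSpace K)} (hs : Bornology.IsBounded s) :
    ∃ B : ℝ, 0 ≤ B ∧ ∀ t ∈ s, ∀ w, |logScale K t w| ≤ B := by
  have h1 : Continuous fun t : logSpace K => fun w => logScale K t w :=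
    continuous_pi (continuous_logScale K)
  obtain ⟨B, hB⟩ := ((hs.isCompact_closure.image h1).isBounded).subset_closedBall 0
  refine ⟨max B 0, le_max_right _ _, fun t ht w => ?_⟩
  have h2 := hB ⟨t, subset_closure ht, rfl⟩
  rw [Metric.mem_closedBall, dist_zero_right] at h2
  exact ((Real.norm_eq_abs _).symm.le.trans (norm_le_pi_norm _ w)).trans
    (h2.trans (le_max_left _ _))

/-- The scaled sup norm on the mixed space. -/
def scaledNorm (t : logSpace K) (x : mixedSpace K) : ℝ :=
  univ.sup' univ_nonempty fun w => Real.exp (logScale K t w) * normAtPlace w x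

theorem scaledNorm_zero (t : logSpace K) : scaledNorm K t 0 = 0 := by
  simp [scaledNorm]

theorem continuous_scaledNorm (x : mixedSpace K) :
    Continuous fun t : logSpace K => scaledNorm K t x := by
  refine Continuous.finset_sup'_apply univ_nonempty fun w _ => ?_
  exact (Real.continuous_exp.comp (continuous_logScale K w)).mul continuous_const

theorem scaledNorm_nonneg (t : logSpace K) (x : mixedSpace K) : 0 ≤ scaledNorm K t x := by
  obtain ⟨w⟩ : Nonempty (InfinitePlace K) := inferInstance
  exact le_trans (mul_nonneg (Real.exp_nonneg _) (normAtPlace_nonneg w x))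
    (Finset.le_sup' (fun w => Real.exp (logScale K t w) * normAtPlace w x) (mem_univ w))

theorem exp_neg_mul_norm_le {t : logSpace K} {B : ℝ} (hB : ∀ w, |logScale K t w| ≤ B)
    (x : mixedSpace K) : Real.exp (-B) * ‖x‖ ≤ scaledNorm K t x := by
  rw [norm_eq_sup'_normAtPlace]
  obtain ⟨w, -, hw⟩ := Finset.exists_mem_eq_sup' univ_nonempty (fun w => normAtPlace w x)
  rw [hw]
  refine le_trans ?_
    (Finset.le_sup' (fun w => Real.exp (logScale K t w) * normAtPlace w x) (mem_univ w))
  exact mul_le_mul_of_nonneg_right (Real.exp_le_exp.mpr (by linarith [(abs_le.1 (hB w)).1]))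
    (normAtPlace_nonneg _ _)

theorem scaledNorm_sub_le {t : logSpace K} {B : ℝ} (hB : ∀ w, |logScale K t w| ≤ B)
    (x y : mixedSpace K) : scaledNorm K t x - scaledNorm K t y ≤ Real.exp B * ‖x - y‖ := by
  rw [sub_le_iff_le_add]
  refine Finset.sup'_le _ _ fun w _ => ?_
  have h1 : normAtPlace w x ≤ normAtPlace w (x - y) + normAtPlace w y := by
    simpa using normAtPlace_add_le w (x - y) y
  have h2 : normAtPlace w (x - y) ≤ ‖x - y‖ := by
    rw [norm_eq_sup'_normAtPlace]
    exact Finset.le_sup' (fun w => normAtPlace w (x - y)) (mem_univ w)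
  calc Real.exp (logScale K t w) * normAtPlace w x
      ≤ Real.exp (logScale K t w) * normAtPlace w (x - y) +
          Real.exp (logScale K t w) * normAtPlace w y := by
        rw [← mul_add]; exact mul_le_mul_of_nonneg_left h1 (Real.exp_nonneg _)
    _ ≤ Real.exp B * ‖x - y‖ + scaledNorm K t y := by
        refine add_le_add (mul_le_mul (Real.exp_le_exp.mpr (abs_le.1 (hB w)).2) h2
          (normAtPlace_nonneg _ _) (Real.exp_nonneg _)) ?_
        exact Finset.le_sup' (fun w => Real.exp (logScale K t w) * normAtPlace w y) (mem_univ w)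

theorem abs_scaledNorm_sub_le {t : logSpace K} {B : ℝ} (hB : ∀ w, |logScale K t w| ≤ B)
    (x y : mixedSpace K) : |scaledNorm K t x - scaledNorm K t y| ≤ Real.exp B * ‖x - y‖ := by
  rw [abs_sub_le_iff]
  refine ⟨scaledNorm_sub_le K hB x y, ?_⟩
  rw [norm_sub_rev]
  exact scaledNorm_sub_le K hB y x

/-- The largest scaling factor. -/
def maxScale (t : logSpace K) : ℝ :=
  univ.sup' univ_nonempty fun w => Real.exp (logScale K t w)

theorem one_le_maxScale (t : logSpace K) : 1 ≤ maxScale K t := by
  obtain ⟨w, hw⟩ := exists_logScale_nonneg K t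
  exact (Real.one_le_exp hw).trans
    (Finset.le_sup' (fun w => Real.exp (logScale K t w)) (mem_univ w))

theorem continuous_maxScale : Continuous (maxScale K) :=
  Continuous.finset_sup'_apply univ_nonempty fun w _ =>
    Real.continuous_exp.comp (continuous_logScale K w)

/-- The weight `maxScale ^ (-n s)`. -/
def scaleWeight (s : ℝ) (t : logSpace K) : ℝ≥0∞ :=
  ENNReal.ofReal (maxScale K t ^ (-((finrank ℚ K : ℝ) * s)))

theorem continuous_scaleWeight (s : ℝ) : Continuous (scaleWeight K s) := by
  refine ENNReal.continuous_ofReal.comp ?_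
  exact (continuous_maxScale K).rpow_const
    fun t => Or.inl (one_pos.trans_le (one_le_maxScale K t)).ne'

/-- The integral of the weight over the log space. -/
def scaleConst (s : ℝ) : ℝ≥0∞ := ∫⁻ t : logSpace K, scaleWeight K s t

theorem scaleConst_anti {s s' : ℝ} (h : s ≤ s') : scaleConst K s' ≤ scaleConst K s := by
  refine lintegral_mono fun t => ENNReal.ofReal_le_ofReal ?_
  exact Real.rpow_le_rpow_of_exponent_le (one_le_maxScale K t)
    (by nlinarith [(Nat.cast_nonneg (finrank ℚ K) : (0 : ℝ) ≤ _)])

theorem scaleConst_ne_zero (s : ℝ) : scaleConst K s ≠ 0 := by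
  rw [scaleConst, ne_eq, lintegral_eq_zero_iff (continuous_scaleWeight K s).measurable]
  intro h
  have hpos : ∀ t, scaleWeight K s t ≠ 0 := fun t => by
    rw [scaleWeight, ENNReal.ofReal_ne_zero_iff]
    exact Real.rpow_pos_of_pos (one_pos.trans_le (one_le_maxScale K t)) _
  have h2 : (volume : Measure (logSpace K)) {t | ¬ scaleWeight K s t = 0} = 0 := h
  rw [show {t | ¬ scaleWeight K s t = 0} = Set.univ from Set.eq_univ_of_forall hpos] at h2
  exact (Measure.measure_univ_ne_zero.mpr (NeZero.ne volume)) h2

/-- The normalised logarithmic coordinates of a nonzero element. -/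
def logCoord (x : K) : logSpace K :=
  fun v => mult v.1 * (Real.log (v.1 x) - Real.log |(Algebra.norm ℚ x : ℝ)| / finrank ℚ K)

theorem logScale_logCoord {x : K} (hx : x ≠ 0) (w : InfinitePlace K) :
    logScale K (logCoord K x) w =
      Real.log (w x) - Real.log |(Algebra.norm ℚ x : ℝ)| / finrank ℚ K := by
  classical
  set L := Real.log |(Algebra.norm ℚ x : ℝ)|
  set f : InfinitePlace K → ℝ := fun w => mult w * (Real.log (w x) - L / finrank ℚ K)
  have hf : ∑ w, f w = 0 := by
    simp only [f, mul_sub, Finset.sum_sub_distrib, ← Finset.sum_mul]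
    rw [← Nat.cast_sum, sum_mult_eq,
      mul_div_cancel₀ _ (Nat.cast_ne_zero.mpr finrank_pos.ne'), sub_eq_zero]
    simp only [← Real.log_pow, L]
    rw [← Real.log_prod (fun w _ => pow_ne_zero _ (by simpa using hx)), prod_eq_abs_norm,
      Rat.cast_abs]
  rw [Fintype.sum_eq_add_sum_subtype_ne _ w₀] at hf
  unfold logScale
  rw [div_eq_iff mult_coe_ne_zero, mul_comm]
  split_ifs with h
  · subst h
    show - ∑ v : {w : InfinitePlace K // w ≠ w₀}, f v.1 = f w₀
    linarith
  · rfl

theorem logCoord_units_mul (ε : (𝓞 K)ˣ) {x : K} (hx : x ≠ 0) :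
    logCoord K ((ε : K) * x) = logCoord K x + logEmbedding K (Additive.ofMul ε) := by
  funext v
  have hn : |(Algebra.norm ℚ ((ε : K) * x) : ℝ)| = |(Algebra.norm ℚ x : ℝ)| := by
    rw [map_mul, Rat.cast_mul, abs_mul]
    have h := Units.norm (K := K) ε
    rw [← Rat.cast_abs, h, Rat.cast_one, one_mul]
  simp only [logCoord, Pi.add_apply, logEmbedding_component]
  rw [hn, map_mul]
  rw [Real.log_mul (Units.pos_at_place ε v.1).ne' (by simpa using hx)]
  ring

theorem scaledNorm_mixedEmbedding {x : K} (hx : x ≠ 0) (t : logSpace K) :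
    scaledNorm K t (mixedEmbedding K x) =
      |(Algebra.norm ℚ x : ℝ)| ^ ((finrank ℚ K : ℝ)⁻¹) * maxScale K (t + logCoord K x) := by
  rw [scaledNorm, maxScale, Finset.mul₀_sup' (Real.rpow_nonneg (abs_nonneg _) _)]
  congr 1
  funext w
  have hw : 0 < w x := InfinitePlace.pos_iff.mpr hx
  have hn : (0 : ℝ) < |(Algebra.norm ℚ x : ℝ)| := by
    simp [Algebra.norm_ne_zero_iff.mpr hx]
  rw [normAtPlace_apply, logScale_add, logScale_logCoord K hx, Real.rpow_def_of_pos hn,
    ← Real.exp_add]
  conv_lhs => rw [← Real.exp_log hw, ← Real.exp_add]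
  congr 1
  ring

/-- The basic identity: the term `scaledNorm ^ (-n s)` is `|N x|^(-s)` times a translate of the
weight. -/
theorem ofReal_scaledNorm_rpow {x : K} (hx : x ≠ 0) (t : logSpace K) (s : ℝ) :
    ENNReal.ofReal (scaledNorm K t (mixedEmbedding K x) ^ (-((finrank ℚ K : ℝ) * s))) =
      ENNReal.ofReal (|(Algebra.norm ℚ x : ℝ)| ^ (-s)) *
        scaleWeight K s (t + logCoord K x) := by
  have hn : (0 : ℝ) ≤ |(Algebra.norm ℚ x : ℝ)| := abs_nonneg _
  rw [scaledNorm_mixedEmbedding K hx, scaleWeight,
    Real.mul_rpow (Real.rpow_nonneg hn _) (zero_le_one.trans (one_le_maxScale K _)),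
    ← Real.rpow_mul hn, ENNReal.ofReal_mul (Real.rpow_nonneg hn _)]
  congr 3
  rw [mul_neg, ← mul_assoc, inv_mul_cancel₀ (Nat.cast_ne_zero.mpr finrank_pos.ne'), one_mul]

/-- A bounded fundamental domain for the unit lattice. -/
def unitDomain : Set (logSpace K) :=
  ZSpan.fundamentalDomain ((basisUnitLattice K).ofZLatticeBasis ℝ (unitLattice K))

theorem measurableSet_unitDomain : MeasurableSet (unitDomain K) :=
  ZSpan.fundamentalDomain_measurableSet _

theorem isBounded_unitDomain : Bornology.IsBounded (unitDomain K) :=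
  ZSpan.fundamentalDomain_isBounded _

theorem tsum_units_setLIntegral (s : ℝ) {x : K} (hx : x ≠ 0) :
    ∑' ε : (𝓞 K)ˣ, ∫⁻ t in unitDomain K, scaleWeight K s (t + logCoord K ((ε : K) * x)) =
      torsionOrder K * scaleConst K s := by
  classical
  set G : logSpace K → ℝ≥0∞ := fun t => scaleWeight K s (t + logCoord K x)
  have hfd : IsAddFundamentalDomain (unitLattice K).toAddSubgroup (unitDomain K)
      (volume : Measure (logSpace K)) :=
    ZLattice.isAddFundamentalDomain (basisUnitLattice K) volume
  have : Countable (unitLattice K).toAddSubgroup := inferInstanceAs (Countable (unitLattice K))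
  let ℓ : Additive (𝓞 K)ˣ →+ (unitLattice K).toAddSubgroup :=
    (logEmbedding K).codRestrict _ fun y => Submodule.mem_map_of_mem trivial
  have hℓ : Function.Surjective ℓ := by
    rintro ⟨_, y, -, rfl⟩
    exact ⟨y, rfl⟩
  have hker : Nat.card ℓ.ker = torsionOrder K := by
    rw [torsionOrder]
    refine Nat.card_congr (Equiv.subtypeEquiv Additive.toMul fun y => ?_)
    rw [← logEmbedding_eq_zero_iff, AddMonoidHom.mem_ker]
    exact Subtype.ext_iff
  let e : Additive (𝓞 K)ˣ ≃ (unitLattice K).toAddSubgroup × ℓ.ker :=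
    (AddSubgroup.addGroupEquivQuotientProdAddSubgroup).trans
      (Equiv.prodCongr (QuotientAddGroup.quotientKerEquivOfSurjective ℓ hℓ).toEquiv (Equiv.refl _))
  have he : ∀ y, (e y).1 = ℓ y := fun y => rfl
  calc ∑' ε : (𝓞 K)ˣ, ∫⁻ t in unitDomain K, scaleWeight K s (t + logCoord K ((ε : K) * x))
      = ∑' y : Additive (𝓞 K)ˣ, ∫⁻ t in unitDomain K, G (ℓ y +ᵥ t) := by
        rw [← Additive.toMul.tsum_eq]
        refine tsum_congr fun y => lintegral_congr fun t => ?_
        rw [logCoord_units_mul K _ hx]
        simp only [G, AddSubgroup.vadd_def, vadd_eq_add]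
        congr 1
        show t + (logCoord K x + logEmbedding K y) = _
        rw [show ((ℓ y : (unitLattice K).toAddSubgroup) : logSpace K) = logEmbedding K y from rfl]
        abel
    _ = ∑' z : (unitLattice K).toAddSubgroup × ℓ.ker, ∫⁻ t in unitDomain K, G (z.1 +ᵥ t) := by
        rw [← e.tsum_eq]
        simp only [he]
    _ = ∑' z : (unitLattice K).toAddSubgroup, torsionOrder K *
          ∫⁻ t in unitDomain K, G (z +ᵥ t) := by
        rw [ENNReal.tsum_prod']
        refine tsum_congr fun z => ?_
        dsimp only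
        rw [ENNReal.tsum_const, ← hker]
        have : Finite ℓ.ker :=
          Nat.finite_of_card_ne_zero (by rw [hker]; exact (torsionOrder_pos K).ne')
        rw [ENat.card_eq_coe_natCard, ENat.toENNReal_coe]
    _ = torsionOrder K * scaleConst K s := by
        rw [ENNReal.tsum_mul_left, ← hfd.lintegral_eq_tsum'']
        congr 1
        exact lintegral_add_right_eq_self (scaleWeight K s) (logCoord K x)

end FLTA.Herbrand
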