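/-
The partial zeta functions of the ideal classes of a number field differ by bounded amounts
as `s → 1+`.
-/
import Fermat.Agent.Herbrand.EpsteinSum
import Fermat.Agent.Herbrand.LogScale

set_option autoImplicit false

noncomputable section

open NumberField NumberField.Units NumberField.mixedEmbedding MeasureTheory Module Filter Topology
  Ideal
open scoped ENNReal Classical nonZeroDivisors

namespace FLTA.Herbrand

variable (K : Type*) [Field K] [NumberField K]

theorem countable_ringOfIntegers : Countable (𝓞 K) :=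
  (Module.Free.chooseBasis ℤ (𝓞 K)).equivFun.toEquiv.countable_iff.mpr inferInstance

/-- The zeta function of an ideal class, as an extended nonnegative real. -/
def classZeta (c : ClassGroup (𝓞 K)) (s : ℝ) : ℝ≥0∞ :=
  ∑' I : {I : (Ideal (𝓞 K))⁰ // ClassGroup.mk0 I = c},
    ENNReal.ofReal ((absNorm (I.1 : Ideal (𝓞 K)) : ℝ) ^ (-s))

/-- The weight of an algebraic integer. -/
def latticeTerm (s : ℝ) (t : dirichletUnitTheorem.logSpace K) (a : 𝓞 K) : ℝ :=
  scaledNorm K t (mixedEmbedding K (a : K)) ^ (-((finrank ℚ K : ℝ) * s))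

/-- The integral over the unit domain of the sum of the weights over an ideal. -/
def idealIntegral (J : (Ideal (𝓞 K))⁰) (s : ℝ) : ℝ≥0∞ :=
  ∫⁻ t in unitDomain K, ∑' a : (J : Ideal (𝓞 K)), ENNReal.ofReal (latticeTerm K s t (a : 𝓞 K))

theorem latticeTerm_zero {s : ℝ} (hs : 0 < s) (t : dirichletUnitTheorem.logSpace K) :
    latticeTerm K s t 0 = 0 := by
  simp [latticeTerm, scaledNorm_zero, Real.zero_rpow, finrank_pos.ne', hs.ne']

theorem measurable_latticeTerm (s : ℝ) (a : 𝓞 K) :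
    Measurable fun t : dirichletUnitTheorem.logSpace K => ENNReal.ofReal (latticeTerm K s t a) :=
  ENNReal.measurable_ofReal.comp
    ((continuous_scaledNorm K (mixedEmbedding K (a : K))).measurable.pow_const _)

theorem abs_norm_int_cast (a : 𝓞 K) :
    |(Algebra.norm ℚ (a : K) : ℝ)| = (absNorm (span {a}) : ℝ) := by
  rw [absNorm_span_singleton, Nat.cast_natAbs, ← Algebra.coe_norm_int]
  push_cast
  rfl

theorem setLIntegral_latticeTerm (s : ℝ) {a : 𝓞 K} (ha : a ≠ 0) :
    ∫⁻ t in unitDomain K, ENNReal.ofReal (latticeTerm K s t a) =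
      ENNReal.ofReal ((absNorm (span {a}) : ℝ) ^ (-s)) *
        ∫⁻ t in unitDomain K, scaleWeight K s (t + logCoord K (a : K)) := by
  have ha' : (a : K) ≠ 0 := by simpa using ha
  simp only [latticeTerm, ofReal_scaledNorm_rpow K ha', abs_norm_int_cast]
  exact lintegral_const_mul _ ((continuous_scaleWeight K s).comp
    (continuous_id.add continuous_const)).measurable

variable {K} in
/-- A generator of the principal ideal `I * J`, for `I` in the class inverse to that of `J`. -/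
theorem exists_generator (J : (Ideal (𝓞 K))⁰)
    (I : {I : (Ideal (𝓞 K))⁰ // ClassGroup.mk0 I = (ClassGroup.mk0 J)⁻¹}) :
    ∃ g : 𝓞 K, g ≠ 0 ∧ g ∈ (J : Ideal (𝓞 K)) ∧
      span {g} = (I.1 : Ideal (𝓞 K)) * (J : Ideal (𝓞 K)) := by
  have h1 : ((I.1 * J : (Ideal (𝓞 K))⁰) : Ideal (𝓞 K)).IsPrincipal := by
    rw [← ClassGroup.mk0_eq_one_iff (I.1 * J).2, Subtype.coe_eta, map_mul, I.2, inv_mul_cancel]
  obtain ⟨g, hg⟩ := h1.principal
  rw [Ideal.submodule_span_eq, Submonoid.coe_mul] at hg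
  refine ⟨g, ?_, ?_, hg.symm⟩
  · rintro rfl
    exact mul_ne_zero (nonZeroDivisors.coe_ne_zero I.1) (nonZeroDivisors.coe_ne_zero J)
      (hg.trans Ideal.span_singleton_zero)
  · have h2 : g ∈ (I.1 : Ideal (𝓞 K)) * (J : Ideal (𝓞 K)) := by
      rw [hg]; exact Submodule.mem_span_singleton_self g
    exact (Ideal.mul_le_inf h2).2

/-- Unfolding: the integral attached to `J` is a multiple of the zeta function of the inverse
class. -/
theorem idealIntegral_eq (J : (Ideal (𝓞 K))⁰) {s : ℝ} (hs : 0 < s) :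
    idealIntegral K J s = ENNReal.ofReal ((absNorm (J : Ideal (𝓞 K)) : ℝ) ^ (-s)) *
      (torsionOrder K * scaleConst K s * classZeta K (ClassGroup.mk0 J)⁻¹ s) := by
  choose g hg0 hgJ hg using exists_generator J
  have := countable_ringOfIntegers K
  let e : {I : (Ideal (𝓞 K))⁰ // ClassGroup.mk0 I = (ClassGroup.mk0 J)⁻¹} × (𝓞 K)ˣ → ↥(J : Ideal (𝓞 K)) := fun z => ⟨z.2 * g z.1, Ideal.mul_mem_left _ _ (hgJ _)⟩
  have he : Function.Injective e := by
    rintro ⟨I, ε⟩ ⟨I', ε'⟩ h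
    have h' : (ε : 𝓞 K) * g I = ε' * g I' := congrArg Subtype.val h
    have hI : I = I' := by
      refine Subtype.ext (Subtype.ext ?_)
      have h2 : span {(ε : 𝓞 K) * g I} = span {(ε' : 𝓞 K) * g I'} := by rw [h']
      rw [Ideal.span_singleton_mul_left_unit ε.isUnit, Ideal.span_singleton_mul_left_unit ε'.isUnit,
        hg, hg] at h2
      exact mul_right_cancel₀ (nonZeroDivisors.coe_ne_zero J) h2
    subst hI
    rw [Units.ext (mul_right_cancel₀ (hg0 I) h')]
  have hsupp : Function.support (fun a : (J : Ideal (𝓞 K)) =>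
      ∫⁻ t in unitDomain K, ENNReal.ofReal (latticeTerm K s t (a : 𝓞 K))) ⊆ Set.range e := by
    intro a ha
    have ha0 : (a : 𝓞 K) ≠ 0 := by
      intro h
      simp [Function.mem_support, h, latticeTerm_zero K hs] at ha
    obtain ⟨I, hI⟩ := Ideal.dvd_iff_le.mpr ((span_singleton_le_iff_mem _).mpr a.2)
    have hI0 : I ≠ 0 := by
      rintro rfl
      rw [mul_zero] at hI
      exact ha0 (Ideal.span_singleton_eq_bot.mp hI)
    let I' : (Ideal (𝓞 K))⁰ := ⟨I, mem_nonZeroDivisors_of_ne_zero hI0⟩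
    have hcl : ClassGroup.mk0 I' = (ClassGroup.mk0 J)⁻¹ := by
      rw [eq_inv_iff_mul_eq_one, ← map_mul]
      refine (ClassGroup.mk0_eq_one_iff (I' * J).2).mpr ⟨(a : 𝓞 K), ?_⟩
      rw [Ideal.submodule_span_eq, Submonoid.coe_mul, hI, mul_comm]
    obtain ⟨u, hu⟩ : Associated (g ⟨I', hcl⟩) (a : 𝓞 K) := by
      rw [← span_singleton_eq_span_singleton, hg, hI, mul_comm]
    exact ⟨(⟨I', hcl⟩, u), Subtype.ext (by rw [← hu, mul_comm])⟩
  rw [idealIntegral, lintegral_tsum fun a => (measurable_latticeTerm K s _).aemeasurable,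
    ← he.tsum_eq hsupp, ENNReal.tsum_prod']
  rw [classZeta, ← ENNReal.tsum_mul_left, ← ENNReal.tsum_mul_left]
  refine tsum_congr fun I => ?_
  have hterm : ∀ ε : (𝓞 K)ˣ,
      (∫⁻ t in unitDomain K, ENNReal.ofReal (latticeTerm K s t ((e (I, ε) : (J : Ideal (𝓞 K))) :
        𝓞 K))) =
      ENNReal.ofReal ((absNorm (span {g I}) : ℝ) ^ (-s)) *
        ∫⁻ t in unitDomain K, scaleWeight K s (t + logCoord K ((ε : K) * (g I : K))) := by
    intro ε
    show (∫⁻ t in unitDomain K, ENNReal.ofReal (latticeTerm K s t ((ε : 𝓞 K) * g I))) = _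
    rw [setLIntegral_latticeTerm K s (mul_ne_zero ε.ne_zero (hg0 I)),
      Ideal.span_singleton_mul_left_unit ε.isUnit]
    simp only [map_mul]
  rw [tsum_congr hterm, ENNReal.tsum_mul_left,
    tsum_units_setLIntegral K s (by simpa using hg0 I), hg, map_mul, Nat.cast_mul,
    Real.mul_rpow (Nat.cast_nonneg _) (Nat.cast_nonneg _), ENNReal.ofReal_mul (by positivity)]
  ring

theorem exists_shift_bound (J : (Ideal (𝓞 K))⁰) (v : 𝓞 K) :
    ∃ e : ↥(J : Ideal (𝓞 K)) → ℝ≥0∞, ∑' a, e a ≠ ∞ ∧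
      ∀ t ∈ unitDomain K, ∀ s : ℝ, 1 < s → s ≤ 2 → ∀ a : (J : Ideal (𝓞 K)),
        ENNReal.ofReal (latticeTerm K s t ((a : 𝓞 K) + v)) ≤
          ENNReal.ofReal (latticeTerm K s t (a : 𝓞 K)) + e a ∧
        ENNReal.ofReal (latticeTerm K s t (a : 𝓞 K)) ≤
          ENNReal.ofReal (latticeTerm K s t ((a : 𝓞 K) + v)) + e a := by
  obtain ⟨B, hB0, hB⟩ := exists_abs_logScale_le K (isBounded_unitDomain K)
  obtain ⟨e, he, hbd⟩ := exists_shift_error (idealLattice K (FractionalIdeal.mk0 K J))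
    (mixedEmbedding K (v : K)) (Real.exp_pos (-B)) (Real.exp B) ((finrank ℚ K : ℝ) * 2)
  let j : ↥(J : Ideal (𝓞 K)) → idealLattice K (FractionalIdeal.mk0 K J) := fun a =>
    ⟨mixedEmbedding K ((a : 𝓞 K) : K), (mem_idealLattice K _).mpr
      ⟨((a : 𝓞 K) : K), by
        rw [SetLike.mem_coe, FractionalIdeal.coe_mk0, FractionalIdeal.mem_coeIdeal]
        exact ⟨_, a.2, rfl⟩, rfl⟩⟩
  have hj : Function.Injective j := fun a b h => Subtype.ext
    (RingOfIntegers.coe_injective ((mixedEmbedding_injective K) (congrArg Subtype.val h)))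
  have he' : Summable fun a => |e (j a)| := (he.abs.comp_injective hj)
  refine ⟨fun a => ENNReal.ofReal |e (j a)|, ?_, ?_⟩
  · rw [← ENNReal.ofReal_tsum_of_nonneg (fun _ => abs_nonneg _) he']
    exact ENNReal.ofReal_ne_top
  intro t ht s hs1 hs2 a
  have h := hbd (scaledNorm K t) (scaledNorm_zero K t)
    (fun x => exp_neg_mul_norm_le K (hB t ht) x)
    (fun x y => abs_scaledNorm_sub_le K (hB t ht) x y) ((finrank ℚ K : ℝ) * s)
    (by
      rw [mixedEmbedding.finrank]
      exact lt_mul_of_one_lt_right (Nat.cast_pos.mpr finrank_pos) hs1)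
    (mul_le_mul_of_nonneg_left hs2 (Nat.cast_nonneg _)) (j a)
  have h' : |latticeTerm K s t ((a : 𝓞 K) + v) - latticeTerm K s t (a : 𝓞 K)| ≤ |e (j a)| := by
    refine le_trans ?_ (h.trans (le_abs_self _))
    simp [latticeTerm, j, map_add]
  rw [abs_le] at h'
  constructor <;>
  · refine le_trans (ENNReal.ofReal_le_ofReal ?_) ENNReal.ofReal_add_le
    linarith

/-- Comparison of the ideal `J` with the ring of integers, by summing over cosets. -/
theorem exists_idealIntegral_compare (J : (Ideal (𝓞 K))⁰) :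
    ∃ C : ℝ≥0∞, C ≠ ∞ ∧ ∀ s : ℝ, 1 < s → s ≤ 2 →
      idealIntegral K 1 s ≤ absNorm (J : Ideal (𝓞 K)) * idealIntegral K J s + C ∧
      absNorm (J : Ideal (𝓞 K)) * idealIntegral K J s ≤ idealIntegral K 1 s + C := by
  have := countable_ringOfIntegers K
  set H : AddSubgroup (𝓞 K) := (J : Ideal (𝓞 K)).toAddSubgroup
  have hidx : H.index = absNorm (J : Ideal (𝓞 K)) := (absNorm_eq_index _).symm
  have hne : H.index ≠ 0 := by rw [hidx]; exact absNorm_ne_zero_of_nonZeroDivisors J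
  have : H.FiniteIndex := ⟨hne⟩
  let _ : Fintype (𝓞 K ⧸ H) := Fintype.ofFinite _
  have hcard : (Fintype.card (𝓞 K ⧸ H) : ℝ≥0∞) = absNorm (J : Ideal (𝓞 K)) := by
    rw [← hidx, AddSubgroup.index, Nat.card_eq_fintype_card]
  choose e he hbd using fun q : 𝓞 K ⧸ H => exists_shift_bound K J (Quotient.out q)
  have hvol : (volume : Measure (dirichletUnitTheorem.logSpace K)) (unitDomain K) ≠ ∞ :=
    (isBounded_unitDomain K).measure_lt_top.ne
  refine ⟨(∑ q : 𝓞 K ⧸ H, ∑' a, e q a) * volume (unitDomain K),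
    ENNReal.mul_ne_top (ENNReal.sum_ne_top.mpr fun q _ => he q) hvol, fun s hs1 hs2 => ?_⟩
  let E : (↥(J : Ideal (𝓞 K)) × (𝓞 K ⧸ H)) → 𝓞 K := fun z => (z.1 : 𝓞 K) + Quotient.out z.2
  have hE : Function.Bijective E := by
    refine ⟨?_, fun x => ?_⟩
    · rintro ⟨a, q⟩ ⟨a', q'⟩ h
      have hq : q = q' := by
        rw [← Quotient.out_eq q, ← Quotient.out_eq q']
        refine QuotientAddGroup.eq.mpr ?_
        have : -(Quotient.out q : 𝓞 K) + Quotient.out q' = (a : 𝓞 K) - a' := by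
          simp only [E] at h
          linear_combination -h
        rw [this]
        exact (J : Ideal (𝓞 K)).sub_mem a.2 a'.2
      subst hq
      simp only [E, add_left_inj] at h
      rw [Subtype.ext h]
    · have hx : x - Quotient.out (QuotientAddGroup.mk x : 𝓞 K ⧸ H) ∈ (J : Ideal (𝓞 K)) := by
        have h1 : (QuotientAddGroup.mk (Quotient.out (QuotientAddGroup.mk x : 𝓞 K ⧸ H)) :
            𝓞 K ⧸ H) = QuotientAddGroup.mk x := QuotientAddGroup.out_eq' _
        have h2 := QuotientAddGroup.eq.mp h1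
        rw [sub_eq_neg_add]
        exact h2
      exact ⟨(⟨_, hx⟩, QuotientAddGroup.mk x), by simp [E]⟩
  have hone : idealIntegral K 1 s = ∫⁻ t in unitDomain K,
      ∑ q : 𝓞 K ⧸ H, ∑' a : (J : Ideal (𝓞 K)),
        ENNReal.ofReal (latticeTerm K s t ((a : 𝓞 K) + Quotient.out q)) := by
    refine lintegral_congr fun t => ?_
    let e₁ : ((1 : (Ideal (𝓞 K))⁰) : Ideal (𝓞 K)) ≃ 𝓞 K :=
      Equiv.subtypeUnivEquiv fun x => by simp
    rw [← e₁.symm.tsum_eq, ← (Equiv.ofBijective E hE).tsum_eq, ENNReal.tsum_prod',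
      ENNReal.tsum_comm, tsum_fintype]
    rfl
  have hsum : ∀ t, ∑ q : 𝓞 K ⧸ H, ∑' a : (J : Ideal (𝓞 K)),
      ENNReal.ofReal (latticeTerm K s t (a : 𝓞 K)) = absNorm (J : Ideal (𝓞 K)) *
        ∑' a : (J : Ideal (𝓞 K)), ENNReal.ofReal (latticeTerm K s t (a : 𝓞 K)) := fun t => by
    rw [Finset.sum_const, Finset.card_univ, nsmul_eq_mul, hcard]
  have hJint : (absNorm (J : Ideal (𝓞 K)) : ℝ≥0∞) * idealIntegral K J s = ∫⁻ t in unitDomain K,
      ∑ q : 𝓞 K ⧸ H, ∑' a : (J : Ideal (𝓞 K)),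
        ENNReal.ofReal (latticeTerm K s t (a : 𝓞 K)) := by
    rw [lintegral_congr hsum, lintegral_const_mul]
    · rfl
    · exact Measurable.tsum fun a => measurable_latticeTerm K s _
  have hC : (∑ q : 𝓞 K ⧸ H, ∑' a, e q a) * volume (unitDomain K) =
      ∫⁻ _ in unitDomain K, ∑ q : 𝓞 K ⧸ H, ∑' a, e q a := (setLIntegral_const _ _).symm
  rw [hone, hJint, hC, ← lintegral_add_right _ measurable_const,
    ← lintegral_add_right _ measurable_const]
  constructor <;>
  · refine setLIntegral_mono' (measurableSet_unitDomain K) fun t ht => ?_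
    simp only [← Finset.sum_add_distrib, ← ENNReal.tsum_add]
    refine Finset.sum_le_sum fun q _ => ENNReal.tsum_le_tsum fun a => ?_
    first | exact (hbd q t ht s hs1 hs2 a).1 | exact (hbd q t ht s hs1 hs2 a).2

theorem idealIntegral_ne_top (J : (Ideal (𝓞 K))⁰) {s : ℝ} (hs : 1 < s) :
    idealIntegral K J s ≠ ∞ := by
  obtain ⟨B, hB0, hB⟩ := exists_abs_logScale_le K (isBounded_unitDomain K)
  set L := idealLattice K (FractionalIdeal.mk0 K J)
  set r : ℝ := (finrank ℚ K : ℝ) * s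
  have hr : (finrank ℚ K : ℝ) < r := lt_mul_of_one_lt_right (Nat.cast_pos.mpr finrank_pos) hs
  have hsum : Summable fun x : L => Real.exp (-B) ^ (-r) * ‖x‖ ^ (-r) :=
    (ZLattice.summable_norm_rpow L (-r)
      (by rw [ZLattice.rank ℝ L, mixedEmbedding.finrank]; linarith)).mul_left _
  let j : ↥(J : Ideal (𝓞 K)) → L := fun a =>
    ⟨mixedEmbedding K ((a : 𝓞 K) : K), (mem_idealLattice K _).mpr
      ⟨((a : 𝓞 K) : K), by
        rw [SetLike.mem_coe, FractionalIdeal.coe_mk0, FractionalIdeal.mem_coeIdeal]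
        exact ⟨_, a.2, rfl⟩, rfl⟩⟩
  have hj : Function.Injective j := fun a b h => Subtype.ext
    (RingOfIntegers.coe_injective ((mixedEmbedding_injective K) (congrArg Subtype.val h)))
  have hsum' : Summable fun a => Real.exp (-B) ^ (-r) * ‖j a‖ ^ (-r) := hsum.comp_injective hj
  have hbd : idealIntegral K J s ≤ ∫⁻ _ in unitDomain K,
      ENNReal.ofReal (∑' a : (J : Ideal (𝓞 K)), Real.exp (-B) ^ (-r) * ‖j a‖ ^ (-r)) := by
    refine setLIntegral_mono' (measurableSet_unitDomain K) fun t ht => ?_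
    rw [ENNReal.ofReal_tsum_of_nonneg (fun a => by positivity) hsum']
    refine ENNReal.tsum_le_tsum fun a => ENNReal.ofReal_le_ofReal ?_
    rcases eq_or_ne (a : 𝓞 K) 0 with h0 | h0
    · rw [h0, latticeTerm_zero K (by linarith)]
      positivity
    · rw [latticeTerm, ← Real.mul_rpow (Real.exp_nonneg _) (norm_nonneg _)]
      refine Real.rpow_le_rpow_of_nonpos ?_ (exp_neg_mul_norm_le K (hB t ht) _) (by linarith)
      have : mixedEmbedding K ((a : 𝓞 K) : K) ≠ 0 := by simpa using h0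
      exact mul_pos (Real.exp_pos _) (norm_pos_iff.mpr (fun h => this (congrArg Subtype.val h)))
  refine ne_top_of_le_ne_top ?_ hbd
  rw [setLIntegral_const]
  exact ENNReal.mul_ne_top ENNReal.ofReal_ne_top (isBounded_unitDomain K).measure_lt_top.ne

theorem classZeta_ne_zero (c : ClassGroup (𝓞 K)) (s : ℝ) : classZeta K c s ≠ 0 := by
  obtain ⟨I, hI⟩ := ClassGroup.mk0_surjective c
  rw [classZeta, ne_eq, ENNReal.tsum_eq_zero]
  intro h
  refine (ENNReal.ofReal_pos.mpr ?_).ne' (h ⟨I, hI⟩)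
  exact Real.rpow_pos_of_pos (Nat.cast_pos.mpr (absNorm_pos_of_nonZeroDivisors I)) _

theorem classZeta_ne_top (c : ClassGroup (𝓞 K)) {s : ℝ} (hs : 1 < s) :
    scaleConst K s ≠ ∞ ∧ classZeta K c s ≠ ∞ := by
  obtain ⟨J, hJ⟩ := ClassGroup.mk0_surjective c⁻¹
  have h := idealIntegral_ne_top K J hs
  rw [idealIntegral_eq K J (by linarith), hJ, inv_inv] at h
  have hpos : ENNReal.ofReal ((absNorm (J : Ideal (𝓞 K)) : ℝ) ^ (-s)) ≠ 0 :=
    (ENNReal.ofReal_pos.mpr (Real.rpow_pos_of_pos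
      (Nat.cast_pos.mpr (absNorm_pos_of_nonZeroDivisors J)) _)).ne'
  have hw : (torsionOrder K : ℝ≥0∞) ≠ 0 := by
    exact_mod_cast (torsionOrder_pos K).ne'
  refine ⟨fun h' => h ?_, fun h' => h ?_⟩
  · rw [h', ENNReal.mul_top hw, ENNReal.top_mul (classZeta_ne_zero K c s), ENNReal.mul_top hpos]
  · rw [h', ENNReal.mul_top (mul_ne_zero hw (scaleConst_ne_zero K s)), ENNReal.mul_top hpos]

/-- The real zeta function of an ideal class. -/
def classZetaR (c : ClassGroup (𝓞 K)) (s : ℝ) : ℝ :=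
  ∑' I : {I : (Ideal (𝓞 K))⁰ // ClassGroup.mk0 I = c}, (absNorm (I.1 : Ideal (𝓞 K)) : ℝ) ^ (-s)

theorem summable_class_rpow (c : ClassGroup (𝓞 K)) {s : ℝ} (hs : 1 < s) :
    Summable fun I : {I : (Ideal (𝓞 K))⁰ // ClassGroup.mk0 I = c} =>
      (absNorm (I.1 : Ideal (𝓞 K)) : ℝ) ^ (-s) := by
  refine (ENNReal.summable_toReal (classZeta_ne_top K c hs).2).congr fun I => ?_
  exact ENNReal.toReal_ofReal (by positivity)

theorem toReal_classZeta (c : ClassGroup (𝓞 K)) (s : ℝ) :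
    (classZeta K c s).toReal = classZetaR K c s := by
  rw [classZeta, ENNReal.tsum_toReal_eq fun _ => ENNReal.ofReal_ne_top]
  exact tsum_congr fun I => ENNReal.toReal_ofReal (by positivity)

/-- The main comparison: up to the factor `N J ^ (1 - s)`, the zeta function of a class differs
from that of the trivial class by a bounded amount. -/
theorem exists_classZetaR_compare (c : ClassGroup (𝓞 K)) :
    ∃ (N : ℕ) (C : ℝ), 0 < N ∧ ∀ s : ℝ, 1 < s → s ≤ 2 →
      |(N : ℝ) ^ (1 - s) * classZetaR K c s - classZetaR K 1 s| ≤ C := by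
  obtain ⟨J, hJ⟩ := ClassGroup.mk0_surjective c⁻¹
  obtain ⟨C, hC, h⟩ := exists_idealIntegral_compare K J
  set k : ℝ := (torsionOrder K * scaleConst K 2).toReal
  have hk2 : (torsionOrder K : ℝ≥0∞) * scaleConst K 2 ≠ ∞ :=
    ENNReal.mul_ne_top (ENNReal.natCast_ne_top _) (classZeta_ne_top K c one_lt_two).1
  have hk : 0 < k := ENNReal.toReal_pos
    (mul_ne_zero (by exact_mod_cast (torsionOrder_pos K).ne') (scaleConst_ne_zero K 2)) hk2
  refine ⟨absNorm (J : Ideal (𝓞 K)), C.toReal / k, absNorm_pos_of_nonZeroDivisors J,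
    fun s hs1 hs2 => ?_⟩
  obtain ⟨h1, h2⟩ := h s hs1 hs2
  set N : ℝ := (absNorm (J : Ideal (𝓞 K)) : ℝ)
  set a : ℝ := (torsionOrder K * scaleConst K s).toReal
  have ha2 : (torsionOrder K : ℝ≥0∞) * scaleConst K s ≠ ∞ :=
    ENNReal.mul_ne_top (ENNReal.natCast_ne_top _) (classZeta_ne_top K c hs1).1
  have hka : k ≤ a :=
    ENNReal.toReal_mono ha2 (mul_le_mul' le_rfl (scaleConst_anti K hs2))
  have hA : (idealIntegral K J s).toReal = N ^ (-s) * (a * classZetaR K c s) := by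
    rw [idealIntegral_eq K J (by linarith), hJ, inv_inv, ENNReal.toReal_mul, ENNReal.toReal_mul,
      ENNReal.toReal_ofReal (by positivity), toReal_classZeta]
  have hB : (idealIntegral K 1 s).toReal = a * classZetaR K 1 s := by
    rw [idealIntegral_eq K 1 (by linarith), map_one, inv_one, ENNReal.toReal_mul,
      ENNReal.toReal_mul, ENNReal.toReal_ofReal (by positivity), toReal_classZeta]
    simp [a]
  have hnJ := idealIntegral_ne_top K J hs1
  have hn1 := idealIntegral_ne_top K 1 hs1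
  have hNJ : ((absNorm (J : Ideal (𝓞 K)) : ℝ≥0∞) * idealIntegral K J s) ≠ ∞ :=
    ENNReal.mul_ne_top (ENNReal.natCast_ne_top _) hnJ
  have h1' := ENNReal.toReal_mono (ENNReal.add_ne_top.mpr ⟨hNJ, hC⟩) h1
  have h2' := ENNReal.toReal_mono (ENNReal.add_ne_top.mpr ⟨hn1, hC⟩) h2
  rw [ENNReal.toReal_add hNJ hC, ENNReal.toReal_mul, ENNReal.toReal_natCast, hA, hB] at h1'
  rw [ENNReal.toReal_add hn1 hC, ENNReal.toReal_mul, ENNReal.toReal_natCast, hA, hB] at h2'
  have hpow : N * N ^ (-s) = N ^ (1 - s) := by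
    rw [sub_eq_add_neg, Real.rpow_add (Nat.cast_pos.mpr (absNorm_pos_of_nonZeroDivisors J)),
      Real.rpow_one]
  change |N ^ (1 - s) * classZetaR K c s - classZetaR K 1 s| ≤ C.toReal / k
  set X := N ^ (1 - s) * classZetaR K c s
  have e1 : N * (N ^ (-s) * (a * classZetaR K c s)) = a * X := by
    simp only [X, ← hpow]; ring
  rw [e1] at h1' h2'
  have habs : a * |X - classZetaR K 1 s| ≤ C.toReal := by
    rw [← abs_of_pos (hk.trans_le hka), ← abs_mul, abs_le]
    constructor <;> linarith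
  rw [le_div_iff₀' hk]
  exact (mul_le_mul_of_nonneg_right hka (abs_nonneg _)).trans habs

end FLTA.Herbrand
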