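/-
Finite Euler products over prime ideals for completely multiplicative functions on ideals.
-/
import Mathlib

set_option autoImplicit false

noncomputable section

open NumberField Ideal
open scoped nonZeroDivisors Classical

namespace FLTA.Herbrand

variable (K : Type*) [Field K] [NumberField K]

/-- Nonzero prime ideals, as elements of the monoid of nonzero ideals. -/
abbrev PrimeIdx : Type _ := {P : (Ideal (𝓞 K))⁰ // Prime (P : Ideal (𝓞 K))}

/-- The ideals all whose prime factors lie in `S`. -/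
def supportedOn (S : Finset (PrimeIdx K)) : Set (Ideal (𝓞 K))⁰ :=
  {I | ∀ Q : PrimeIdx K, Q.1 ∣ I → Q ∈ S}

variable {K}

theorem norm_one_sub_le (z : ℂ) : ‖1 - z‖ ≤ Real.exp (-z.re + ‖z‖ ^ 2 / 2) := by
  have h : ‖1 - z‖ ^ 2 ≤ Real.exp (-z.re + ‖z‖ ^ 2 / 2) ^ 2 := by
    rw [← Real.exp_nat_mul, Complex.sq_norm, Complex.sq_norm, Complex.normSq_sub,
      map_one, one_mul, Complex.conj_re]
    exact le_of_eq_of_le (by ring) (Real.add_one_le_exp _)
  exact le_of_pow_le_pow_left₀ two_ne_zero (Real.exp_nonneg _) h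

theorem eq_of_prime_dvd_prime {P Q : PrimeIdx K} (h : Q.1 ∣ P.1) : Q = P :=
  Subtype.ext (Subtype.ext (associated_iff_eq.mp
    (Q.2.associated_of_dvd P.2 (nonZeroDivisors_dvd_iff_dvd_coe.mp h))))

theorem supportedOn_empty : supportedOn K ∅ = {1} := by
  ext I
  simp only [supportedOn, Finset.notMem_empty, Set.mem_ofPred_eq, Set.mem_singleton_iff, imp_false]
  refine ⟨fun h => ?_, fun h Q hQ => ?_⟩
  · refine Subtype.ext ?_
    by_contra hne
    obtain ⟨Q, hQ, hQI⟩ := WfDvdMonoid.exists_irreducible_factor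
      (fun hu => hne (isUnit_iff_eq_one.mp hu)) (nonZeroDivisors.coe_ne_zero I)
    exact h ⟨⟨Q, mem_nonZeroDivisors_of_ne_zero hQ.ne_zero⟩, hQ.prime⟩
      (nonZeroDivisors_dvd_iff_dvd_coe.mpr hQI)
  · subst h
    exact Q.2.not_dvd_one (nonZeroDivisors_dvd_iff_dvd_coe.mp hQ)

theorem hasSum_supportedOn (f : (Ideal (𝓞 K))⁰ →* ℂ) (hf : Summable fun I => ‖f I‖)
    (hlt : ∀ P : PrimeIdx K, ‖f P.1‖ < 1) (S : Finset (PrimeIdx K)) :
    HasSum (fun I : supportedOn K S => f I) (∏ P ∈ S, (1 - f P.1)⁻¹) := by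
  induction S using Finset.induction_on with
  | empty =>
    rw [Finset.prod_empty]
    let _ : Unique (supportedOn K ∅) :=
      { default := ⟨1, by rw [supportedOn_empty]; rfl⟩
        uniq := fun I => Subtype.ext (by simpa [supportedOn_empty] using I.2) }
    convert hasSum_unique (fun I : supportedOn K ∅ => f I)
    exact (map_one f).symm
  | @insert P S hP ih =>
    rw [Finset.prod_insert hP]
    let e : ℕ × supportedOn K S → supportedOn K (insert P S) := fun z =>
      ⟨P.1 ^ z.1 * z.2.1, fun Q hQ => by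
        rw [nonZeroDivisors_dvd_iff_dvd_coe, Submonoid.coe_mul, SubmonoidClass.coe_pow,
          Q.2.dvd_mul] at hQ
        rcases hQ with hQ | hQ
        · rw [Finset.mem_insert]
          exact Or.inl (eq_of_prime_dvd_prime
            (nonZeroDivisors_dvd_iff_dvd_coe.mpr (Q.2.dvd_of_dvd_pow hQ)))
        · exact Finset.mem_insert_of_mem (z.2.2 Q (nonZeroDivisors_dvd_iff_dvd_coe.mpr hQ))⟩
    have hnd : ∀ I : supportedOn K S, ¬ P.1 ∣ I.1 := fun I h => hP (I.2 P h)
    have he : Function.Bijective e := by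
      refine ⟨?_, fun I => ?_⟩
      · rintro ⟨k, I⟩ ⟨k', I'⟩ h
        have h' : P.1 ^ k * I.1 = P.1 ^ k' * I'.1 := congrArg Subtype.val h
        have key : ∀ (a b : ℕ) (A B : supportedOn K S), a ≤ b →
            P.1 ^ a * A.1 = P.1 ^ b * B.1 → a = b ∧ A = B := by
          intro a b A B hab hAB
          obtain ⟨d, rfl⟩ := Nat.exists_eq_add_of_le hab
          rw [pow_add, mul_assoc, mul_left_cancel_iff] at hAB
          rcases d with - | d
          · exact ⟨rfl, Subtype.ext (by simpa using hAB)⟩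
          · exact absurd (hAB ▸ dvd_mul_of_dvd_left (dvd_pow_self _ d.succ_ne_zero) _) (hnd A)
        rcases le_total k k' with hk | hk
        · obtain ⟨rfl, rfl⟩ := key k k' I I' hk h'
          rfl
        · obtain ⟨rfl, rfl⟩ := key k' k I' I hk h'.symm
          rfl
      · obtain ⟨n, A, hA, hIA⟩ :=
          WfDvdMonoid.max_power_factor (nonZeroDivisors.coe_ne_zero I.1) P.2.irreducible
        have hA0 : A ≠ 0 := by
          rintro rfl
          exact nonZeroDivisors.coe_ne_zero I.1 (hIA.trans (mul_zero _))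
        have hmul : P.1 ^ n * ⟨A, mem_nonZeroDivisors_of_ne_zero hA0⟩ = I.1 :=
          Subtype.ext hIA.symm
        refine ⟨(n, ⟨⟨A, mem_nonZeroDivisors_of_ne_zero hA0⟩, fun Q hQ => ?_⟩), Subtype.ext hmul⟩
        have hQI : Q.1 ∣ I.1 := hmul ▸ dvd_mul_of_dvd_right hQ _
        refine (Finset.mem_insert.mp (I.2 Q hQI)).resolve_left ?_
        rintro rfl
        exact hA (nonZeroDivisors_dvd_iff_dvd_coe.mp hQ)
    refine ((Equiv.ofBijective e he).hasSum_iff).mp ?_
    have hg := hasSum_geometric_of_norm_lt_one (hlt P)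
    have hn : Summable fun z : ℕ × supportedOn K S => ‖f P.1 ^ z.1 * f z.2.1‖ := by
      have h1 : Summable fun I : supportedOn K S => ‖f I.1‖ := hf.subtype _
      have h2 : Summable fun k : ℕ => ‖f P.1 ^ k‖ := by
        simpa only [norm_pow] using summable_geometric_of_lt_one (norm_nonneg _) (hlt P)
      simpa only [norm_mul] using h2.mul_of_nonneg h1 (fun _ => norm_nonneg _) (fun _ => norm_nonneg _)
    have := hg.mul ih hn.of_norm
    simpa [Function.comp_def, e] using this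

/-- Lower bound for the norm of a finite Euler product. -/
theorem exp_le_norm_tsum_supportedOn (f : (Ideal (𝓞 K))⁰ →* ℂ) (hf : Summable fun I => ‖f I‖)
    (hlt : ∀ P : PrimeIdx K, ‖f P.1‖ < 1) (S : Finset (PrimeIdx K)) :
    Real.exp (∑ P ∈ S, ((f P.1).re - ‖f P.1‖ ^ 2 / 2)) ≤ ‖∑' I : supportedOn K S, f I‖ := by
  rw [(hasSum_supportedOn f hf hlt S).tsum_eq, norm_prod, Real.exp_sum]
  refine Finset.prod_le_prod (fun _ _ => (Real.exp_pos _).le) fun P _ => ?_
  rw [norm_inv, show (f P.1).re - ‖f P.1‖ ^ 2 / 2 = -(-(f P.1).re + ‖f P.1‖ ^ 2 / 2) by ring,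
    Real.exp_neg]
  refine inv_anti₀ (norm_pos_iff.mpr (sub_ne_zero.mpr fun h => ?_)) (norm_one_sub_le _)
  have := hlt P
  rw [← h, norm_one] at this
  exact lt_irrefl _ this

/-- The finite Euler products approximate the full sum. -/
theorem exists_finset_norm_tsum_supportedOn_le (f : (Ideal (𝓞 K))⁰ → ℂ)
    (hf : Summable fun I => ‖f I‖) {ε : ℝ} (hε : 0 < ε) :
    ∃ S₀ : Finset (PrimeIdx K), ∀ S, S₀ ⊆ S →
      ‖∑' I : supportedOn K S, f I‖ ≤ ‖∑' I, f I‖ + ε := by
  obtain ⟨T, hT⟩ := summable_iff_vanishing.mp hf (Set.Iio ε) (Iio_mem_nhds hε)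
  have hfin : {Q : PrimeIdx K | ∃ I ∈ T, Q.1 ∣ I}.Finite := by
    have h1 : {J : (Ideal (𝓞 K))⁰ | absNorm (J : Ideal (𝓞 K)) ≤
        T.sup fun I => absNorm (I : Ideal (𝓞 K))}.Finite :=
      Ideal.finite_setOfPred_absNorm_le₀ _
    refine Set.Finite.of_finite_image (h1.subset ?_) Subtype.val_injective.injOn
    rintro _ ⟨Q, ⟨I, hI, hQI⟩, rfl⟩
    exact le_trans (Nat.le_of_dvd (absNorm_pos_of_nonZeroDivisors I)
      (_root_.map_dvd absNorm (nonZeroDivisors_dvd_iff_dvd_coe.mp hQI)))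
      (Finset.le_sup (f := fun I : (Ideal (𝓞 K))⁰ => absNorm (I : Ideal (𝓞 K))) hI)
  refine ⟨hfin.toFinset, fun S hS => ?_⟩
  have hTS : ∀ I ∈ T, I ∈ supportedOn K S := fun I hI Q hQ =>
    hS (hfin.mem_toFinset.mpr ⟨I, hI, hQ⟩)
  have hsplit := (hf.of_norm).tsum_subtype_add_tsum_subtype_compl (supportedOn K S)
  have hcompl : ‖∑' I : ↑((supportedOn K S)ᶜ : Set _), f I‖ ≤ ε := by
    refine (norm_tsum_le_tsum_norm (hf.subtype _)).trans
      ((hf.subtype _).tsum_le_of_sum_le fun u => ?_)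
    have h := hT (u.map ⟨Subtype.val, Subtype.val_injective⟩) (by
      rw [Finset.disjoint_left]
      rintro I hI hIT
      obtain ⟨⟨J, hJ⟩, -, rfl⟩ := Finset.mem_map.mp hI
      exact hJ (hTS J hIT))
    rw [Finset.sum_map] at h
    exact (Set.mem_Iio.mp h).le
  rw [← hsplit]
  refine le_trans ?_ (add_le_add le_rfl hcompl)
  simpa using norm_sub_le ((∑' I : supportedOn K S, f I) +
    ∑' I : ↑((supportedOn K S)ᶜ : Set _), f I) (∑' I : ↑((supportedOn K S)ᶜ : Set _), f I)

end FLTA.Herbrand
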