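/-
Character sums over ideal classes near `s = 1` and the resulting bound on primes in the kernel of
a class group character.
-/
import Fermat.Agent.Herbrand.ClassZeta
import Fermat.Agent.Herbrand.EulerLog
import Fermat.Agent.Density.PrimeSum

set_option autoImplicit false

noncomputable section

open NumberField Ideal Filter Topology
open scoped nonZeroDivisors Classical

namespace FLTA.Herbrand

variable (K : Type*) [Field K] [NumberField K]

/-- `N I ^ (-s)` as a function on nonzero ideals. -/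
def normRpow (s : ℝ) (I : (Ideal (𝓞 K))⁰) : ℝ := (absNorm (I : Ideal (𝓞 K)) : ℝ) ^ (-s)

theorem normRpow_nonneg (s : ℝ) (I : (Ideal (𝓞 K))⁰) : 0 ≤ normRpow K s I :=
  Real.rpow_nonneg (Nat.cast_nonneg _) _

theorem normRpow_mul (s : ℝ) (I J : (Ideal (𝓞 K))⁰) :
    normRpow K s (I * J) = normRpow K s I * normRpow K s J := by
  simp only [normRpow, Submonoid.coe_mul, map_mul, Nat.cast_mul]
  exact Real.mul_rpow (Nat.cast_nonneg _) (Nat.cast_nonneg _)

theorem hasSum_classes {M : Type*} [AddCommGroup M] [TopologicalSpace M] [ContinuousAdd M]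
    [T2Space M] (g : (Ideal (𝓞 K))⁰ → M) (a : ClassGroup (𝓞 K) → M)
    (h : ∀ c, HasSum (fun I : {I : (Ideal (𝓞 K))⁰ // ClassGroup.mk0 I = c} => g I.1) (a c)) :
    HasSum g (∑ c, a c) := by
  have h1 := hasSum_sum_disjoint (f := g) (a := a) Finset.univ
    (t := fun c => {I | ClassGroup.mk0 I = c}) (fun c _ d _ hcd => by
      rw [Function.onFun, Set.disjoint_left]
      exact fun I hI hI' => hcd (hI.symm.trans hI')) fun c _ => h c
  have h2 : (⋃ c ∈ (Finset.univ : Finset (ClassGroup (𝓞 K))),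
      {I : (Ideal (𝓞 K))⁰ | ClassGroup.mk0 I = c}) = Set.univ := by
    ext I; simp
  rw [h2] at h1
  exact (hasSum_subtype_iff_of_support_subset (Set.subset_univ _)).mp h1

theorem hasSum_normRpow {s : ℝ} (hs : 1 < s) :
    HasSum (normRpow K s) (∑ c, classZetaR K c s) :=
  hasSum_classes K _ _ fun c => (summable_class_rpow K c hs).hasSum

theorem sum_classZetaR_eq {s : ℝ} (hs : 1 < s) :
    ∑ c, classZetaR K c s = ∑' n, FLTA.Density.zetaTerm K s n := by
  have h := hasSum_normRpow K hs
  let f : (Ideal (𝓞 K))⁰ → ℕ := fun I => absNorm (I : Ideal (𝓞 K))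
  have h2 := ((Equiv.sigmaFiberEquiv f).hasSum_iff).mpr h
  refine (HasSum.tsum_eq (h2.sigma fun n => ?_)).symm
  rcases eq_or_ne n 0 with rfl | hn
  · have : IsEmpty {I : (Ideal (𝓞 K))⁰ // f I = 0} :=
      ⟨fun I => absNorm_ne_zero_of_nonZeroDivisors I.1 I.2⟩
    rw [FLTA.Density.zetaTerm_zero K (by linarith)]
    exact hasSum_empty
  · let e : {I : (Ideal (𝓞 K))⁰ // f I = n} ≃ {I : Ideal (𝓞 K) // absNorm I = n} :=
      { toFun := fun I => ⟨I.1, I.2⟩
        invFun := fun I => ⟨⟨I.1, mem_nonZeroDivisors_of_ne_zero fun h => hn (by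
          rw [← I.2, h]; exact map_zero _)⟩, I.2⟩
        left_inv := fun _ => rfl
        right_inv := fun _ => rfl }
    have := FLTA.Density.finite_normSubtype K n
    have := Finite.of_equiv _ e.symm
    let _ := Fintype.ofFinite {I : (Ideal (𝓞 K))⁰ // f I = n}
    convert hasSum_fintype _
    rw [FLTA.Density.zetaTerm, FLTA.Density.normCount, ← Nat.card_congr e,
      Nat.card_eq_fintype_card, Finset.sum_eq_card_nsmul, Finset.card_univ, nsmul_eq_mul]
    intro I _
    show normRpow K s I.1 = _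
    rw [normRpow, show absNorm ((I.1 : (Ideal (𝓞 K))⁰) : Ideal (𝓞 K)) = n from I.2]

/-- The zeta function is `O(1/(s-1))`. -/
theorem exists_totalZeta_bound :
    ∃ R : ℝ, 0 < R ∧ ∀ᶠ s in 𝓝[>] (1 : ℝ), (s - 1) * ∑ c, classZetaR K c s ≤ R := by
  refine ⟨dedekindZeta_residue K + 1, by linarith [dedekindZeta_residue_pos K], ?_⟩
  filter_upwards [self_mem_nhdsWithin,
    (FLTA.Density.tendsto_sub_one_mul_tsum_zetaTerm K).eventually
      (gt_mem_nhds (lt_add_one _))] with s (hs : 1 < s) h
  rw [sum_classZetaR_eq K hs]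
  exact h.le

theorem exists_classZetaR_sub_le (c : ClassGroup (𝓞 K)) :
    ∃ C : ℝ, ∀ᶠ s in 𝓝[>] (1 : ℝ), |classZetaR K c s - classZetaR K 1 s| ≤ C := by
  obtain ⟨N, C, hN, h⟩ := exists_classZetaR_compare K c
  obtain ⟨R, -, hR⟩ := exists_totalZeta_bound K
  refine ⟨C + Real.log N * R, ?_⟩
  filter_upwards [Ioc_mem_nhdsGT one_lt_two, hR] with s hs hsR
  have h1 := h s hs.1 hs.2
  have hZ0 : ∀ d, 0 ≤ classZetaR K d s := fun d => tsum_nonneg fun _ => by positivity
  have hle : classZetaR K c s ≤ ∑ d, classZetaR K d s :=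
    Finset.single_le_sum (fun d _ => hZ0 d) (Finset.mem_univ c)
  have hN1 : (1 : ℝ) ≤ N := Nat.one_le_cast.mpr hN
  have hpow : 1 - (N : ℝ) ^ (1 - s) ≤ (s - 1) * Real.log N := by
    rw [Real.rpow_def_of_pos (by linarith)]
    linarith [Real.add_one_le_exp (Real.log N * (1 - s))]
  have hpow0 : 0 ≤ 1 - (N : ℝ) ^ (1 - s) := by
    linarith [Real.rpow_le_one_of_one_le_of_nonpos hN1 (by linarith [hs.1] : 1 - s ≤ 0)]
  have h2 : (1 - (N : ℝ) ^ (1 - s)) * classZetaR K c s ≤ Real.log N * R := by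
    calc (1 - (N : ℝ) ^ (1 - s)) * classZetaR K c s
        ≤ (s - 1) * Real.log N * ∑ d, classZetaR K d s :=
          mul_le_mul hpow hle (hZ0 c)
            (mul_nonneg (by linarith [hs.1]) (Real.log_nonneg hN1))
      _ = Real.log N * ((s - 1) * ∑ d, classZetaR K d s) := by ring
      _ ≤ Real.log N * R := mul_le_mul_of_nonneg_left hsR (Real.log_nonneg hN1)
  have h3 : 0 ≤ (1 - (N : ℝ) ^ (1 - s)) * classZetaR K c s := mul_nonneg hpow0 (hZ0 c)
  rw [abs_le] at h1 ⊢
  constructor <;> nlinarith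

/-- A sum with vanishing total weight over the classes stays bounded. -/
theorem exists_weightedSum_bound (g : ClassGroup (𝓞 K) → ℂ) (hg : ∑ c, g c = 0) :
    ∃ C : ℝ, ∀ᶠ s in 𝓝[>] (1 : ℝ),
      ‖∑' I : (Ideal (𝓞 K))⁰, g (ClassGroup.mk0 I) * (normRpow K s I : ℂ)‖ ≤ C := by
  choose C hC using exists_classZetaR_sub_le K
  refine ⟨∑ c, ‖g c‖ * C c, ?_⟩
  filter_upwards [self_mem_nhdsWithin, eventually_all.mpr hC] with s (hs : 1 < s) h
  have hsum : HasSum (fun I : (Ideal (𝓞 K))⁰ => g (ClassGroup.mk0 I) * (normRpow K s I : ℂ))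
      (∑ c, g c * (classZetaR K c s : ℂ)) := by
    refine hasSum_classes K _ _ fun c => ?_
    have h1 := (Complex.hasSum_ofReal.mpr (summable_class_rpow K c hs).hasSum).mul_left (g c)
    refine h1.congr_fun fun I => ?_
    rw [I.2]
    rfl
  rw [hsum.tsum_eq]
  have h2 : ∑ c, g c * (classZetaR K c s : ℂ) =
      ∑ c, g c * ((classZetaR K c s - classZetaR K 1 s : ℝ) : ℂ) := by
    simp only [Complex.ofReal_sub, mul_sub, Finset.sum_sub_distrib, ← Finset.sum_mul, hg,
      zero_mul, sub_zero]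
  rw [h2]
  refine (norm_sum_le _ _).trans (Finset.sum_le_sum fun c _ => ?_)
  rw [norm_mul, Complex.norm_real, Real.norm_eq_abs]
  exact mul_le_mul_of_nonneg_left (h c) (norm_nonneg _)

section Character

variable (p : ℕ) [Fact p.Prime] (φ : ClassGroup (𝓞 K) →* Multiplicative (ZMod p))

/-- The character `exp(2πi j φ(c) / p)` of the class group. -/
def classChar (j : ZMod p) (c : ClassGroup (𝓞 K)) : ℂ :=
  ZMod.stdAddChar (j * Multiplicative.toAdd (φ c))

omit [NumberField K] in
theorem classChar_mul (j : ZMod p) (c d : ClassGroup (𝓞 K)) :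
    classChar K p φ j (c * d) = classChar K p φ j c * classChar K p φ j d := by
  simp only [classChar, map_mul, toAdd_mul, mul_add]
  exact AddChar.map_add_eq_mul _ _ _

omit [NumberField K] in
theorem norm_classChar (j : ZMod p) (c : ClassGroup (𝓞 K)) : ‖classChar K p φ j c‖ = 1 :=
  AddChar.norm_apply _ _

theorem sum_classChar {j : ZMod p} (hj : j ≠ 0) (hφ : φ ≠ 1) :
    ∑ c, classChar K p φ j c = 0 := by
  obtain ⟨d, hd⟩ : ∃ d, φ d ≠ 1 := by
    by_contra h
    push Not at h
    exact hφ (MonoidHom.ext h)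
  have h1 : classChar K p φ j d * ∑ c, classChar K p φ j c = ∑ c, classChar K p φ j c := by
    simp only [Finset.mul_sum, ← classChar_mul]
    exact Fintype.sum_equiv (Equiv.mulLeft d) _ _ fun c => rfl
  have h2 : classChar K p φ j d ≠ 1 := by
    intro h
    refine mul_ne_zero hj (fun h0 => hd (Multiplicative.toAdd.injective h0)) ?_
    exact ZMod.injective_stdAddChar (h.trans (AddChar.map_zero_eq_one _).symm)
  by_contra h
  exact h2 ((mul_eq_right₀ h).mp h1)

/-- The multiplicative function `χ_j(I) N I ^ (-s)`. -/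
def charWeight (j : ZMod p) (s : ℝ) : (Ideal (𝓞 K))⁰ →* ℂ where
  toFun I := classChar K p φ j (ClassGroup.mk0 I) * (normRpow K s I : ℂ)
  map_one' := by simp [classChar, normRpow]
  map_mul' I J := by
    rw [map_mul, classChar_mul, normRpow_mul, Complex.ofReal_mul]
    ring

theorem norm_charWeight (j : ZMod p) (s : ℝ) (I : (Ideal (𝓞 K))⁰) :
    ‖charWeight K p φ j s I‖ = normRpow K s I := by
  show ‖classChar K p φ j (ClassGroup.mk0 I) * (normRpow K s I : ℂ)‖ = _
  rw [norm_mul, norm_classChar, one_mul, Complex.norm_real,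
    Real.norm_of_nonneg (normRpow_nonneg K s I)]

theorem exists_log_charWeight_bound (hφ : φ ≠ 1) (j : ZMod p) :
    ∃ A : ℝ, ∀ᶠ s in 𝓝[>] (1 : ℝ),
      Real.log (‖∑' I, charWeight K p φ j s I‖ + 1) ≤
        (if j = 0 then Real.log (1 / (s - 1)) else 0) + A := by
  rcases eq_or_ne j 0 with rfl | hj
  · obtain ⟨R, hR, h⟩ := exists_totalZeta_bound K
    refine ⟨Real.log (R + 1), ?_⟩
    filter_upwards [Ioc_mem_nhdsGT one_lt_two, h] with s hs hsR
    have h1 : ‖∑' I, charWeight K p φ 0 s I‖ ≤ ∑ c, classZetaR K c s := by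
      refine (norm_tsum_le_tsum_norm ?_).trans_eq ?_ <;> simp only [norm_charWeight]
      · exact (hasSum_normRpow K hs.1).summable
      · exact (hasSum_normRpow K hs.1).tsum_eq
    have hs0 : 0 < s - 1 := by linarith [hs.1]
    rw [if_pos rfl, one_div, Real.log_inv, ← sub_eq_neg_add, ← Real.log_div (by positivity) hs0.ne']
    refine Real.log_le_log (by positivity) ((le_div_iff₀ hs0).mpr ?_)
    nlinarith [hs.2]
  · obtain ⟨C, h⟩ := exists_weightedSum_bound K (fun c => classChar K p φ j c)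
      (sum_classChar K p φ hj hφ)
    refine ⟨Real.log (C + 1), ?_⟩
    filter_upwards [h] with s hsC
    rw [if_neg hj, zero_add]
    exact Real.log_le_log (by positivity) (by simpa [charWeight] using hsC)

/-- Primes in the kernel of a nontrivial character carry at most `1/p` of the prime mass. -/
theorem exists_kernelPrime_bound (hφ : φ ≠ 1) :
    ∃ A : ℝ, ∀ᶠ s in 𝓝[>] (1 : ℝ), ∀ S : Finset (PrimeIdx K),
      (p : ℝ) * ∑ P ∈ S with φ (ClassGroup.mk0 P.1) = 1, normRpow K s P.1 ≤
        Real.log (1 / (s - 1)) + A := by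
  choose A hA using exists_log_charWeight_bound K p φ hφ
  set E := ∑' I : (Ideal (𝓞 K))⁰, normRpow K 2 I
  refine ⟨∑ j, A j + p * E, ?_⟩
  filter_upwards [self_mem_nhdsWithin, eventually_all.mpr hA] with s (hs : 1 < s) h S
  have hsum : ∀ j, Summable fun I => ‖charWeight K p φ j s I‖ := fun j => by
    simpa only [norm_charWeight] using (hasSum_normRpow K hs).summable
  have h2le : ∀ P : PrimeIdx K, 2 ≤ absNorm (P.1 : Ideal (𝓞 K)) := fun P => by
    have h0 := absNorm_pos_of_nonZeroDivisors P.1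
    have h1 : absNorm (P.1 : Ideal (𝓞 K)) ≠ 1 := fun h =>
      P.2.not_isUnit (isUnit_iff.mpr (absNorm_eq_one_iff.mp h))
    omega
  have hlt : ∀ (j : ZMod p) (P : PrimeIdx K), ‖charWeight K p φ j s P.1‖ < 1 := fun j P => by
    rw [norm_charWeight]
    exact Real.rpow_lt_one_of_one_lt_of_neg (Nat.one_lt_cast.mpr (h2le P)) (by linarith)
  choose S₀ hS₀ using fun j : ZMod p =>
    exists_finset_norm_tsum_supportedOn_le (fun I => charWeight K p φ j s I) (hsum j) one_pos
  set T := S ∪ Finset.univ.biUnion S₀ with hT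
  have hj : ∀ j, ∑ P ∈ T, (charWeight K p φ j s P.1).re ≤
      (if j = 0 then Real.log (1 / (s - 1)) else 0) + A j + E := by
    intro j
    have h1 := exp_le_norm_tsum_supportedOn (charWeight K p φ j s) (hsum j) (hlt j) T
    have h2 := hS₀ j T (Finset.subset_union_right.trans' (Finset.subset_biUnion_of_mem S₀
      (Finset.mem_univ j)))
    have h3 := Real.log_le_log (Real.exp_pos _) (h1.trans h2)
    rw [Real.log_exp, Finset.sum_sub_distrib] at h3
    have h4 : ∑ P ∈ T, ‖charWeight K p φ j s P.1‖ ^ 2 / 2 ≤ E := by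
      calc ∑ P ∈ T, ‖charWeight K p φ j s P.1‖ ^ 2 / 2
          ≤ ∑ P ∈ T, normRpow K 2 P.1 := by
            refine Finset.sum_le_sum fun P _ => ?_
            rw [norm_charWeight]
            have h5 : normRpow K s P.1 ^ 2 ≤ normRpow K 2 P.1 := by
              rw [normRpow, normRpow, ← Real.rpow_natCast, ← Real.rpow_mul (Nat.cast_nonneg _)]
              exact Real.rpow_le_rpow_of_exponent_le
                (Nat.one_le_cast.mpr (one_le_two.trans (h2le P))) (by push_cast; linarith)
            linarith [sq_nonneg (normRpow K s P.1)]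
        _ = ∑ I ∈ T.map ⟨Subtype.val, Subtype.val_injective⟩, normRpow K 2 I := by
            rw [Finset.sum_map]; rfl
        _ ≤ E := (hasSum_normRpow K one_lt_two).summable.sum_le_tsum _
            fun I _ => normRpow_nonneg K 2 I
    linarith [h j]
  have horth : ∀ P : PrimeIdx K, ∑ j, (charWeight K p φ j s P.1).re =
      if φ (ClassGroup.mk0 P.1) = 1 then (p : ℝ) * normRpow K s P.1 else 0 := by
    intro P
    have h1 := AddChar.sum_mulShift (Multiplicative.toAdd (φ (ClassGroup.mk0 P.1)))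
      (ZMod.isPrimitive_stdAddChar p)
    rw [ZMod.card] at h1
    rw [← Complex.re_sum]
    show (∑ j, classChar K p φ j (ClassGroup.mk0 P.1) * (normRpow K s P.1 : ℂ)).re = _
    rw [← Finset.sum_mul]
    show ((∑ j, ZMod.stdAddChar (j * _)) * _).re = _
    rw [h1]
    by_cases h2 : φ (ClassGroup.mk0 P.1) = 1
    · rw [if_pos h2, if_pos (by rw [h2]; rfl)]
      simp
    · rw [if_neg h2, if_neg fun h3 => h2 (Multiplicative.toAdd.injective (h3.trans toAdd_one.symm))]
      simp
  calc (p : ℝ) * ∑ P ∈ S with φ (ClassGroup.mk0 P.1) = 1, normRpow K s P.1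
      ≤ ∑ P ∈ T, if φ (ClassGroup.mk0 P.1) = 1 then (p : ℝ) * normRpow K s P.1 else 0 := by
        rw [Finset.mul_sum, Finset.sum_filter]
        refine Finset.sum_le_sum_of_subset_of_nonneg Finset.subset_union_left fun P _ _ => ?_
        split_ifs
        · exact mul_nonneg (Nat.cast_nonneg _) (normRpow_nonneg K s _)
        · exact le_rfl
    _ = ∑ j, ∑ P ∈ T, (charWeight K p φ j s P.1).re := by
        rw [Finset.sum_comm]
        simp only [horth]
    _ ≤ ∑ j : ZMod p, ((if j = 0 then Real.log (1 / (s - 1)) else 0) + A j + E) :=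
        Finset.sum_le_sum fun j _ => hj j
    _ = _ := by
        rw [Finset.sum_add_distrib, Finset.sum_add_distrib, Finset.sum_ite_eq', Finset.sum_const,
          Finset.card_univ, ZMod.card, nsmul_eq_mul, if_pos (Finset.mem_univ _)]
        ring

end Character

end FLTA.Herbrand
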