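import Mathlib
import Fermat.Agent.Galois.Cyclotomic
import Fermat.Prelude.Def_ExtCitation_AdmissibleExtension_v2
import Fermat.Prelude.Def_ExtCitation_KummerBridge

/-!
# S14: the cocycle of an admissible extension
-/

set_option autoImplicit false

noncomputable section

open ExtCitation

namespace FLTA.Herbrand

local notation "Γ" => AlgebraicClosure ℚ ≃ₐ[ℚ] AlgebraicClosure ℚ

variable {p : ℕ} [hp : Fact p.Prime] {V : Type} [AddCommGroup V] [Module (ZMod p) V]
  [DistribMulAction Γ V] [SMulCommClass Γ (ZMod p) V] {C : Submodule (ZMod p) V}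

/-- The mod `p` cyclotomic character with values in `ZMod p`. -/
def chiBar (p : ℕ) [Fact p.Prime] (σ : Γ) : ZMod p := (cycloExp p σ : ZMod p)

theorem chiBar_eq_cycloChar (σ : Γ) : chiBar p σ = (cycloChar p σ : ZMod p) :=
  (coe_cycloChar p σ).symm

theorem chiBar_mul (σ τ : Γ) : chiBar p (σ * τ) = chiBar p σ * chiBar p τ := by
  simp [chiBar_eq_cycloChar]

theorem chiBar_one : chiBar p (1 : Γ) = 1 := by
  simp [chiBar_eq_cycloChar]

theorem chiBar_ne_zero (σ : Γ) : chiBar p σ ≠ 0 := by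
  simp [chiBar_eq_cycloChar]

/-- The data of the cocycle attached to an extension. -/
structure ExtData (p : ℕ) [Fact p.Prime] (V : Type) [AddCommGroup V] [Module (ZMod p) V]
    [DistribMulAction Γ V] (C : Submodule (ZMod p) V) where
  v₀ : V
  c₀ : V
  φ : Γ → ZMod p
  v₀_not_mem : v₀ ∉ C
  c₀_mem : c₀ ∈ C
  c₀_ne : c₀ ≠ 0
  c₀_fixed : ∀ σ : Γ, σ • c₀ = c₀
  smul_v₀ : ∀ σ : Γ, σ • v₀ = chiBar p σ • v₀ + φ σ • c₀
  repr : ∀ v : V, ∃ x y : ZMod p, v = x • v₀ + y • c₀

namespace ExtData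

variable (D : ExtData p V C)

theorem coeff_unique {x y x' y' : ZMod p}
    (h : x • D.v₀ + y • D.c₀ = x' • D.v₀ + y' • D.c₀) : x = x' ∧ y = y' := by
  have h2 : (x - x') • D.v₀ = (y' - y) • D.c₀ := by
    rw [sub_smul, sub_smul, sub_eq_sub_iff_add_eq_add, h, add_comm]
  have hx : x = x' := by
    by_contra hne
    apply D.v₀_not_mem
    have : D.v₀ = (x - x')⁻¹ • ((x - x') • D.v₀) :=
      (inv_smul_smul₀ (sub_ne_zero.mpr hne) _).symm
    rw [this, h2]
    exact C.smul_mem _ (C.smul_mem _ D.c₀_mem)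
  refine ⟨hx, ?_⟩
  rw [hx, sub_self, zero_smul, eq_comm, smul_eq_zero] at h2
  rcases h2 with h2 | h2
  · exact (sub_eq_zero.mp h2).symm
  · exact absurd h2 D.c₀_ne

theorem φ_mul (σ τ : Γ) : D.φ (σ * τ) = chiBar p τ * D.φ σ + D.φ τ := by
  have h : (σ * τ) • D.v₀ = σ • (τ • D.v₀) := mul_smul _ _ _
  rw [D.smul_v₀, D.smul_v₀, smul_add, smul_comm σ (chiBar p τ), smul_comm σ (D.φ τ), D.smul_v₀,
    D.c₀_fixed, smul_add, smul_smul, smul_smul, add_assoc, ← add_smul] at h
  exact (D.coeff_unique h).2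

theorem φ_one : D.φ 1 = 0 := by
  have := D.φ_mul 1 1
  simpa [chiBar_one] using this

theorem φ_eq_zero_of_forall_smul_eq {σ : Γ} (h : ∀ v : V, σ • v = v) :
    chiBar p σ = 1 ∧ D.φ σ = 0 := by
  have h1 : chiBar p σ • D.v₀ + D.φ σ • D.c₀ = (1 : ZMod p) • D.v₀ + (0 : ZMod p) • D.c₀ := by
    rw [← D.smul_v₀, h, one_smul, zero_smul, add_zero]
  exact D.coeff_unique h1

theorem smul_eq_self_iff (σ : Γ) : (∀ v : V, σ • v = v) ↔ chiBar p σ = 1 ∧ D.φ σ = 0 := by
  refine ⟨D.φ_eq_zero_of_forall_smul_eq, fun ⟨h1, h2⟩ v => ?_⟩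
  obtain ⟨x, y, rfl⟩ := D.repr v
  rw [smul_add, smul_comm σ x, smul_comm σ y, D.c₀_fixed, D.smul_v₀, h1, h2, one_smul, zero_smul,
    add_zero]

theorem φ_conj (g τ : Γ) (hτ : chiBar p τ = 1) :
    chiBar p (g⁻¹ * τ * g) = 1 ∧ D.φ (g⁻¹ * τ * g) = chiBar p g * D.φ τ := by
  have hinv : chiBar p g * D.φ g⁻¹ + D.φ g = 0 := by
    rw [← D.φ_mul, inv_mul_cancel, D.φ_one]
  have hχ : chiBar p g⁻¹ * chiBar p g = 1 := by rw [← chiBar_mul, inv_mul_cancel, chiBar_one]
  refine ⟨by rw [chiBar_mul, chiBar_mul, hτ, mul_one, hχ], ?_⟩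
  rw [D.φ_mul, D.φ_mul, hτ]
  linear_combination hinv

/-- If the cocycle vanishes on the kernel of the cyclotomic character, the extension splits. -/
theorem splitsGlobally_of_forall (h : ∀ σ : Γ, chiBar p σ = 1 → D.φ σ = 0) :
    SplitsGlobally C := by
  -- a line `v₁ = v₀ - k • c₀` on which the group acts by the character
  obtain ⟨k, hk⟩ : ∃ k : ZMod p, ∀ σ : Γ, D.φ σ = k * (1 - chiBar p σ) := by
    by_cases hex : ∃ σ₀ : Γ, chiBar p σ₀ ≠ 1
    · obtain ⟨σ₀, hσ₀⟩ := hex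
      refine ⟨D.φ σ₀ / (1 - chiBar p σ₀), fun σ => ?_⟩
      have hc : D.φ (σ * σ₀) = D.φ (σ₀ * σ) := by
        have hn : chiBar p (σ * σ₀ * (σ₀ * σ)⁻¹) = 1 := by
          rw [chiBar_eq_cycloChar, map_mul, map_inv, map_mul, map_mul,
            mul_comm (cycloChar p σ₀) (cycloChar p σ), mul_inv_cancel, Units.val_one]
        have := D.φ_mul (σ * σ₀ * (σ₀ * σ)⁻¹) (σ₀ * σ)
        rw [inv_mul_cancel_right, h _ hn, mul_zero, zero_add] at this
        exact this
      rw [D.φ_mul, D.φ_mul] at hc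
      have hne : (1 : ZMod p) - chiBar p σ₀ ≠ 0 := sub_ne_zero.mpr (Ne.symm hσ₀)
      field_simp
      linear_combination -hc
    · push Not at hex
      exact ⟨0, fun σ => by rw [h σ (hex σ), zero_mul]⟩
  set v₁ := D.v₀ - k • D.c₀
  have hv₁ : ∀ σ : Γ, σ • v₁ = chiBar p σ • v₁ := by
    intro σ
    simp only [v₁, smul_sub, smul_comm σ k, D.c₀_fixed, D.smul_v₀, hk, smul_smul, mul_sub,
      mul_one, sub_smul, mul_comm (chiBar p σ) k]
    abel
  refine ⟨Submodule.span (ZMod p) {v₁}, ?_, ?_⟩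
  · intro σ x hx
    obtain ⟨a, rfl⟩ := Submodule.mem_span_singleton.mp hx
    rw [smul_comm, hv₁, smul_smul]
    exact Submodule.smul_mem _ _ (Submodule.mem_span_singleton_self _)
  · constructor
    · rw [Submodule.disjoint_def]
      intro x hxC hx
      obtain ⟨a, rfl⟩ := Submodule.mem_span_singleton.mp hx
      rcases eq_or_ne a 0 with rfl | ha
      · exact zero_smul _ _
      · exfalso
        have : v₁ ∈ C := by
          have := C.smul_mem a⁻¹ hxC
          rwa [inv_smul_smul₀ ha] at this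
        exact D.v₀_not_mem (by simpa [v₁] using C.add_mem this (C.smul_mem k D.c₀_mem))
    · rw [codisjoint_iff, eq_top_iff]
      rintro v -
      obtain ⟨x, y, rfl⟩ := D.repr v
      refine Submodule.mem_sup.mpr ⟨(x * k + y) • D.c₀, C.smul_mem _ D.c₀_mem, x • v₁,
        Submodule.smul_mem _ _ (Submodule.mem_span_singleton_self _), ?_⟩
      simp only [v₁, add_smul, smul_sub, smul_smul]
      abel

end ExtData

theorem exists_extData (hadm : IsAdmissibleExtensionCts p V C) : Nonempty (ExtData p V C) := by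
  have hp1 : 1 < p := hp.out.one_lt
  haveI : Finite V := Nat.finite_of_card_ne_zero (by rw [hadm.card_total]; positivity)
  obtain ⟨c₀, hc₀, hc₀ne⟩ : ∃ c ∈ C, c ≠ 0 := by
    by_contra! h
    have : Subsingleton C := ⟨fun a b => Subtype.ext (by rw [h a a.2, h b b.2])⟩
    have := Finite.card_le_one_iff_subsingleton.mpr this
    rw [hadm.card_sub] at this
    omega
  have hC : ∀ x ∈ C, ∃ k : ZMod p, k • c₀ = x := by
    let f : ZMod p → C := fun k => ⟨k • c₀, C.smul_mem k hc₀⟩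
    have hf : Function.Injective f := fun a b hab => by
      have h2 : (a - b) • c₀ = 0 := by
        rw [sub_smul, sub_eq_zero]; exact congrArg Subtype.val hab
      exact sub_eq_zero.mp ((smul_eq_zero.mp h2).resolve_right hc₀ne)
    have hbij := (Nat.bijective_iff_injective_and_card f).mpr
      ⟨hf, by rw [Nat.card_zmod, hadm.card_sub]⟩
    intro x hx
    obtain ⟨k, hk⟩ := hbij.2 ⟨x, hx⟩
    exact ⟨k, congrArg Subtype.val hk⟩
  obtain ⟨v₀, hv₀⟩ : ∃ v : V, v ∉ C := by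
    by_contra! h
    have : Nat.card V = p := by
      rw [← hadm.card_sub]
      exact Nat.card_congr (Equiv.subtypeUnivEquiv h).symm
    rw [hadm.card_total] at this
    nlinarith
  have hc : ∀ σ : Γ, ∃ k : ZMod p, k • c₀ = σ • v₀ - chiBar p σ • v₀ :=
    fun σ => hC _ (hadm.cyclo_quot σ v₀)
  choose φ hφ using hc
  have hinj : Function.Injective fun xy : ZMod p × ZMod p => xy.1 • v₀ + xy.2 • c₀ := by
    rintro ⟨x, y⟩ ⟨x', y'⟩ h
    have h2 : (x - x') • v₀ = (y' - y) • c₀ := by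
      rw [sub_smul, sub_smul, sub_eq_sub_iff_add_eq_add]
      simpa [add_comm] using h
    have hx : x = x' := by
      by_contra hne
      apply hv₀
      rw [← inv_smul_smul₀ (sub_ne_zero.mpr hne) v₀, h2]
      exact C.smul_mem _ (C.smul_mem _ hc₀)
    subst hx
    rw [sub_self, zero_smul, eq_comm, smul_eq_zero] at h2
    simp [(sub_eq_zero.mp (h2.resolve_right hc₀ne)).symm]
  have hbij := (Nat.bijective_iff_injective_and_card _).mpr
    ⟨hinj, by rw [Nat.card_prod, Nat.card_zmod, hadm.card_total]; ring⟩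
  exact ⟨{
    v₀ := v₀
    c₀ := c₀
    φ := φ
    v₀_not_mem := hv₀
    c₀_mem := hc₀
    c₀_ne := hc₀ne
    c₀_fixed := fun σ => hadm.fixed_sub σ c₀ hc₀
    smul_v₀ := fun σ => by rw [hφ σ]; abel
    repr := fun v => by
      obtain ⟨⟨x, y⟩, h⟩ := hbij.2 v
      exact ⟨x, y, h.symm⟩ }⟩

/-- On the decomposition groups at `p` the cocycle vanishes on the kernel of the character. -/
theorem ExtData.φ_eq_zero_of_decomposition (D : ExtData p V C)
    (hadm : IsAdmissibleExtensionCts p V C) (A : ValuationSubring (AlgebraicClosure ℚ))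
    (hA : A.LiesOverPrime p) {σ : Γ} (hσ : σ ∈ A.decompositionSubgroup ℚ)
    (hχ : chiBar p σ = 1) : D.φ σ = 0 := by
  obtain ⟨C', hC', hcompl⟩ := hadm.locally_split A hA
  have hv : D.v₀ ∈ C ⊔ C' := by rw [hcompl.sup_eq_top]; trivial
  obtain ⟨c, hc, v', hv', heq⟩ := Submodule.mem_sup.mp hv
  have hσv : σ • v' - v' = D.φ σ • D.c₀ := by
    have : v' = D.v₀ - c := by rw [← heq]; abel
    rw [this, smul_sub, hadm.fixed_sub σ c hc, D.smul_v₀, hχ, one_smul]
    abel
  have h1 : σ • v' - v' ∈ C' := C'.sub_mem (hC' σ hσ v' hv') hv'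
  rw [hσv] at h1
  have h0 := Submodule.disjoint_def.mp hcompl.disjoint _ (C.smul_mem _ D.c₀_mem) h1
  exact (smul_eq_zero.mp h0).resolve_right D.c₀_ne

/-- On every inertia group the cocycle vanishes on the kernel of the character. -/
theorem ExtData.φ_eq_zero_of_inertia (D : ExtData p V C)
    (hadm : IsAdmissibleExtensionCts p V C) {ℓ : ℕ} (hℓ : ℓ.Prime)
    (A : ValuationSubring (AlgebraicClosure ℚ)) (hA : A.LiesOverPrime ℓ) {σ : Γ}
    (hσ : σ ∈ A.inertiaSubgroupIn ℚ) (hχ : chiBar p σ = 1) : D.φ σ = 0 := by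
  by_cases hℓp : ℓ = p
  · subst hℓp
    exact D.φ_eq_zero_of_decomposition hadm A hA
      (FLTA.Galois.inertiaSubgroupIn_le_decompositionSubgroup hσ) hχ
  · exact (D.φ_eq_zero_of_forall_smul_eq (hadm.unramified_outside ℓ hℓ hℓp A hA σ hσ)).2

end FLTA.Herbrand
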