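import Mathlib.NumberTheory.NumberField.Basic
import Mathlib.RingTheory.DedekindDomain.Different
import Mathlib.RingTheory.Ideal.Norm.AbsNorm

/-!
# Multiplicities of primes in ideals of Dedekind domains

Small API for the exponent of a prime in an ideal and its behaviour under extension, together with
the fact that primes not dividing `n` are unramified in extensions generated by an `n`-th root of
unity.
-/

set_option autoImplicit false

open UniqueFactorizationMonoid Polynomial

noncomputable section

namespace FLTA.Herbrand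

variable {A : Type*} [CommRing A] [IsDedekindDomain A]

open scoped Classical in
/-- The exponent of `P` in `I`. -/
def idealMult (P I : Ideal A) : ℕ := (normalizedFactors I).count P

theorem idealMult_mul (P : Ideal A) {I J : Ideal A} (hI : I ≠ ⊥) (hJ : J ≠ ⊥) :
    idealMult P (I * J) = idealMult P I + idealMult P J := by
  classical
  simp only [idealMult, normalizedFactors_mul hI hJ, Multiset.count_add]

theorem idealMult_pow (P : Ideal A) (I : Ideal A) (n : ℕ) :
    idealMult P (I ^ n) = n * idealMult P I := by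
  classical
  simp only [idealMult, normalizedFactors_pow, Multiset.count_nsmul]

theorem idealMult_self {P : Ideal A} [hP : P.IsPrime] (h0 : P ≠ ⊥) : idealMult P P = 1 := by
  classical
  rw [idealMult, normalizedFactors_irreducible (Ideal.prime_of_isPrime h0 hP).irreducible,
    normalize_eq, Multiset.count_singleton_self]

theorem idealMult_eq_zero {P I : Ideal A} (h : ¬ P ∣ I) : idealMult P I = 0 := by
  classical
  exact Multiset.count_eq_zero.mpr fun h' => h (dvd_of_mem_normalizedFactors h')

theorem exists_eq_pow_mul {P I : Ideal A} [hP : P.IsPrime] (h0 : P ≠ ⊥) (hI : I ≠ ⊥) :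
    ∃ J : Ideal A, J ≠ ⊥ ∧ ¬ P ∣ J ∧ I = P ^ idealMult P I * J := by
  classical
  have hirr : Irreducible P := (Ideal.prime_of_isPrime h0 hP).irreducible
  have hdvd : P ^ idealMult P I ∣ I := by
    rw [dvd_iff_normalizedFactors_le_normalizedFactors (pow_ne_zero _ h0) hI,
      normalizedFactors_pow, normalizedFactors_irreducible hirr, normalize_eq,
      Multiset.nsmul_singleton, ← Multiset.le_count_iff_replicate_le]
    exact le_rfl
  obtain ⟨J, hJ⟩ := hdvd
  have hJ0 : J ≠ ⊥ := fun h => hI (by rw [hJ, h, Ideal.mul_bot])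
  refine ⟨J, hJ0, fun ⟨K', hK'⟩ => ?_, hJ⟩
  have hK0 : K' ≠ ⊥ := fun h => hJ0 (by rw [hK', h, Ideal.mul_bot])
  have h := congrArg (idealMult P) hJ
  rw [idealMult_mul P (pow_ne_zero _ h0) hJ0, idealMult_pow, idealMult_self h0, hK',
    idealMult_mul P h0 hK0, idealMult_self h0] at h
  omega

theorem idealMult_eq_one {P I : Ideal A} [hP : P.IsPrime] (h0 : P ≠ ⊥) (hI : I ≠ ⊥) (h1 : P ∣ I)
    (h2 : ¬ P ^ 2 ∣ I) : idealMult P I = 1 := by
  obtain ⟨J, -, hJd, hJ⟩ := exists_eq_pow_mul h0 hI
  generalize idealMult P I = m at hJ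
  match m with
  | 0 => exact absurd (by rwa [hJ, pow_zero, one_mul] at h1) hJd
  | 1 => rfl
  | k + 2 => exact absurd ⟨P ^ k * J, by rw [hJ, ← mul_assoc, ← pow_add, add_comm]⟩ h2

variable {B : Type*} [CommRing B] [IsDedekindDomain B] [Algebra A B] [FaithfulSMul A B]

theorem idealMult_map {P : Ideal B} {r I : Ideal A} [P.IsPrime] [hr : r.IsPrime] (hr0 : r ≠ ⊥)
    (hcomap : P.comap (algebraMap A B) = r) (hI : I ≠ ⊥) :
    idealMult P (I.map (algebraMap A B)) =
      idealMult P (r.map (algebraMap A B)) * idealMult r I := by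
  obtain ⟨J, hJ0, hJd, hJ⟩ := exists_eq_pow_mul hr0 hI
  have hinj := FaithfulSMul.algebraMap_injective A B
  have hne : ∀ {X : Ideal A}, X ≠ ⊥ → X.map (algebraMap A B) ≠ ⊥ := fun {X} hX h =>
    hX ((Ideal.map_eq_bot_iff_of_injective hinj).mp h)
  have hz : idealMult P (J.map (algebraMap A B)) = 0 := by
    refine idealMult_eq_zero fun h => hJd (Ideal.dvd_iff_le.mpr ?_)
    rw [← hcomap, ← Ideal.map_le_iff_le_comap]
    exact Ideal.le_of_dvd h
  conv_lhs => rw [hJ]
  rw [Ideal.map_mul, Ideal.map_pow, idealMult_mul P (pow_ne_zero _ (hne hr0)) (hne hJ0),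
    idealMult_pow, hz, add_zero, mul_comm]

/-- Primes not dividing `n` are unramified in an extension generated by an `n`-th root of unity. -/
theorem not_sq_dvd_map_of_pow_eq_one {A : Type*} (K : Type*) {B : Type*} (L : Type*) [CommRing A]
    [Field K] [CommRing B] [Field L] [Algebra A K] [Algebra B L] [Algebra A B] [Algebra A L]
    [Algebra K L] [IsScalarTower A K L] [IsScalarTower A B L] [IsDedekindDomain A]
    [IsFractionRing A K] [IsDedekindDomain B] [IsFractionRing B L] [IsIntegralClosure B A L]
    [FiniteDimensional K L] [Algebra.IsSeparable K L] [Module.Finite A B]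
    [Module.IsTorsionFree A B]
    (z : B) (hz : Algebra.adjoin K {algebraMap B L z} = ⊤) {n : ℕ} (hn0 : n ≠ 0) (hzn : z ^ n = 1)
    (R : Ideal B) [R.IsPrime] (hn : (n : B) ∉ R) {r : Ideal A} [r.IsMaximal] (hr : r ≠ ⊥) :
    ¬ R ^ 2 ∣ r.map (algebraMap A B) := by
  intro h
  have h1 : R ∣ differentIdeal A B := by
    simpa using pow_sub_one_dvd_differentIdeal_aux A K L R (e := 2) (by norm_num) hr h
  have h2 : aeval z (derivative (minpoly A z)) ∈ R :=
    Ideal.le_of_dvd h1 (aeval_derivative_mem_differentIdeal A K L z hz)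
  have hint : IsIntegral A z := IsIntegralClosure.isIntegral A L z
  obtain ⟨f, hf⟩ : minpoly A z ∣ X ^ n - 1 :=
    minpoly.isIntegrallyClosed_dvd hint (by simp [hzn])
  have h3 := congrArg (fun g => aeval z (derivative g)) hf
  simp only [derivative_sub, derivative_X_pow, derivative_one, sub_zero, derivative_mul, map_mul,
    map_add, minpoly.aeval, zero_mul, add_zero, map_natCast, map_pow, aeval_X] at h3
  have h4 : (n : B) * z ^ (n - 1) ∈ R := h3 ▸ Ideal.mul_mem_right _ R h2
  refine hn ?_
  have h5 := Ideal.mul_mem_right z R h4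
  rwa [mul_assoc, pow_sub_one_mul hn0, hzn, mul_one] at h5

end FLTA.Herbrand
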