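import Fermat.Agent.Herbrand.IdealMult
import Mathlib.NumberTheory.NumberField.Cyclotomic.Basic
import Mathlib.NumberTheory.Cyclotomic.Gal
import Mathlib.RingTheory.Polynomial.Cyclotomic.Eval
import Mathlib.RingTheory.RootsOfUnity.CyclotomicUnits
import Mathlib.RingTheory.Ideal.Norm.RelNorm
import Mathlib.NumberTheory.NumberField.Norm
import Mathlib.FieldTheory.Galois.Basic
import Mathlib.LinearAlgebra.LinearIndependent.Defs
import Mathlib.RingTheory.IntegralDomain

/-!
# The auxiliary extension `K(ζ_q)` in Thaine's argument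

For a number field `K` and a prime `q` with an unramified prime `Q` of norm `q`, the extension
`L = K(ζ_q)` has degree `q - 1` and `Q` is totally ramified in it.
-/

set_option autoImplicit false
set_option linter.unusedSectionVars false

open NumberField IsCyclotomicExtension Polynomial
open scoped Pointwise

noncomputable section

namespace FLTA.Herbrand

variable {K : Type*} [Field K] [NumberField K] (q : ℕ) [hq : Fact q.Prime]
  (L : Type*) [Field L] [NumberField L] [Algebra K L] [hL : IsCyclotomicExtension {q} K L]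

variable (K) in
/-- The chosen primitive `q`-th root of unity in `𝓞 L`. -/
def auxRoot : 𝓞 L := (zeta_spec q K L).toInteger

variable (K) in
theorem auxRoot_isPrimitiveRoot : IsPrimitiveRoot (auxRoot K q L) q :=
  (zeta_spec q K L).toInteger_isPrimitiveRoot

variable (K) in
theorem adjoin_auxRoot : Algebra.adjoin K {algebraMap (𝓞 L) L (auxRoot K q L)} = ⊤ :=
  adjoin_primitive_root_eq_top (zeta_spec q K L)

variable (K) in
theorem auxRoot_sub_one_pow_associated :
    Associated ((auxRoot K q L - 1) ^ (q - 1)) (q : 𝓞 L) := by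
  have hz := auxRoot_isPrimitiveRoot K q L
  have h1 : (q : 𝓞 L) = ∏ μ ∈ primitiveRoots q (𝓞 L), (1 - μ) := by
    have := congrArg (eval (1 : 𝓞 L)) (cyclotomic_eq_prod_X_sub_primitiveRoots hz)
    rwa [eval_one_cyclotomic_prime, eval_prod, Finset.prod_congr rfl (fun μ _ => by simp :
      ∀ μ ∈ primitiveRoots q (𝓞 L), eval (1 : 𝓞 L) (X - C μ) = 1 - μ)] at this
  have h2 : ∀ μ ∈ primitiveRoots q (𝓞 L), Associated (auxRoot K q L - 1) (1 - μ) := by
    intro μ hμ
    obtain ⟨i, _, hi, rfl⟩ :=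
      hz.isPrimitiveRoot_iff.mp ((mem_primitiveRoots hq.out.pos).mp hμ)
    exact (hz.associated_sub_one_pow_sub_one_of_coprime hi).trans
      (⟨-1, by simp⟩ : Associated (auxRoot K q L ^ i - 1) (1 - auxRoot K q L ^ i))
  have h3 := Associated.prod (primitiveRoots q (𝓞 L)) (fun _ => auxRoot K q L - 1)
    (fun μ => 1 - μ) h2
  rw [Finset.prod_const, hz.card_primitiveRoots, Nat.totient_prime hq.out, ← h1] at h3
  exact h3

include q hq hL in
theorem finrank_le_sub_one : Module.finrank K L ≤ q - 1 := by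
  have hζ := zeta_spec q K L
  rw [(hζ.powerBasis K).finrank, IsPrimitiveRoot.powerBasis_dim]
  calc (minpoly K (zeta q K L)).natDegree
      ≤ (cyclotomic q K).natDegree :=
        natDegree_le_of_dvd (minpoly.dvd K _ (by
          rw [← map_cyclotomic q (Int.castRingHom K), aeval_def, eval₂_map,
            RingHom.ext_int ((algebraMap K L).comp (Int.castRingHom K)) (Int.castRingHom L),
            ← eval_map, map_cyclotomic]
          exact hζ.isRoot_cyclotomic hq.out.pos)) (cyclotomic_ne_zero q K)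
    _ = q - 1 := by rw [natDegree_cyclotomic, Nat.totient_prime hq.out]

variable {q}

theorem eq_of_dvd_of_absNorm_eq {F : Type*} [Field F] [NumberField F] {I J : Ideal (𝓞 F)}
    (h : I ∣ J) (hn : Ideal.absNorm I = Ideal.absNorm J) (hJ : Ideal.absNorm J ≠ 0) : I = J := by
  obtain ⟨R, hR⟩ := h
  have h' := congrArg Ideal.absNorm hR
  rw [map_mul, hn] at h'
  rw [hR, Ideal.absNorm_eq_one_iff.mp ((mul_eq_left₀ hJ).mp h'.symm), Ideal.mul_top]

/-- Total ramification of `Q` in `K(ζ_q)`. -/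
theorem exists_totally_ramified (Q : Ideal (𝓞 K)) [Q.IsPrime] (hQ : Ideal.absNorm Q = q)
    (hQ2 : ¬ Q ^ 2 ∣ Ideal.span {(q : 𝓞 K)}) :
    Module.finrank K L = q - 1 ∧ ∃ P : Ideal (𝓞 L), P.IsMaximal ∧ Ideal.absNorm P = q ∧
      P.comap (algebraMap (𝓞 K) (𝓞 L)) = Q ∧ Q.map (algebraMap (𝓞 K) (𝓞 L)) = P ^ (q - 1) ∧
      P ∣ Ideal.span {auxRoot K q L - 1} ∧ ¬ P ^ 2 ∣ Ideal.span {auxRoot K q L - 1} := by
  have hq0 : (q : 𝓞 K) ≠ 0 := Nat.cast_ne_zero.mpr hq.out.ne_zero
  have hQbot : Q ≠ ⊥ := fun h => hq.out.ne_zero (by rw [← hQ, h, Ideal.absNorm_bot])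
  have hQmax : Q.IsMaximal := Ideal.IsPrime.isMaximal ‹_› hQbot
  have hqQ : (q : 𝓞 K) ∈ Q := hQ ▸ Ideal.absNorm_mem Q
  obtain ⟨M, hM⟩ : Q ∣ Ideal.span {(q : 𝓞 K)} :=
    Ideal.dvd_iff_le.mpr ((Ideal.span_singleton_le_iff_mem _).mpr hqQ)
  have hQM : ¬ Q ∣ M := fun ⟨R, hR⟩ => hQ2 ⟨R, by rw [hM, hR, pow_two, mul_assoc]⟩
  set f := algebraMap (𝓞 K) (𝓞 L)
  have hinj : Function.Injective f := FaithfulSMul.algebraMap_injective _ _
  have hmap0 : Q.map f ≠ ⊥ := fun h => hQbot ((Ideal.map_eq_bot_iff_of_injective hinj).mp h)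
  have hNmap : Ideal.absNorm (Q.map f) = q ^ Module.finrank K L := by
    rw [Ideal.absNorm_algebraMap, hQ, ← IsFractionRing.finrank_eq (𝓞 K) K (𝓞 L) L]
  have hmaptop : Q.map f ≠ ⊤ := fun h => by
    rw [h, Ideal.absNorm_top] at hNmap
    have hd : 0 < Module.finrank K L := Module.finrank_pos
    exact (Nat.one_lt_pow hd.ne' hq.out.one_lt).ne hNmap
  obtain ⟨P, hP, hPle⟩ := Ideal.exists_le_maximal _ hmaptop
  have hP0 : P ≠ ⊥ := fun h => hmap0 (le_bot_iff.mp (h ▸ hPle))
  have hPc : P.comap f = Q :=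
    (hQmax.eq_of_le (Ideal.comap_ne_top f hP.ne_top) (Ideal.map_le_iff_le_comap.mp hPle)).symm
  have hPp : Prime P := Ideal.prime_of_isPrime hP0 hP.isPrime
  set π := auxRoot K q L - 1
  have hpow : Ideal.span {π} ^ (q - 1) = Q.map f * M.map f := by
    rw [Ideal.span_singleton_pow, Ideal.span_singleton_eq_span_singleton.mpr
      (auxRoot_sub_one_pow_associated K q L), ← Ideal.map_mul, ← hM, Ideal.map_span,
      Set.image_singleton, map_natCast]
  have hPM : ¬ P ∣ M.map f := fun h => hQM (Ideal.dvd_iff_le.mpr (by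
    rw [← hPc, ← Ideal.map_le_iff_le_comap]; exact Ideal.le_of_dvd h))
  have hPπ : P ∣ Ideal.span {π} :=
    hPp.dvd_of_dvd_pow (hpow ▸ Dvd.dvd.mul_right (Ideal.dvd_iff_le.mpr hPle) _)
  have hdvd : P ^ (q - 1) ∣ Q.map f :=
    hPp.pow_dvd_of_dvd_mul_right _ hPM (hpow ▸ pow_dvd_pow_of_dvd hPπ _)
  have hNdvd : Ideal.absNorm P ^ (q - 1) ∣ q ^ Module.finrank K L := by
    rw [← map_pow, ← hNmap]; exact map_dvd _ hdvd
  have hd := finrank_le_sub_one (K := K) q L
  have hq1 : 1 ≤ q - 1 := by have := hq.out.two_le; omega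
  obtain ⟨e, he, hNe⟩ := (Nat.dvd_prime_pow hq.out).mp
    ((dvd_pow_self _ (by omega : q - 1 ≠ 0)).trans hNdvd)
  have he1 : 1 ≤ e := by
    by_contra h
    rw [Nat.lt_one_iff.mp (not_le.mp h), pow_zero] at hNe
    exact hP.ne_top (Ideal.absNorm_eq_one_iff.mp hNe)
  rw [hNe, ← pow_mul, Nat.pow_dvd_pow_iff_le_right hq.out.one_lt] at hNdvd
  have hfin : Module.finrank K L = q - 1 := by nlinarith
  have he' : e = 1 := by nlinarith
  rw [he', pow_one] at hNe
  have hmapeq : Q.map f = P ^ (q - 1) :=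
    (eq_of_dvd_of_absNorm_eq hdvd (by rw [map_pow, hNe, hNmap, hfin])
      (by rw [hNmap]; exact pow_ne_zero _ hq.out.ne_zero)).symm
  refine ⟨hfin, P, hP, hNe, hPc, hmapeq, hPπ, fun h2 => ?_⟩
  have h := pow_dvd_pow_of_dvd h2 (q - 1)
  rw [hpow, ← pow_mul, two_mul, pow_add, hmapeq] at h
  exact hPM ((dvd_pow_self P (by omega : q - 1 ≠ 0)).trans
    ((mul_dvd_mul_iff_left (pow_ne_zero _ hP0)).mp h))

variable (K) in
theorem natCast_auxRoot_geom_sum_sub_mem {P : Ideal (𝓞 L)} (h : auxRoot K q L - 1 ∈ P) (g : ℕ) :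
    (∑ i ∈ Finset.range g, auxRoot K q L ^ i) - (g : 𝓞 L) ∈ P := by
  induction g with
  | zero => simp
  | succ g ih =>
    obtain ⟨c, hc⟩ : auxRoot K q L - 1 ∣ auxRoot K q L ^ g - 1 := sub_one_dvd_pow_sub_one _ g
    rw [Finset.sum_range_succ, Nat.cast_succ, add_sub_add_comm]
    exact P.add_mem ih (hc ▸ P.mul_mem_right c h)

/-- Every element is congruent to a natural number modulo a prime of prime norm. -/
theorem exists_natCast_sub_mem {F : Type*} [Field F] [NumberField F] {P : Ideal (𝓞 F)}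
    (hP : Ideal.absNorm P = q) (x : 𝓞 F) : ∃ m : ℕ, x - (m : 𝓞 F) ∈ P := by
  have hcard : Nat.card (𝓞 F ⧸ P) = q := hP
  have : Finite (𝓞 F ⧸ P) := Nat.finite_of_card_ne_zero (by rw [hcard]; exact hq.out.ne_zero)
  let _ : Fintype (𝓞 F ⧸ P) := Fintype.ofFinite _
  let e := ZMod.ringEquivOfPrime (𝓞 F ⧸ P) hq.out (by rw [← Nat.card_eq_fintype_card, hcard])
  refine ⟨(e.symm (Ideal.Quotient.mk P x)).val, ?_⟩
  rw [← Ideal.Quotient.eq_zero_iff_mem, map_sub, map_natCast,
    ← map_natCast e.toRingHom, ZMod.natCast_val, ZMod.cast_id]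
  simp

end FLTA.Herbrand
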