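import Fermat.Agent.Herbrand.CycloBasic
import Fermat.Agent.Herbrand.ThaineField

/-!
# The Thaine element

From Hilbert's theorem 90 applied to the unit `1 + ζ_p ζ_q` of `K(ζ_q)`: there is `γ ∈ 𝓞 K` whose
exponents are divisible by `p` away from `q`, and whose exponent at a prime above `q` is minus the
discrete logarithm of `1 + ζ_p` modulo that prime.
-/

set_option autoImplicit false
set_option linter.unusedSectionVars false

open NumberField IsCyclotomicExtension
open scoped Pointwise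

noncomputable section

namespace FLTA.Herbrand

variable {p : ℕ} [hp : Fact p.Prime] {K : Type*} [Field K] [NumberField K]
  [hK : IsCyclotomicExtension {p} ℚ K] {q : ℕ} [hq : Fact q.Prime]
  {L : Type*} [Field L] [NumberField L] [Algebra K L] [hL : IsCyclotomicExtension {q} K L]

theorem smul_algebraMap_ringOfIntegers (σ : Gal(L/K)) (x : 𝓞 K) :
    σ • algebraMap (𝓞 K) (𝓞 L) x = algebraMap (𝓞 K) (𝓞 L) x := by
  apply RingOfIntegers.ext
  exact σ.commutes (x : K)

theorem coe_smul_ringOfIntegers (σ : Gal(L/K)) (x : 𝓞 L) :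
    ((σ • x : 𝓞 L) : L) = σ (x : L) := rfl

include hq hL in
theorem exists_smul_auxRoot_eq_pow (σ : Gal(L/K)) :
    ∃ g : ℕ, σ • auxRoot K q L = auxRoot K q L ^ g :=
  ⟨_, RingOfIntegers.ext ((zeta_spec q K L).autToPow_spec K σ).symm⟩

include hq hL in
theorem isCyclic_gal_aux : IsCyclic Gal(L/K) :=
  isCyclic_of_injective ((zeta_spec q K L).autToPow K)
    ((zeta_spec q K L).autToPow_injective K)

variable (p K q L) in
/-- The unit `1 + ζ_p ζ_q`. -/
def auxUnit : 𝓞 L := 1 + algebraMap (𝓞 K) (𝓞 L) (zetaO p K) * auxRoot K q L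

include hp hK hq hL in
theorem prod_smul_auxUnit (h3 : 3 ≤ p) (hq2 : q ≠ 2) (hqp : q % p = 1)
    (hfin : Module.finrank K L = q - 1) :
    ∏ σ : Gal(L/K), σ • auxUnit p K q L = 1 := by
  classical
  have := IsCyclotomicExtension.isGalois {q} K L
  have hz := auxRoot_isPrimitiveRoot K q L
  set z := auxRoot K q L
  set ζ := algebraMap (𝓞 K) (𝓞 L) (zetaO p K) with hζdef
  have hinj : Function.Injective (fun σ : Gal(L/K) => σ • z) := fun σ τ h => by
    apply (zeta_spec q K L).autToPow_injective K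
    apply Units.ext
    apply ZMod.val_injective
    refine (zeta_spec q K L).pow_inj (ZMod.val_lt _) (ZMod.val_lt _) ?_
    rw [IsPrimitiveRoot.autToPow_spec, IsPrimitiveRoot.autToPow_spec]
    exact congrArg (fun x : 𝓞 L => (x : L)) h
  have h1mem : (1 : 𝓞 L) ∈ Polynomial.nthRootsFinset q (1 : 𝓞 L) :=
    Polynomial.one_mem_nthRootsFinset hq.out.pos
  have himage : Finset.univ.image (fun σ : Gal(L/K) => σ • z) =
      (Polynomial.nthRootsFinset q (1 : 𝓞 L)).erase 1 := by
    refine Finset.eq_of_subset_of_card_le (fun x hx => ?_) ?_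
    · obtain ⟨σ, -, rfl⟩ := Finset.mem_image.mp hx
      refine Finset.mem_erase.mpr ⟨fun h => ?_, ?_⟩
      · exact hz.ne_one hq.out.one_lt (smul_left_cancel σ (h.trans (smul_one σ).symm))
      · rw [Polynomial.mem_nthRootsFinset hq.out.pos, ← smul_pow', hz.pow_eq_one, smul_one]
    · rw [Finset.card_image_of_injective _ hinj, Finset.card_univ, Finset.card_erase_of_mem h1mem,
        hz.card_nthRootsFinset, ← Nat.card_eq_fintype_card, IsGalois.card_aut_eq_finrank, hfin]
  have hoddq : Odd q := hq.out.odd_of_ne_two hq2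
  have hprod := hz.pow_add_pow_eq_prod_add_mul (x := (1 : 𝓞 L)) (y := ζ) hoddq
  have hζq : ζ ^ q = ζ := by
    rw [hζdef, ← map_pow, ← Nat.mod_add_div q p, hqp, pow_add, pow_mul,
      (zetaO_isPrimitiveRoot p K).pow_eq_one, one_pow, mul_one, pow_one]
  rw [one_pow, hζq, ← Finset.mul_prod_erase _ _ h1mem, one_mul, ← himage,
    Finset.prod_image fun σ _ τ _ h => hinj h] at hprod
  have hne : 1 + ζ ≠ 0 := by
    have h := (isUnit_one_add_zetaO K h3).map (algebraMap (𝓞 K) (𝓞 L))
    rw [map_add, map_one] at h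
    exact h.ne_zero
  conv_lhs at hprod => rw [← mul_one (1 + ζ)]
  rw [mul_left_cancel₀ hne hprod]
  refine Finset.prod_congr rfl fun σ _ => ?_
  show σ • (1 + ζ * z) = _
  rw [smul_add, smul_one, smul_mul', smul_algebraMap_ringOfIntegers, mul_comm]

include hp hK hq hL in
theorem isUnit_auxUnit (h3 : 3 ≤ p) (hq2 : q ≠ 2) (hqp : q % p = 1)
    (hfin : Module.finrank K L = q - 1) : IsUnit (auxUnit p K q L) := by
  refine isUnit_of_dvd_one ?_
  rw [← prod_smul_auxUnit h3 hq2 hqp hfin]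
  conv_lhs => rw [← one_smul Gal(L/K) (auxUnit p K q L)]
  exact Finset.dvd_prod_of_mem (fun σ : Gal(L/K) => σ • auxUnit p K q L) (Finset.mem_univ _)

/-- A version of Hilbert's theorem 90 for integral elements. -/
theorem exists_mul_smul_eq_of_prod_eq_one {u : 𝓞 L} (τ : Gal(L/K))
    (hτ : ∀ σ, σ ∈ Subgroup.zpowers τ) (hu : ∏ σ : Gal(L/K), σ • u = 1) :
    ∃ β : 𝓞 L, β ≠ 0 ∧ u * (τ • β) = β := by
  classical
  set d := orderOf τ
  let c : ℕ → L := fun i => ∏ j ∈ Finset.range i, (((τ ^ j) • u : 𝓞 L) : L)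
  have hbij : (Finset.range d).image (fun j => τ ^ j) = (Finset.univ : Finset Gal(L/K)) := by
    refine Finset.eq_univ_of_card _ ?_
    rw [Finset.card_image_of_injOn (fun i hi j hj h => pow_injOn_Iio_orderOf
      (by simpa using hi) (by simpa using hj) h), Finset.card_range,
      ← Nat.card_eq_fintype_card]
    exact orderOf_eq_card_of_forall_mem_zpowers hτ
  have hcd : c d = 1 := by
    have h : (∏ σ : Gal(L/K), ((σ • u : 𝓞 L) : L)) = 1 := by
      simpa using congrArg (algebraMap (𝓞 L) L) hu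
    rw [← hbij, Finset.prod_image (fun i hi j hj hij => pow_injOn_Iio_orderOf
      (by simpa using hi) (by simpa using hj) hij)] at h
    exact h
  have hli : LinearIndependent L (fun i : Fin d => ((τ ^ (i : ℕ) : Gal(L/K)) : L → L)) := by
    refine (linearIndependent_monoidHom L L).comp
      (fun i : Fin d => ((τ ^ (i : ℕ) : Gal(L/K)) : L →* L)) fun i j h => ?_
    apply Fin.ext
    refine pow_injOn_Iio_orderOf (Set.mem_Iio.mpr i.2) (Set.mem_Iio.mpr j.2) ?_
    exact AlgEquiv.ext fun x => DFunLike.congr_fun h x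
  obtain ⟨x, hx⟩ : ∃ x : L, ∑ i : Fin d, c i * (τ ^ (i : ℕ)) x ≠ 0 := by
    by_contra! h
    have hd : 0 < d := orderOf_pos τ
    have h0 := Fintype.linearIndependent_iff.mp hli (fun i => c i)
      (funext fun x => by simpa using h x) ⟨0, hd⟩
    simp [c] at h0
  obtain ⟨m, hm, hint⟩ := ((IsFractionRing.isAlgebraic_iff ℤ ℚ L).mpr
    (Algebra.IsAlgebraic.isAlgebraic (∑ i : Fin d, c i * (τ ^ (i : ℕ)) x))).exists_integral_multiple
  refine ⟨⟨_, hint⟩, fun h => ?_, ?_⟩
  · exact smul_ne_zero hm hx (congrArg (fun y : 𝓞 L => (y : L)) h)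
  · apply RingOfIntegers.ext
    show (u : L) * τ (m • ∑ i : Fin d, c i * (τ ^ (i : ℕ)) x) =
      m • ∑ i : Fin d, c i * (τ ^ (i : ℕ)) x
    have hstep : ∀ i : ℕ, (u : L) * τ (c i * (τ ^ i) x) = c (i + 1) * (τ ^ (i + 1)) x := by
      intro i
      rw [map_mul, map_prod, ← AlgEquiv.mul_apply, ← pow_succ', ← mul_assoc]
      congr 1
      simp only [c, Finset.prod_range_succ', pow_zero, one_smul, ← coe_smul_ringOfIntegers,
        smul_smul, ← pow_succ']
      ring
    rw [map_zsmul, mul_smul_comm, map_sum, Finset.mul_sum,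
      Fin.sum_univ_eq_sum_range (fun i => (u : L) * τ (c i * (τ ^ i) x)),
      Fin.sum_univ_eq_sum_range (fun i => c i * (τ ^ i) x)]
    congr 1
    simp only [hstep]
    have h1 := Finset.sum_range_succ' (fun i => c i * (τ ^ i) x) d
    have h2 := Finset.sum_range_succ (fun i => c i * (τ ^ i) x) d
    have hc0 : c 0 * (τ ^ 0) x = c d * (τ ^ d) x := by
      rw [hcd, pow_orderOf_eq_one]
      simp [c]
    rw [h2, hc0] at h1
    exact add_right_cancel h1.symm

variable (L) in
include hp hK hq hL in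
/-- The Thaine element. -/
theorem exists_thaine_element (h3 : 3 ≤ p) (hq2 : q ≠ 2) (hqp : q % p = 1)
    (hprimes : ∀ Q : Ideal (𝓞 K), Q.IsPrime → Ideal.absNorm Q = q →
      ¬ Q ^ 2 ∣ Ideal.span {(q : 𝓞 K)})
    (Q₀ : Ideal (𝓞 K)) [hQ₀ : Q₀.IsPrime] (hN₀ : Ideal.absNorm Q₀ = q) :
    ∃ γ : 𝓞 K, γ ≠ 0 ∧ ∃ g : ℕ,
      (∀ r : Ideal (𝓞 K), r.IsPrime → r ≠ ⊥ → (q : 𝓞 K) ∉ r →
        p ∣ idealMult r (Ideal.span {γ})) ∧
      ∀ Q : Ideal (𝓞 K), Q.IsPrime → Ideal.absNorm Q = q →
        (g : 𝓞 K) ^ idealMult Q (Ideal.span {γ}) * (1 + zetaO p K) - 1 ∈ Q := by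
  have hGal := IsCyclotomicExtension.isGalois {q} K L
  have hfin : Module.finrank K L = q - 1 :=
    (exists_totally_ramified L Q₀ hN₀ (hprimes Q₀ hQ₀ hN₀)).1
  have hcyc := isCyclic_gal_aux (K := K) (q := q) (L := L)
  obtain ⟨τ, hτ⟩ := IsCyclic.exists_generator (α := Gal(L/K))
  obtain ⟨g, hg⟩ := exists_smul_auxRoot_eq_pow (q := q) τ
  set z := auxRoot K q L
  set f := algebraMap (𝓞 K) (𝓞 L)
  set u := auxUnit p K q L with hu
  obtain ⟨β, hβ0, hβ⟩ := exists_mul_smul_eq_of_prod_eq_one τ hτ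
    (prod_smul_auxUnit (p := p) (K := K) (L := L) h3 hq2 hqp hfin)
  have hassoc : ∀ σ : Gal(L/K), Associated (σ • β) β := by
    intro σ
    obtain ⟨n, rfl⟩ := mem_powers_iff_mem_zpowers.mpr (hτ σ)
    induction n with
    | zero => simp only [pow_zero, one_smul]; exact Associated.refl _
    | succ n ih =>
      have h1 : Associated (τ • β) β :=
        ⟨(isUnit_auxUnit h3 hq2 hqp hfin).unit, by rw [IsUnit.unit_spec, mul_comm]; exact hβ⟩
      show Associated ((τ ^ (n + 1)) • β) β
      rw [pow_succ', mul_smul]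
      exact (ih.map (MulSemiringAction.toRingHom Gal(L/K) (𝓞 L) τ)).trans h1
  refine ⟨RingOfIntegers.norm K β, ?_, g, ?_⟩
  · intro h
    have h' := congrArg (fun y : 𝓞 K => (y : K)) h
    simp only [RingOfIntegers.coe_norm, map_zero, Algebra.norm_eq_zero_iff] at h'
    exact hβ0 (RingOfIntegers.ext h')
  set γ := RingOfIntegers.norm K β with hγdef
  have hγ : f γ = ∏ σ : Gal(L/K), σ • β := by
    apply RingOfIntegers.ext
    show algebraMap K L (γ : K) = algebraMap (𝓞 L) L (∏ σ : Gal(L/K), σ • β)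
    rw [hγdef, RingOfIntegers.coe_norm, Algebra.norm_eq_prod_automorphisms, map_prod]
    rfl
  have hγspan : (Ideal.span {γ}).map f = Ideal.span {β} ^ (q - 1) := by
    rw [Ideal.map_span, Set.image_singleton, Ideal.span_singleton_pow,
      Ideal.span_singleton_eq_span_singleton, hγ]
    have h := Associated.prod Finset.univ (fun σ : Gal(L/K) => σ • β) (fun _ => β)
      fun σ _ => hassoc σ
    rwa [Finset.prod_const, Finset.card_univ, ← Nat.card_eq_fintype_card,
      IsGalois.card_aut_eq_finrank, hfin] at h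
  have hf : Function.Injective f := FaithfulSMul.algebraMap_injective _ _
  have hβbot : Ideal.span {β} ≠ ⊥ := by simpa using hβ0
  have hγbot : Ideal.span {γ} ≠ ⊥ := by
    intro h
    rw [h, Ideal.map_bot] at hγspan
    exact pow_ne_zero _ hβbot hγspan.symm
  refine ⟨fun r hr hr0 hqr => ?_, fun Q hQ hN => ?_⟩
  · have hrmax : r.IsMaximal := hr.isMaximal hr0
    obtain ⟨R, hR, hRr⟩ : ∃ R : Ideal (𝓞 L), R.IsMaximal ∧ R.comap f = r :=
      Ideal.exists_ideal_over_maximal_of_isIntegral r (by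
        rw [(RingHom.injective_iff_ker_eq_bot _).mp hf]; exact bot_le)
    have hR0 : R ≠ ⊥ := fun h => hr0 (by rw [← hRr, h]; exact Ideal.comap_bot_of_injective f hf)
    have hqR : (q : 𝓞 L) ∉ R := fun h => hqr (by
      rw [← hRr, Ideal.mem_comap, map_natCast]; exact h)
    have hsq := not_sq_dvd_map_of_pow_eq_one K L z (adjoin_auxRoot K q L) hq.out.ne_zero
      (auxRoot_isPrimitiveRoot K q L).pow_eq_one R hqR hr0
    have h1 : idealMult R (r.map f) = 1 :=
      idealMult_eq_one hR0 (fun h => hr0 ((Ideal.map_eq_bot_iff_of_injective hf).mp h))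
        (Ideal.dvd_iff_le.mpr (Ideal.map_le_iff_le_comap.mpr hRr.ge)) hsq
    have hm := idealMult_map (P := R) hr0 hRr hγbot
    rw [hγspan, h1, one_mul, idealMult_pow] at hm
    exact hm ▸ Dvd.dvd.mul_right ((Nat.modEq_iff_dvd' hq.out.one_le).mp
      (show 1 % p = q % p by rw [hqp, Nat.one_mod_eq_one.mpr hp.out.ne_one])) _
  · obtain ⟨-, P, hP, hNP, hPc, hmap, hPπ, hPπ2⟩ :=
      exists_totally_ramified L Q hN (hprimes Q hQ hN)
    have hP0 : P ≠ ⊥ := fun h => hq.out.ne_zero (by rw [← hNP, h, Ideal.absNorm_bot])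
    have hQbot : Q ≠ ⊥ := fun h => hq.out.ne_zero (by rw [← hN, h, Ideal.absNorm_bot])
    have hPp : Prime P := Ideal.prime_of_isPrime hP0 hP.isPrime
    set n := idealMult Q (Ideal.span {γ})
    have hn : idealMult P (Ideal.span {β}) = n := by
      have hm := idealMult_map (P := P) hQbot hPc hγbot
      rw [hγspan, hmap, idealMult_pow, idealMult_pow, idealMult_self hP0, mul_one] at hm
      exact mul_left_cancel₀ (by have := hq.out.two_le; omega) hm
    obtain ⟨J, -, hJd, hJ⟩ := exists_eq_pow_mul hP0 hβbot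
    rw [hn] at hJ
    obtain ⟨M, hM⟩ := hPπ
    have hMP : ¬ M ≤ P := fun h => hPπ2 (by
      obtain ⟨R, hR⟩ := Ideal.dvd_iff_le.mpr h
      exact ⟨R, by rw [hM, hR, pow_two, mul_assoc]⟩)
    obtain ⟨b, hbM, hbP⟩ : ∃ b ∈ M ^ n, b ∉ P :=
      SetLike.not_le_iff_exists.mp fun h => hMP (hP.isPrime.le_of_pow_le h)
    have hbβ : b * β ∈ Ideal.span {z - 1} ^ n := by
      rw [hM, mul_pow, mul_comm (P ^ n) (M ^ n)]
      exact Ideal.mul_mem_mul hbM (Ideal.le_of_dvd ⟨J, hJ⟩ (Ideal.mem_span_singleton_self β))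
    rw [Ideal.span_singleton_pow, Ideal.mem_span_singleton] at hbβ
    obtain ⟨a, ha⟩ := hbβ
    have hπP : z - 1 ∈ P := Ideal.le_of_dvd ⟨M, hM⟩ (Ideal.mem_span_singleton_self _)
    have hπ0 : z - 1 ≠ 0 := sub_ne_zero.mpr ((auxRoot_isPrimitiveRoot K q L).ne_one hq.out.one_lt)
    have haP : a ∉ P := by
      intro haP
      have h1 : P ^ (n + 1) ∣ Ideal.span {b} * Ideal.span {β} := by
        rw [Ideal.span_singleton_mul_span_singleton, ha, ← Ideal.span_singleton_mul_span_singleton,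
          pow_succ]
        exact mul_dvd_mul (by rw [← Ideal.span_singleton_pow]; exact pow_dvd_pow_of_dvd ⟨M, hM⟩ n)
          (Ideal.dvd_span_singleton.mpr haP)
      have h2 := hPp.pow_dvd_of_dvd_mul_left _ (fun h => hbP (Ideal.dvd_span_singleton.mp h)) h1
      rw [hJ, pow_succ, mul_dvd_mul_iff_left (pow_ne_zero _ hP0)] at h2
      exact hJd h2
    have hτP : ∀ x ∈ P, τ • x ∈ P := by
      intro x hx
      have h1 : x ^ (q - 1) ∈ Q.map f := hmap ▸ Ideal.pow_mem_pow hx _
      have h2 : Q.map f ≤ (Q.map f).comap (MulSemiringAction.toRingHom Gal(L/K) (𝓞 L) τ) := by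
        refine Ideal.map_le_iff_le_comap.mpr fun y hy => ?_
        simp only [Ideal.mem_comap, MulSemiringAction.toRingHom_apply, f,
          smul_algebraMap_ringOfIntegers]
        exact Ideal.mem_map_of_mem _ hy
      have h3 : τ • x ^ (q - 1) ∈ Q.map f := h2 h1
      rw [smul_pow', hmap] at h3
      exact hP.isPrime.mem_of_pow_mem _ (Ideal.pow_le_self (by
        have := hq.out.two_le; omega) h3)
    set e := Ideal.Quotient.mk P
    have hτe : ∀ x : 𝓞 L, e (τ • x) = e x := by
      intro x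
      obtain ⟨m, hm⟩ := exists_natCast_sub_mem hNP x
      have h := hτP _ hm
      rw [smul_sub, ← MulSemiringAction.toRingHom_apply Gal(L/K) (𝓞 L) τ (m : 𝓞 L),
        map_natCast] at h
      exact (Ideal.Quotient.eq.mpr h).trans (Ideal.Quotient.eq.mpr hm).symm
    set s := ∑ i ∈ Finset.range g, z ^ i
    have hπs : τ • (z - 1) = s * (z - 1) := by
      rw [smul_sub, smul_one, hg, geom_sum_mul]
    have hzero : (z - 1) ^ n ≠ 0 := pow_ne_zero _ hπ0
    have heq : (τ • b) * a = u * (b * (s ^ n * (τ • a))) := by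
      have h1 : τ • (b * β) = (s * (z - 1)) ^ n * (τ • a) := by
        rw [ha, smul_mul', smul_pow', hπs]
      refine mul_left_cancel₀ hzero ?_
      calc (z - 1) ^ n * ((τ • b) * a) = (τ • b) * (b * β) := by rw [ha]; ring
        _ = b * ((τ • b) * (u * (τ • β))) := by rw [hu, hβ]; ring
        _ = b * (u * (τ • (b * β))) := by rw [smul_mul']; ring
        _ = _ := by rw [h1, mul_pow]; ring
    have hmod := congrArg e heq
    simp only [map_mul, hτe, map_pow] at hmod
    have hab : e b * e a ≠ 0 := mul_ne_zero (fun h => hbP (Ideal.Quotient.eq_zero_iff_mem.mp h))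
      fun h => haP (Ideal.Quotient.eq_zero_iff_mem.mp h)
    have hone : (1 : 𝓞 L ⧸ P) = e u * e s ^ n := by
      apply mul_left_cancel₀ hab
      rw [mul_one]
      linear_combination hmod
    have hsg : e s = (g : 𝓞 L ⧸ P) := by
      rw [← map_natCast e]
      exact Ideal.Quotient.eq.mpr (natCast_auxRoot_geom_sum_sub_mem K L hπP g)
    have huP : e u = e (f (1 + zetaO p K)) := by
      have hz1 : e z = 1 := by
        rw [← map_one e]; exact Ideal.Quotient.eq.mpr hπP
      simp only [hu, auxUnit, map_add, map_one, map_mul, f, z, hz1, mul_one]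
    rw [hsg, huP, ← map_natCast e, ← map_pow, ← map_mul, ← map_one e] at hone
    rw [← hPc, Ideal.mem_comap, map_sub, map_mul, map_pow, map_natCast, map_one, mul_comm]
    exact Ideal.Quotient.eq.mp hone.symm

end FLTA.Herbrand
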