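import Fermat.Agent.Herbrand.CycloBasic
import Mathlib.LinearAlgebra.Trace
import Mathlib.NumberTheory.NumberField.Cyclotomic.Embeddings

/-!
# The Galois action on units modulo torsion

`unitMatrix σ` is the matrix of `σ` on the units of `ℚ(ζ_p)` modulo torsion, in a fundamental
system; its trace is the number of infinite places fixed by `σ`, minus one.
-/

set_option autoImplicit false
set_option linter.unusedSectionVars false
set_option maxSynthPendingDepth 3

open NumberField NumberField.Units NumberField.Units.dirichletUnitTheorem IsCyclotomicExtension Module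

noncomputable section

namespace FLTA.Herbrand

variable {K : Type*} [Field K] [NumberField K]

theorem galUnit_mul (σ τ : Gal(K/ℚ)) (u : (𝓞 K)ˣ) : galUnit (σ * τ) u = galUnit σ (galUnit τ u) :=
  Units.ext (by simp [mul_smul])

variable (K) in
/-- Coordinates of a unit in the fundamental system. -/
def unitCoord : Additive (𝓞 K)ˣ →+ (Fin (rank K) → ℤ) where
  toFun u i := (basisModTorsion K).repr (MonoidHom.toAdditive (QuotientGroup.mk' (torsion K)) u) i
  map_zero' := by
    funext i
    simp only [map_zero, Finsupp.coe_zero, Pi.zero_apply]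
  map_add' u v := by
    funext i
    simp only [map_add, Finsupp.coe_add, Pi.add_apply]

theorem unitCoord_eq (u : (𝓞 K)ˣ) (i : Fin (rank K)) :
    unitCoord K (Additive.ofMul u) i = (basisModTorsion K).repr (Additive.ofMul ↑u) i := rfl

theorem exists_eq_mul_prod (u : (𝓞 K)ˣ) :
    ∃ t ∈ torsion K, u = t * ∏ i, fundSystem K i ^ unitCoord K (Additive.ofMul u) i := by
  obtain ⟨⟨⟨t, ht⟩, f⟩, h, -⟩ := exist_unique_eq_mul_prod K u
  have hf := fun_eq_repr K ht h
  refine ⟨t, ht, ?_⟩
  have hc : ∀ i, unitCoord K (Additive.ofMul u) i = f i := fun i => (congrFun hf i).symm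
  simp only [hc]
  exact h

theorem unitCoord_fundSystem (i : Fin (rank K)) :
    unitCoord K (Additive.ofMul (fundSystem K i)) = Pi.single i 1 := by
  funext j
  rw [unitCoord_eq, fundSystem_mk, Basis.repr_self, Finsupp.single_eq_pi_single]

theorem unitCoord_torsion {t : (𝓞 K)ˣ} (ht : t ∈ torsion K) :
    unitCoord K (Additive.ofMul t) = 0 := by
  funext i
  have h : (Additive.ofMul (↑t : (𝓞 K)ˣ ⧸ torsion K)) = 0 :=
    congrArg Additive.ofMul ((QuotientGroup.eq_one_iff t).mpr ht)
  rw [unitCoord_eq, h, map_zero, Finsupp.coe_zero]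

theorem galUnit_mem_torsion (σ : Gal(K/ℚ)) {t : (𝓞 K)ˣ} (ht : t ∈ torsion K) :
    galUnit σ t ∈ torsion K := by
  obtain ⟨n, hn, h⟩ := isOfFinOrder_iff_pow_eq_one.mp ((CommGroup.mem_torsion _).mp ht)
  exact (CommGroup.mem_torsion _).mpr
    (isOfFinOrder_iff_pow_eq_one.mpr ⟨n, hn, by rw [← map_pow, h, map_one]⟩)

/-- The matrix of `σ` on units modulo torsion. -/
def unitMatrix (σ : Gal(K/ℚ)) : Matrix (Fin (rank K)) (Fin (rank K)) ℤ :=
  fun i j => unitCoord K (Additive.ofMul (galUnit σ (fundSystem K j))) i

theorem unitCoord_galUnit (σ : Gal(K/ℚ)) (u : (𝓞 K)ˣ) :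
    unitCoord K (Additive.ofMul (galUnit σ u)) =
      (unitMatrix σ).mulVec (unitCoord K (Additive.ofMul u)) := by
  obtain ⟨t, ht, hu⟩ := exists_eq_mul_prod u
  conv_lhs => rw [hu]
  rw [map_mul, ofMul_mul, map_add, unitCoord_torsion (galUnit_mem_torsion σ ht), zero_add,
    map_prod, ofMul_prod, map_sum]
  ext i
  simp only [map_zpow, ofMul_zpow, map_zsmul, Finset.sum_apply, Pi.smul_apply, Matrix.mulVec,
    dotProduct, unitMatrix, smul_eq_mul]
  exact Finset.sum_congr rfl fun j _ => mul_comm _ _

theorem unitMatrix_mul (σ τ : Gal(K/ℚ)) :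
    unitMatrix (σ * τ) = unitMatrix σ * unitMatrix τ := by
  ext i j
  rw [unitMatrix, galUnit_mul, unitCoord_galUnit]
  rfl

/-- The vector of logarithms at all infinite places. -/
def logVec : Additive (𝓞 K)ˣ →+ (InfinitePlace K → ℝ) where
  toFun u w := Real.log (w ((u.toMul : (𝓞 K)ˣ) : K))
  map_zero' := by ext w; simp
  map_add' u v := by
    ext w
    simp only [toMul_add, Units.coe_mul, map_mul, Pi.add_apply]
    exact Real.log_mul (InfinitePlace.pos_iff.mpr (NumberField.Units.coe_ne_zero _)).ne'
      (InfinitePlace.pos_iff.mpr (NumberField.Units.coe_ne_zero _)).ne'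

theorem logVec_apply (u : (𝓞 K)ˣ) (w : InfinitePlace K) :
    logVec (Additive.ofMul u) w = Real.log (w (u : K)) := rfl

theorem logVec_torsion {t : (𝓞 K)ˣ} (ht : t ∈ torsion K) : logVec (Additive.ofMul t) = 0 := by
  ext w
  rw [logVec_apply, (mem_torsion K).mp ht w, Real.log_one, Pi.zero_apply]

theorem logVec_eq_sum (u : (𝓞 K)ˣ) :
    logVec (Additive.ofMul u) =
      ∑ i, (unitCoord K (Additive.ofMul u) i : ℝ) • logVec (Additive.ofMul (fundSystem K i)) := by
  obtain ⟨t, ht, hu⟩ := exists_eq_mul_prod u
  conv_lhs => rw [hu]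
  rw [ofMul_mul, map_add, logVec_torsion ht, zero_add, ofMul_prod, map_sum]
  refine Finset.sum_congr rfl fun i _ => ?_
  rw [ofMul_zpow, map_zsmul, ← Int.cast_smul_eq_zsmul ℝ]

theorem logVec_galUnit (σ : Gal(K/ℚ)) (u : (𝓞 K)ˣ) (w : InfinitePlace K) :
    logVec (Additive.ofMul (galUnit σ u)) w = logVec (Additive.ofMul u) (σ⁻¹ • w) := by
  rw [logVec_apply, logVec_apply, InfinitePlace.smul_apply]
  rfl

/-- The constant function together with the logarithms of the fundamental units. -/
def placeVec : Option (Fin (rank K)) → (InfinitePlace K → ℝ)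
  | none => fun _ => 1
  | some i => logVec (Additive.ofMul (fundSystem K i))

theorem linearIndependent_placeVec : LinearIndependent ℝ (placeVec (K := K)) := by
  classical
  rw [Fintype.linearIndependent_iff]
  intro g hg
  have hw : ∀ w : InfinitePlace K,
      g none + ∑ i, g (some i) * logVec (Additive.ofMul (fundSystem K i)) w = 0 := by
    intro w
    have := congrFun hg w
    rw [Fintype.sum_option] at this
    simpa [placeVec, Finset.sum_apply] using this
  have h0 : g none = 0 := by
    have hsum : ∑ w : InfinitePlace K, (w.mult : ℝ) *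
        (g none + ∑ i, g (some i) * logVec (Additive.ofMul (fundSystem K i)) w) = 0 := by
      simp [hw]
    simp only [mul_add, Finset.sum_add_distrib, Finset.mul_sum, mul_left_comm _ (g (some _))] at hsum
    rw [Finset.sum_comm (s := Finset.univ) (t := Finset.univ)] at hsum
    simp only [← Finset.mul_sum, ← Finset.sum_mul, logVec_apply, sum_mult_mul_log, mul_zero,
      Finset.sum_const_zero, add_zero] at hsum
    have hpos : (0 : ℝ) < ∑ w : InfinitePlace K, (w.mult : ℝ) :=
      Finset.sum_pos (fun w _ => by exact_mod_cast InfinitePlace.mult_pos) Finset.univ_nonempty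
    exact (mul_eq_zero.mp hsum).resolve_left hpos.ne'
  have hli := ((basisUnitLattice K).ofZLatticeBasis ℝ (unitLattice K)).linearIndependent
  rw [Fintype.linearIndependent_iff] at hli
  have h1 := hli (fun i => g (some i)) ?_
  · rintro (_ | i)
    exacts [h0, h1 i]
  · funext w
    simp only [Basis.ofZLatticeBasis_apply, ← logEmbedding_fundSystem, Finset.sum_apply,
      Pi.smul_apply, smul_eq_mul, logEmbedding_component, Pi.zero_apply]
    have := hw w.1
    rw [h0, zero_add] at this
    simp only [logVec_apply] at this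
    simp only [mul_left_comm _ ((w.1.mult : ℕ) : ℝ), ← Finset.mul_sum, this, mul_zero]

/-- The basis of the space of functions on infinite places given by `placeVec`. -/
def placeBasis : Basis (Option (Fin (rank K))) ℝ (InfinitePlace K → ℝ) :=
  basisOfLinearIndependentOfCardEqFinrank linearIndependent_placeVec (by
    rw [finrank_pi, Fintype.card_option, Fintype.card_fin, NumberField.Units.rank]
    exact Nat.sub_add_cancel Fintype.card_pos)

theorem placeBasis_apply (o : Option (Fin (rank K))) : placeBasis o = placeVec (K := K) o := by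
  rw [placeBasis, coe_basisOfLinearIndependentOfCardEqFinrank]

open scoped Classical in
/-- The trace of `σ` on units modulo torsion. -/
theorem trace_unitMatrix (σ : Gal(K/ℚ)) :
    ((unitMatrix σ).trace : ℝ) =
      ∑ w : InfinitePlace K, (if σ⁻¹ • w = w then (1 : ℝ) else 0) - 1 := by
  let P : (InfinitePlace K → ℝ) →ₗ[ℝ] (InfinitePlace K → ℝ) :=
    LinearMap.funLeft ℝ ℝ fun w => σ⁻¹ • w
  have hnone : P (placeBasis none) = placeBasis none := by
    rw [placeBasis_apply]; rfl
  have hsome : ∀ j, P (placeBasis (some j)) =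
      ∑ i, (unitMatrix σ i j : ℝ) • placeBasis (some i) := by
    intro j
    simp only [placeBasis_apply]
    show P (logVec (Additive.ofMul (fundSystem K j))) = _
    have h : P (logVec (Additive.ofMul (fundSystem K j)))
        = logVec (Additive.ofMul (galUnit σ (fundSystem K j))) :=
      funext fun w => (logVec_galUnit σ _ w).symm
    rw [h, logVec_eq_sum]
    rfl
  have h1 := LinearMap.trace_eq_matrix_trace ℝ (placeBasis (K := K)) P
  have h2 := LinearMap.trace_eq_matrix_trace ℝ (Pi.basisFun ℝ (InfinitePlace K)) P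
  have e1 : (LinearMap.toMatrix placeBasis placeBasis P).trace = 1 + ((unitMatrix σ).trace : ℝ) := by
    rw [Matrix.trace, Fintype.sum_option, Matrix.trace, Int.cast_sum]
    simp only [Matrix.diag_apply, LinearMap.toMatrix_apply, hnone, hsome, map_sum, map_smul,
      Basis.repr_self, Finsupp.coe_finsetSum, Finset.sum_apply, Finsupp.smul_single, smul_eq_mul,
      mul_one, Finsupp.single_apply, Option.some.injEq, Finset.sum_ite_eq', Finset.mem_univ,
      if_true]
  have e2 : (LinearMap.toMatrix (Pi.basisFun ℝ (InfinitePlace K)) (Pi.basisFun ℝ _) P).trace =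
      ∑ w : InfinitePlace K, (if σ⁻¹ • w = w then (1 : ℝ) else 0) := by
    refine Finset.sum_congr rfl fun w _ => ?_
    simp [P, LinearMap.funLeft_apply, Pi.single_apply]
  rw [h1, e1, e2] at h2
  linarith

end FLTA.Herbrand
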